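import Mathlib
import Fermat.Prelude.Def_GaloisRep_Residual

set_option autoImplicit false

namespace Fermat.Agent.TeamA.Burnside

open Module

/-- Burnside's theorem: over an algebraically closed field, a subalgebra of `End W`
(`W` finite-dimensional, nontrivial) with no nontrivial stable subspace is everything. -/
theorem subalgebra_eq_top_of_irreducible {K W : Type*} [Field K] [IsAlgClosed K]
    [AddCommGroup W] [Module K W] [FiniteDimensional K W] [Nontrivial W]
    (B : Subalgebra K (Module.End K W))
    (hB : ∀ U : Submodule K W, (∀ b ∈ B, ∀ x ∈ U, b x ∈ U) → U = ⊥ ∨ U = ⊤) : B = ⊤ := by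
  -- `W` is a simple `B`-module
  have hsimple : IsSimpleModule B W := by
    haveI : Nontrivial (Submodule B W) := inferInstance
    refine { eq_bot_or_eq_top := fun U => ?_ }
    let U' : Submodule K W :=
      { carrier := U
        add_mem' := U.add_mem
        zero_mem' := U.zero_mem
        smul_mem' := fun c x hx => by
          have : c • x = (algebraMap K B c) • x := by
            rw [Subalgebra.smul_def]; simp
          rw [this]; exact U.smul_mem _ hx }
    rcases hB U' (fun b hb x hx => U.smul_mem ⟨b, hb⟩ hx) with h | h
    · left
      ext x
      have := congrArg (fun S : Submodule K W => x ∈ S) h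
      simpa [U'] using this
    · right
      ext x
      have := congrArg (fun S : Submodule K W => x ∈ S) h
      simpa [U'] using this
  -- Schur
  have hschur : Function.Bijective (algebraMap K (Module.End B W)) :=
    IsSimpleModule.algebraMap_end_bijective_of_isAlgClosed K
  -- finiteness over the commutant
  haveI : Module.Finite (Module.End B W) W := by
    obtain ⟨s, hs⟩ := Module.Finite.fg_top (R := K) (M := W)
    refine ⟨⟨s, ?_⟩⟩
    rw [eq_top_iff]
    intro x hxtop
    clear hxtop
    have hx : x ∈ Submodule.span K (s : Set W) := by rw [hs]; trivial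
    induction hx using Submodule.span_induction with
    | mem y hy => exact Submodule.subset_span hy
    | zero => exact Submodule.zero_mem _
    | add y z _ _ hy hz => exact Submodule.add_mem _ hy hz
    | smul c y _ hy =>
      have : c • y = (algebraMap K (Module.End B W) c) • y := by
        simp [Module.End.smul_def]
      rw [this]
      exact Submodule.smul_mem _ _ hy
  have hdens := Module.Finite.toModuleEnd_moduleEnd_surjective (R := B) (M := W)
  rw [eq_top_iff]
  intro g _
  -- view `g` as linear over the commutant
  let f : Module.End (Module.End B W) W :=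
    { toFun := g
      map_add' := g.map_add
      map_smul' := fun e x => by
        obtain ⟨c, rfl⟩ := hschur.2 e
        simp [Module.End.smul_def] }
  obtain ⟨b, hb⟩ := hdens f
  have : (b : Module.End K W) = g := by
    apply LinearMap.ext
    intro x
    have := congrArg (fun h : Module.End (Module.End B W) W => h x) hb
    have h2 : b • x = (b : Module.End K W) x := rfl
    rw [← h2]
    simpa [f] using this
  rw [← this]
  exact b.2

open scoped TensorProduct in
/-- Burnside for residual Galois representations: if `ρ` is absolutely irreducible then the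
`k`-span of its image is the full endomorphism algebra. -/
theorem span_range_eq_top {k : Type} [Field k] (ρ : ResidualGaloisRep k)
    (h : ρ.IsAbsolutelyIrreducible) :
    Submodule.span k (Set.range ρ.ρ) = (⊤ : Submodule k (Module.End k ρ.V)) := by
  let K := AlgebraicClosure k
  let ρK := ρ.baseChange K
  haveI : Nontrivial ρK.V := by
    apply Module.nontrivial_of_finrank_pos (R := K)
    rw [ρK.finrank_eq]; norm_num
  let B : Subalgebra K (Module.End K ρK.V) := Algebra.adjoin K (Set.range ρK.ρ)
  have hB : B = ⊤ := subalgebra_eq_top_of_irreducible B (fun U hU =>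
    h U (fun σ x hx => hU _ (Algebra.subset_adjoin ⟨σ, rfl⟩) x hx))
  have hspan : Submodule.span K (Set.range ρK.ρ) = ⊤ := by
    have h1 := Algebra.adjoin_eq_span K (Set.range ρK.ρ)
    have hcl : (Submonoid.closure (Set.range ρK.ρ) : Set (Module.End K ρK.V))
        = Set.range ρK.ρ := by
      rw [← MonoidHom.coe_mrange, Submonoid.closure_eq]
    rw [hcl] at h1
    rw [← h1]
    show Subalgebra.toSubmodule B = ⊤
    rw [hB]; simp
  -- extract a `K`-basis from the image
  obtain ⟨b, hbs, hbspan, hbli⟩ := exists_linearIndependent K (Set.range ρK.ρ)
  rw [hspan] at hbspan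
  have hchoose : ∀ x : b, ∃ σ, ρK.ρ σ = x.1 := fun x => hbs x.2
  choose g hg using hchoose
  haveI : Finite b := hbli.finite
  haveI : Fintype b := Fintype.ofFinite b
  -- the corresponding family over `k` is linearly independent
  have hli : LinearIndependent k (fun x : b => ρ.ρ (g x)) := by
    have h1 : LinearIndependent k (fun x : b => (x.1 : Module.End K ρK.V)) :=
      hbli.restrict_scalars' k
    have h2 : (fun x : b => (x.1 : Module.End K ρK.V)) =
        (LinearMap.baseChangeHom k K ρ.V ρ.V) ∘ (fun x : b => ρ.ρ (g x)) := by
      funext x
      rw [← hg x]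
      rfl
    rw [h2] at h1
    exact LinearIndependent.of_comp _ h1
  -- count
  have hcardK : Fintype.card b = Module.finrank K (Module.End K ρK.V) := by
    have hbasis := Module.finrank_eq_card_basis (Module.Basis.mk hbli (by
      rw [Subtype.range_coe_subtype]; simpa using hbspan.ge))
    exact hbasis.symm
  have hfin : Module.finrank K (Module.End K ρK.V) = Module.finrank k (Module.End k ρ.V) := by
    rw [Module.finrank_linearMap, Module.finrank_linearMap, ρK.finrank_eq, ρ.finrank_eq]
  have htop := hli.span_eq_top_of_card_eq_finrank' (hcardK.trans hfin)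
  rw [eq_top_iff, ← htop]
  apply Submodule.span_mono
  rintro _ ⟨x, rfl⟩
  exact ⟨g x, rfl⟩

/-- Finitely supported form of Burnside: every endomorphism is a finite `k`-linear combination
of the `ρ σ`. -/
theorem exists_finsupp_sum_eq {k : Type} [Field k] (ρ : ResidualGaloisRep k)
    (h : ρ.IsAbsolutelyIrreducible) (f : Module.End k ρ.V) :
    ∃ c : (AlgebraicClosure ℚ ≃ₐ[ℚ] AlgebraicClosure ℚ) →₀ k,
      (c.sum fun σ a => a • ρ.ρ σ) = f := by
  have hf : f ∈ Submodule.span k (Set.range ρ.ρ) := by
    rw [span_range_eq_top ρ h]; trivial
  exact (Finsupp.mem_span_range_iff_exists_finsupp).mp hf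

end Fermat.Agent.TeamA.Burnside
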