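/-
TeamA (S53): matrix-function interface for `GaloisRepAdic`.
All declarations live in `Fermat.Agent.TeamA.Rep`.
-/
import Mathlib
import Fermat.Prelude.Def_GaloisRep_DeformationRingData
import Fermat.Prelude.Def_GaloisRep_DeformationCondition

set_option autoImplicit false

open scoped TensorProduct

namespace Fermat.Agent.TeamA.Rep

local notation "Γℚ" => (AlgebraicClosure ℚ ≃ₐ[ℚ] AlgebraicClosure ℚ)

section MatOf

variable {A : Type} [CommRing A] [IsLocalRing A]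

/-- The matrix function of a based representation. -/
noncomputable def matOf (ρ : GaloisRepAdic A) (b : Module.Basis (Fin 2) A ρ.V) (g : Γℚ) :
    Matrix (Fin 2) (Fin 2) A :=
  LinearMap.toMatrix b b (ρ.ρ g)

theorem matOf_one (ρ : GaloisRepAdic A) (b : Module.Basis (Fin 2) A ρ.V) :
    matOf ρ b 1 = 1 := by
  unfold matOf
  rw [map_one]
  exact LinearMap.toMatrix_one b

theorem matOf_mul (ρ : GaloisRepAdic A) (b : Module.Basis (Fin 2) A ρ.V) (g h : Γℚ) :
    matOf ρ b (g * h) = matOf ρ b g * matOf ρ b h := by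
  unfold matOf
  rw [map_mul]
  exact LinearMap.toMatrix_mul b _ _

/-- Matrix functions bundled as monoid homomorphisms. -/
noncomputable def matOfHom (ρ : GaloisRepAdic A) (b : Module.Basis (Fin 2) A ρ.V) :
    Γℚ →* Matrix (Fin 2) (Fin 2) A where
  toFun := matOf ρ b
  map_one' := matOf_one ρ b
  map_mul' := matOf_mul ρ b

@[simp] theorem matOfHom_apply (ρ : GaloisRepAdic A) (b : Module.Basis (Fin 2) A ρ.V) (g : Γℚ) :
    matOfHom ρ b g = matOf ρ b g := rfl

/-- Adic continuity of a matrix valued function on the Galois group. -/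
def MatCont (r : Γℚ → Matrix (Fin 2) (Fin 2) A) : Prop :=
  ∀ n : ℕ, ∃ L : IntermediateField ℚ (AlgebraicClosure ℚ), FiniteDimensional ℚ L ∧
    ∀ σ : Γℚ, (∀ x ∈ L, σ x = x) →
      ∀ i j, (r σ - 1) i j ∈ IsLocalRing.maximalIdeal A ^ n

theorem repr_mem_of_mem_smul_top {M : Type} [AddCommGroup M] [Module A M]
    (b : Module.Basis (Fin 2) A M) (I : Ideal A) {x : M}
    (hx : x ∈ I • (⊤ : Submodule A M)) (i : Fin 2) : b.repr x i ∈ I := by
  refine Submodule.smul_induction_on hx ?_ ?_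
  · intro a ha m _
    rw [map_smul, Finsupp.smul_apply, smul_eq_mul]
    exact I.mul_mem_right _ ha
  · intro x y hx hy
    rw [map_add, Finsupp.add_apply]
    exact I.add_mem hx hy

theorem matCont_matOf (ρ : GaloisRepAdic A) (b : Module.Basis (Fin 2) A ρ.V) :
    MatCont (matOf ρ b) := by
  intro n
  obtain ⟨L, hL, h⟩ := ρ.isAdicContinuous n
  refine ⟨L, hL, fun σ hσ i j => ?_⟩
  have h1 : (matOf ρ b σ - 1) i j = b.repr (ρ.ρ σ (b j) - b j) i := by
    unfold matOf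
    rw [Matrix.sub_apply, LinearMap.toMatrix_apply, map_sub, Finsupp.sub_apply,
      Matrix.one_apply, Module.Basis.repr_self, Finsupp.single_apply]
    congr 1
    by_cases hij : i = j
    · simp [hij]
    · simp [hij, Ne.symm hij]
  rw [h1]
  exact repr_mem_of_mem_smul_top b _ (h σ hσ (b j)) i

end MatOf

section Conj
variable {A : Type} [CommRing A] [IsLocalRing A]

/-- Conjugate matrix functions give equivalent representations. -/
theorem isEquiv_of_conj (ρ₁ ρ₂ : GaloisRepAdic A)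
    (b₁ : Module.Basis (Fin 2) A ρ₁.V) (b₂ : Module.Basis (Fin 2) A ρ₂.V)
    (M M' : Matrix (Fin 2) (Fin 2) A) (h1 : M * M' = 1) (h2 : M' * M = 1)
    (h : ∀ g, M * matOf ρ₁ b₁ g = matOf ρ₂ b₂ g * M) : ρ₁.IsEquiv ρ₂ := by
  refine ⟨⟨Matrix.toLinOfInv b₁ b₂ h1 h2, fun σ x => ?_⟩⟩
  have key : (Matrix.toLin b₁ b₂ M) ∘ₗ (ρ₁.ρ σ) = (ρ₂.ρ σ) ∘ₗ (Matrix.toLin b₁ b₂ M) := by
    apply (LinearMap.toMatrix b₁ b₂).injective
    rw [LinearMap.toMatrix_comp b₁ b₁ b₂, LinearMap.toMatrix_comp b₁ b₂ b₂,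
      LinearMap.toMatrix_toLin]
    exact h σ
  exact congrArg (fun f => f x) key

theorem isEquiv_of_matOf_eq (ρ₁ ρ₂ : GaloisRepAdic A)
    (b₁ : Module.Basis (Fin 2) A ρ₁.V) (b₂ : Module.Basis (Fin 2) A ρ₂.V)
    (h : ∀ g, matOf ρ₁ b₁ g = matOf ρ₂ b₂ g) : ρ₁.IsEquiv ρ₂ :=
  isEquiv_of_conj ρ₁ ρ₂ b₁ b₂ 1 1 (one_mul 1) (one_mul 1) (fun g => by rw [one_mul, mul_one, h g])

/-- Equivalent representations have conjugate matrix functions. -/
theorem exists_conj_of_isEquiv (ρ₁ ρ₂ : GaloisRepAdic A)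
    (b₁ : Module.Basis (Fin 2) A ρ₁.V) (b₂ : Module.Basis (Fin 2) A ρ₂.V)
    (h : ρ₁.IsEquiv ρ₂) :
    ∃ M M' : Matrix (Fin 2) (Fin 2) A, M * M' = 1 ∧ M' * M = 1 ∧
      ∀ g, M * matOf ρ₁ b₁ g = matOf ρ₂ b₂ g * M := by
  obtain ⟨e⟩ := h
  refine ⟨LinearMap.toMatrix b₁ b₂ e.toLinearEquiv.toLinearMap,
    LinearMap.toMatrix b₂ b₁ e.toLinearEquiv.symm.toLinearMap, ?_, ?_, fun g => ?_⟩
  · rw [← LinearMap.toMatrix_comp b₂ b₁ b₂]
    simp
  · rw [← LinearMap.toMatrix_comp b₁ b₂ b₁]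
    simp
  · unfold matOf
    rw [← LinearMap.toMatrix_comp b₁ b₁ b₂, ← LinearMap.toMatrix_comp b₁ b₂ b₂]
    congr 1
    ext x
    exact e.map_apply g x

end Conj

section MatRep
variable {A : Type} [CommRing A] [IsLocalRing A]

theorem mem_smul_top_of_forall_mem (I : Ideal A) (v : Fin 2 → A) (hv : ∀ i, v i ∈ I) :
    v ∈ I • (⊤ : Submodule A (Fin 2 → A)) := by
  have : v = ∑ i : Fin 2, v i • (Pi.single i (1 : A) : Fin 2 → A) := by
    ext j
    simp [Finset.sum_apply, Pi.single_apply]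
  rw [this]
  exact Submodule.sum_mem _ fun i _ => Submodule.smul_mem_smul (hv i) Submodule.mem_top

/-- The standard representation on `Fin 2 → A` attached to a matrix valued homomorphism. -/
noncomputable def matRep (r : Γℚ →* Matrix (Fin 2) (Fin 2) A) (hr : MatCont r) :
    GaloisRepAdic A where
  V := Fin 2 → A
  finrank_eq := Module.finrank_fin_fun A
  ρ := (Matrix.toLinAlgEquiv' : Matrix (Fin 2) (Fin 2) A ≃ₐ[A] _).toAlgHom.toMonoidHom.comp r
  isAdicContinuous := by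
    intro n
    obtain ⟨L, hL, h⟩ := hr n
    refine ⟨L, hL, fun σ hσ v => ?_⟩
    apply mem_smul_top_of_forall_mem
    intro i
    have : ((Matrix.toLinAlgEquiv' : Matrix (Fin 2) (Fin 2) A ≃ₐ[A] _).toAlgHom.toMonoidHom.comp r) σ v
        - v = (r σ - 1).mulVec v := by
      rw [Matrix.sub_mulVec, Matrix.one_mulVec]
      rfl
    rw [this, Matrix.mulVec, dotProduct]
    exact Ideal.sum_mem _ fun j _ => Ideal.mul_mem_right _ _ (h σ hσ i j)

theorem matRep_ρ_apply (r : Γℚ →* Matrix (Fin 2) (Fin 2) A) (hr : MatCont r) (g : Γℚ) :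
    (matRep r hr).ρ g = Matrix.toLin' (r g) := rfl

/-- The standard basis of `matRep`. -/
noncomputable def stdBasis (r : Γℚ →* Matrix (Fin 2) (Fin 2) A) (hr : MatCont r) :
    Module.Basis (Fin 2) A (matRep r hr).V :=
  Pi.basisFun A (Fin 2)

theorem matOf_matRep (r : Γℚ →* Matrix (Fin 2) (Fin 2) A) (hr : MatCont r) (g : Γℚ) :
    matOf (matRep r hr) (stdBasis r hr) g = r g := by
  show LinearMap.toMatrix (Pi.basisFun A (Fin 2)) (Pi.basisFun A (Fin 2)) (Matrix.toLin' (r g)) = r g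
  rw [LinearMap.toMatrix_eq_toMatrix', LinearMap.toMatrix'_toLin']

end MatRep

section BaseChange
variable {A : Type} [CommRing A] [IsLocalRing A] {B : Type} [CommRing B] [IsLocalRing B]

/-- The base-changed basis. -/
noncomputable def bcBasis (φ : A →+* B) (hφ : IsLocalHom φ) (ρ : GaloisRepAdic A)
    (b : Module.Basis (Fin 2) A ρ.V) : Module.Basis (Fin 2) B (ρ.baseChangeAlong φ hφ).V :=
  letI : Algebra A B := φ.toAlgebra
  Algebra.TensorProduct.basis B b

theorem matOf_baseChangeAlong (φ : A →+* B) (hφ : IsLocalHom φ) (ρ : GaloisRepAdic A)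
    (b : Module.Basis (Fin 2) A ρ.V) (g : Γℚ) :
    matOf (ρ.baseChangeAlong φ hφ) (bcBasis φ hφ ρ b) g = (matOf ρ b g).map φ := by
  let _ : Algebra A B := φ.toAlgebra
  exact LinearMap.toMatrix_baseChange B (ρ.ρ g) b b

end BaseChange

section Residual
variable {k : Type} [Field k]

/-- The matrix function of a based residual representation. -/
noncomputable def matOfRes (ρ : ResidualGaloisRep k) (b : Module.Basis (Fin 2) k ρ.V) (g : Γℚ) :
    Matrix (Fin 2) (Fin 2) k :=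
  LinearMap.toMatrix b b (ρ.ρ g)

theorem matOfRes_one (ρ : ResidualGaloisRep k) (b : Module.Basis (Fin 2) k ρ.V) :
    matOfRes ρ b 1 = 1 := by
  unfold matOfRes
  rw [map_one]
  exact LinearMap.toMatrix_one b

theorem matOfRes_mul (ρ : ResidualGaloisRep k) (b : Module.Basis (Fin 2) k ρ.V) (g h : Γℚ) :
    matOfRes ρ b (g * h) = matOfRes ρ b g * matOfRes ρ b h := by
  unfold matOfRes
  rw [map_mul]
  exact LinearMap.toMatrix_mul b _ _

theorem res_isEquiv_of_conj (ρ₁ ρ₂ : ResidualGaloisRep k)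
    (b₁ : Module.Basis (Fin 2) k ρ₁.V) (b₂ : Module.Basis (Fin 2) k ρ₂.V)
    (M M' : Matrix (Fin 2) (Fin 2) k) (h1 : M * M' = 1) (h2 : M' * M = 1)
    (h : ∀ g, M * matOfRes ρ₁ b₁ g = matOfRes ρ₂ b₂ g * M) : ρ₁.IsEquiv ρ₂ := by
  refine ⟨⟨Matrix.toLinOfInv b₁ b₂ h1 h2, fun σ x => ?_⟩⟩
  have key : (Matrix.toLin b₁ b₂ M) ∘ₗ (ρ₁.ρ σ) = (ρ₂.ρ σ) ∘ₗ (Matrix.toLin b₁ b₂ M) := by
    apply (LinearMap.toMatrix b₁ b₂).injective
    rw [LinearMap.toMatrix_comp b₁ b₁ b₂, LinearMap.toMatrix_comp b₁ b₂ b₂,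
      LinearMap.toMatrix_toLin]
    exact h σ
  exact congrArg (fun f => f x) key

theorem res_exists_conj_of_isEquiv (ρ₁ ρ₂ : ResidualGaloisRep k)
    (b₁ : Module.Basis (Fin 2) k ρ₁.V) (b₂ : Module.Basis (Fin 2) k ρ₂.V)
    (h : ρ₁.IsEquiv ρ₂) :
    ∃ M M' : Matrix (Fin 2) (Fin 2) k, M * M' = 1 ∧ M' * M = 1 ∧
      ∀ g, M * matOfRes ρ₁ b₁ g = matOfRes ρ₂ b₂ g * M := by
  obtain ⟨e⟩ := h
  refine ⟨LinearMap.toMatrix b₁ b₂ e.toLinearEquiv.toLinearMap,
    LinearMap.toMatrix b₂ b₁ e.toLinearEquiv.symm.toLinearMap, ?_, ?_, fun g => ?_⟩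
  · rw [← LinearMap.toMatrix_comp b₂ b₁ b₂]
    simp
  · rw [← LinearMap.toMatrix_comp b₁ b₂ b₁]
    simp
  · unfold matOfRes
    rw [← LinearMap.toMatrix_comp b₁ b₁ b₂, ← LinearMap.toMatrix_comp b₁ b₂ b₂]
    congr 1
    ext x
    exact e.map_apply g x

/-- Base-changed basis for residual representations. -/
noncomputable def resBcBasis {k' : Type} [Field k'] (ψ : k →+* k') (ρ : ResidualGaloisRep k)
    (b : Module.Basis (Fin 2) k ρ.V) : Module.Basis (Fin 2) k' (ρ.baseChangeAlong ψ).V :=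
  letI : Algebra k k' := ψ.toAlgebra
  Algebra.TensorProduct.basis k' b

theorem matOfRes_baseChangeAlong {k' : Type} [Field k'] (ψ : k →+* k') (ρ : ResidualGaloisRep k)
    (b : Module.Basis (Fin 2) k ρ.V) (g : Γℚ) :
    matOfRes (ρ.baseChangeAlong ψ) (resBcBasis ψ ρ b) g = (matOfRes ρ b g).map ψ := by
  let _ : Algebra k k' := ψ.toAlgebra
  exact LinearMap.toMatrix_baseChange k' (ρ.ρ g) b b

end Residual

section ResidualOfAdic
variable {A : Type} [CommRing A] [IsLocalRing A]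

/-- The basis of the residual representation induced by a basis. -/
noncomputable def residualBasis (ρ : GaloisRepAdic A) (b : Module.Basis (Fin 2) A ρ.V) :
    Module.Basis (Fin 2) (IsLocalRing.ResidueField A) ρ.residual.V :=
  Algebra.TensorProduct.basis (IsLocalRing.ResidueField A) b

theorem matOfRes_residual (ρ : GaloisRepAdic A) (b : Module.Basis (Fin 2) A ρ.V) (g : Γℚ) :
    matOfRes ρ.residual (residualBasis ρ b) g = (matOf ρ b g).map (IsLocalRing.residue A) := by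
  exact LinearMap.toMatrix_baseChange (IsLocalRing.ResidueField A) (ρ.ρ g) b b

end ResidualOfAdic

end Fermat.Agent.TeamA.Rep
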