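import Mathlib

/-!
# Precompleteness with respect to a sum of two ideals
-/

namespace Fermat.Agent.TeamA

/-- If `A` is `I`-adically precomplete and every quotient `A ⧸ I ^ m` is `J`-adically complete
(as an `A`-module), then `A` is `(I ⊔ J)`-adically precomplete. -/
theorem isPrecomplete_sup {A : Type*} [CommRing A] (I J : Ideal A) [IsPrecomplete I A]
    (h : ∀ m : ℕ, IsAdicComplete J (A ⧸ I ^ m)) : IsPrecomplete (I ⊔ J) A := by
  refine ⟨fun {f} hf => ?_⟩
  -- translate the Cauchy condition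
  have hf' : ∀ {m n : ℕ}, m ≤ n → f m - f n ∈ (I ⊔ J) ^ m := by
    intro m n hmn
    have := hf hmn
    rw [SModEq.sub_mem] at this
    simpa using this
  -- membership in `J ^ n • ⊤` of the quotient
  have hmemQ : ∀ (m n : ℕ) (x : A), x ∈ I ^ m ⊔ J ^ n →
      (Ideal.Quotient.mk (I ^ m) x) ∈ (J ^ n • ⊤ : Submodule A (A ⧸ I ^ m)) := by
    intro m n x hx
    obtain ⟨a, ha, b, hb, rfl⟩ := Submodule.mem_sup.mp hx
    rw [map_add, Ideal.Quotient.eq_zero_iff_mem.mpr ha, zero_add]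
    have : Ideal.Quotient.mk (I ^ m) b = b • (1 : A ⧸ I ^ m) := by
      rw [Algebra.smul_def, mul_one]; rfl
    rw [this]
    exact Submodule.smul_mem_smul hb Submodule.mem_top
  have hmemQ' : ∀ (m n : ℕ) (x : A),
      (Ideal.Quotient.mk (I ^ m) x) ∈ (J ^ n • ⊤ : Submodule A (A ⧸ I ^ m)) → x ∈ I ^ m ⊔ J ^ n := by
    intro m n x hx
    -- `J ^ n • ⊤` is the image of `J ^ n`
    have himg : (J ^ n • ⊤ : Submodule A (A ⧸ I ^ m)) ≤
        Submodule.map (Ideal.Quotient.mkₐ A (I ^ m)).toLinearMap (J ^ n) := by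
      rw [Submodule.smul_le]
      intro r hr y _
      obtain ⟨y, rfl⟩ := Ideal.Quotient.mk_surjective y
      refine ⟨r * y, Ideal.mul_mem_right _ _ hr, ?_⟩
      simp [Algebra.smul_def]
    obtain ⟨b, hb, hbx⟩ := himg hx
    have : x - b ∈ I ^ m := by
      rw [← Ideal.Quotient.eq]
      exact hbx.symm
    have hx' : x = (x - b) + b := by ring
    rw [hx']
    exact Submodule.add_mem_sup this hb
  -- the limits in the quotients
  have hL : ∀ m : ℕ, ∃ L : A ⧸ I ^ m, ∀ n : ℕ,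
      Ideal.Quotient.mk (I ^ m) (f (n + m)) ≡ L [SMOD (J ^ n • ⊤ : Submodule A (A ⧸ I ^ m))] := by
    intro m
    have := (h m).toIsPrecomplete
    refine IsPrecomplete.prec this (f := fun n => Ideal.Quotient.mk (I ^ m) (f (n + m))) ?_
    intro n n' hnn'
    rw [SModEq.sub_mem, ← map_sub]
    apply hmemQ
    have h1 : f (n + m) - f (n' + m) ∈ (I ⊔ J) ^ (m + n) := by
      rw [add_comm m n]; exact hf' (by omega)
    exact Ideal.sup_pow_add_le_pow_sup_pow h1
  choose L hL using hL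
  choose ℓ hℓ using fun m => Ideal.Quotient.mk_surjective (L m)
  -- key estimate
  have key : ∀ m n : ℕ, f (n + m) - ℓ m ∈ I ^ m ⊔ J ^ n := by
    intro m n
    apply hmemQ'
    have := hL m n
    rw [SModEq.sub_mem] at this
    rwa [map_sub, hℓ]
  -- the `ℓ m` form an `I`-adic Cauchy sequence
  have hℓC : ∀ {m m' : ℕ}, m ≤ m' → ℓ m ≡ ℓ m' [SMOD (I ^ m • ⊤ : Submodule A A)] := by
    intro m m' hmm'
    rw [SModEq.sub_mem]
    simp only [smul_eq_mul, Ideal.mul_top]
    -- use Hausdorffness of `A ⧸ I ^ m`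
    have hH := (h m).toIsHausdorff
    have : Ideal.Quotient.mk (I ^ m) (ℓ m - ℓ m') = 0 := by
      apply IsHausdorff.haus hH
      intro n
      rw [SModEq.sub_mem, sub_zero]
      apply hmemQ
      -- ℓ m - ℓ m' = (f (n+m') - ℓ m') - (f (n + m') - f (n+m)) - (f (n+m) - ℓ m)
      have e : ℓ m - ℓ m' = (f (n + m') - ℓ m') - (f (n + m') - f (n + m)) - (f (n + m) - ℓ m) := by
        ring
      rw [e]
      refine sub_mem (sub_mem ?_ ?_) (key m n)
      · have := key m' n
        have hle : I ^ m' ⊔ J ^ n ≤ I ^ m ⊔ J ^ n :=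
          sup_le_sup_right (Ideal.pow_le_pow_right hmm') (J ^ n)
        exact hle this
      · have h1 : f (n + m) - f (n + m') ∈ (I ⊔ J) ^ (m + n) := by
          rw [add_comm m n]; exact hf' (by omega)
        have h2 := Ideal.sup_pow_add_le_pow_sup_pow h1
        rw [← neg_sub]
        exact neg_mem h2
    exact Ideal.Quotient.eq_zero_iff_mem.mp this
  obtain ⟨Linf, hLinf⟩ := IsPrecomplete.prec ‹IsPrecomplete I A› hℓC
  refine ⟨Linf, fun n => ?_⟩
  rw [SModEq.sub_mem]
  simp only [smul_eq_mul, Ideal.mul_top]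
  have h1 : f n - f (n + n) ∈ (I ⊔ J) ^ n := hf' (by omega)
  have h2 : f (n + n) - ℓ n ∈ I ^ n ⊔ J ^ n := key n n
  have h3 : ℓ n - Linf ∈ I ^ n := by
    have := hLinf n
    rw [SModEq.sub_mem] at this
    simpa using this
  have e : f n - Linf = (f n - f (n + n)) + (f (n + n) - ℓ n) + (ℓ n - Linf) := by ring
  rw [e]
  refine add_mem (add_mem h1 ?_) ?_
  · have hle : I ^ n ⊔ J ^ n ≤ (I ⊔ J) ^ n :=
      sup_le (Ideal.pow_right_mono le_sup_left n) (Ideal.pow_right_mono le_sup_right n)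
    exact hle h2
  · exact Ideal.pow_right_mono le_sup_left n h3

end Fermat.Agent.TeamA
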