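import Mathlib
import Fermat.Prelude.Thm_IsAdicComplete_of_module_finite
import Fermat.Prelude.Thm_IsLocalRing_isAdicComplete_of_module_finite
import Fermat.Agent.TeamA.AdicSup

/-!
# Commutative algebra of `MvPowerSeries σ 𝒪` over a complete local base
-/

namespace Fermat.Agent.TeamA

open IsLocalRing MvPowerSeries

section Trunc

variable {σ : Type*} [Finite σ] {R : Type*} [CommRing R]

/-- The ideal generated by the variables. -/
noncomputable abbrev varIdeal (σ : Type*) (R : Type*) [CommRing R] : Ideal (MvPowerSeries σ R) :=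
  Ideal.span (Set.range X)

omit [Finite σ] in
theorem map_idealOfVars_eq :
    Ideal.map (algebraMap (MvPolynomial σ R) (MvPowerSeries σ R)) (MvPolynomial.idealOfVars σ R) =
      varIdeal σ R := by
  rw [Ideal.map_span, ← Set.range_comp]
  congr 2
  ext1 i
  simp [MvPowerSeries.algebraMap_apply', MvPolynomial.coe_X]

theorem ker_truncTotalAlgHom_le (n : ℕ) :
    RingHom.ker (truncTotalAlgHom σ R n) ≤ varIdeal σ R ^ n := by
  intro f hf
  rw [RingHom.mem_ker] at hf
  set e := toAdicCompletionAlgEquiv σ R with he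
  have h1 : e f ∈ (AdicCompletion.eval (MvPolynomial.idealOfVars σ R) (MvPolynomial σ R) n).ker := by
    rw [LinearMap.mem_ker]
    show (e f).val n = 0
    rw [he, toAdicCompletionAlgEquiv_apply, toAdicCompletion_apply_eq_mk_truncTotal]
    have h2 : (truncTotal n f : MvPolynomial σ R) ∈ MvPolynomial.idealOfVars σ R ^ n :=
      Ideal.Quotient.eq_zero_iff_mem.mp hf
    rw [Ideal.Quotient.eq_zero_iff_mem]
    simpa using h2
  rw [← AdicCompletion.pow_smul_top_eq_ker_eval (MvPolynomial.idealOfVars_fg σ R)] at h1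
  have h3 : f ∈ Submodule.map e.symm.toLinearMap
      (MvPolynomial.idealOfVars σ R ^ n • (⊤ : Submodule (MvPolynomial σ R) _)) :=
    ⟨e f, h1, by simp⟩
  rw [Submodule.map_smul'', Submodule.map_top, LinearMap.range_eq_top.mpr
    (by exact e.symm.surjective), Ideal.smul_top_eq_map, Submodule.restrictScalars_mem,
    Ideal.map_pow, map_idealOfVars_eq] at h3
  exact h3

theorem sub_coe_truncTotal_mem (n : ℕ) (f : MvPowerSeries σ R) :
    f - ((truncTotal n f : MvPolynomial σ R) : MvPowerSeries σ R) ∈ varIdeal σ R ^ n := by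
  apply ker_truncTotalAlgHom_le
  rw [RingHom.mem_ker, map_sub, sub_eq_zero]
  have h1 : truncTotalAlgHom σ R n ((truncTotal n f : MvPolynomial σ R) : MvPowerSeries σ R) =
      Ideal.Quotient.mk _ (truncTotal n f) :=
    (truncTotalAlgHom σ R n).commutes (truncTotal n f)
  rw [h1]
  rfl

theorem truncTotalAlgHom_surjective (n : ℕ) :
    Function.Surjective (truncTotalAlgHom σ R n) := by
  intro y
  obtain ⟨p, rfl⟩ := Ideal.Quotient.mk_surjective y
  exact ⟨(p : MvPowerSeries σ R), (truncTotalAlgHom σ R n).commutes p⟩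

theorem ker_truncTotalAlgHom (n : ℕ) :
    RingHom.ker (truncTotalAlgHom σ R n) = varIdeal σ R ^ n := by
  apply le_antisymm (ker_truncTotalAlgHom_le n)
  rw [← map_idealOfVars_eq, ← Ideal.map_pow, Ideal.map_le_iff_le_comap]
  intro p hp
  rw [Ideal.mem_comap, RingHom.mem_ker]
  have h1 : truncTotalAlgHom σ R n (algebraMap _ _ p) = Ideal.Quotient.mk _ p :=
    (truncTotalAlgHom σ R n).commutes p
  rw [h1, Ideal.Quotient.eq_zero_iff_mem]
  exact hp

instance finite_mvPolynomial_quotient_pow (n : ℕ) :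
    Module.Finite R (MvPolynomial σ R ⧸ MvPolynomial.idealOfVars σ R ^ n) := by
  classical
  have hfin := Finsupp.finite_of_degree_lt (σ := σ) n
  refine ⟨⟨hfin.toFinset.image fun d => Ideal.Quotient.mk _ (MvPolynomial.monomial d (1 : R)), ?_⟩⟩
  rw [eq_top_iff]
  rintro y -
  obtain ⟨p, rfl⟩ := Ideal.Quotient.mk_surjective y
  induction p using MvPolynomial.induction_on' with
  | monomial d r =>
    by_cases hd : Finsupp.degree d < n
    · have : (Ideal.Quotient.mk (MvPolynomial.idealOfVars σ R ^ n)) (MvPolynomial.monomial d r) =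
          r • (Ideal.Quotient.mk _ (MvPolynomial.monomial d (1 : R))) := by
        rw [← Ideal.Quotient.mkₐ_eq_mk R, ← map_smul, MvPolynomial.smul_monomial, smul_eq_mul, mul_one]
      rw [this]
      refine Submodule.smul_mem _ _ (Submodule.subset_span ?_)
      simp only [Finset.coe_image, Set.Finite.coe_toFinset, Set.mem_image, Set.mem_ofPred_eq]
      exact ⟨d, hd, rfl⟩
    · have : (Ideal.Quotient.mk (MvPolynomial.idealOfVars σ R ^ n)) (MvPolynomial.monomial d r) = 0 := by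
        rw [Ideal.Quotient.eq_zero_iff_mem, MvPolynomial.mem_pow_idealOfVars_iff']
        intro x hx
        rw [MvPolynomial.coeff_monomial, if_neg]
        rintro rfl
        exact hd hx
      rw [this]
      exact zero_mem _
  | add p q hp hq =>
    rw [map_add]
    exact add_mem hp hq

instance finite_mvPowerSeries_quotient_pow (n : ℕ) :
    Module.Finite R (MvPowerSeries σ R ⧸ varIdeal σ R ^ n) := by
  let g : MvPolynomial σ R →ₐ[R] MvPowerSeries σ R ⧸ varIdeal σ R ^ n :=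
    (Ideal.Quotient.mkₐ R (varIdeal σ R ^ n)).comp (MvPolynomial.coeToMvPowerSeries.algHom R)
  have hg : ∀ p ∈ MvPolynomial.idealOfVars σ R ^ n, g p = 0 := by
    intro p hp
    show Ideal.Quotient.mk _ _ = 0
    rw [Ideal.Quotient.eq_zero_iff_mem, ← ker_truncTotalAlgHom, RingHom.mem_ker]
    have h1 : truncTotalAlgHom σ R n (algebraMap _ _ p) = Ideal.Quotient.mk _ p :=
      (truncTotalAlgHom σ R n).commutes p
    change truncTotalAlgHom σ R n (algebraMap _ _ p) = 0
    rw [h1, Ideal.Quotient.eq_zero_iff_mem]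
    exact hp
  let g' : (MvPolynomial σ R ⧸ MvPolynomial.idealOfVars σ R ^ n) →ₐ[R]
      MvPowerSeries σ R ⧸ varIdeal σ R ^ n := Ideal.Quotient.liftₐ _ g hg
  refine Module.Finite.of_surjective g'.toLinearMap ?_
  intro y
  obtain ⟨f, rfl⟩ := Ideal.Quotient.mk_surjective y
  refine ⟨Ideal.Quotient.mk _ (truncTotal n f), ?_⟩
  show g (truncTotal n f) = _
  show Ideal.Quotient.mk _ _ = _
  rw [eq_comm, Ideal.Quotient.eq]
  exact sub_coe_truncTotal_mem n f

end Trunc

section Eval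

variable {σ : Type*} [Finite σ] {R : Type*} [CommRing R] {A : Type*} [CommRing A] [Algebra R A]

omit [Finite σ] in
theorem aeval_mem_of_mem_pow_idealOfVars (𝔞 : Ideal A) (x : σ → A) (hx : ∀ s, x s ∈ 𝔞) (c : ℕ)
    (p : MvPolynomial σ R) (hp : p ∈ MvPolynomial.idealOfVars σ R ^ c) :
    MvPolynomial.aeval x p ∈ 𝔞 ^ c := by
  have h1 : Ideal.map (MvPolynomial.aeval x : MvPolynomial σ R →ₐ[R] A)
      (MvPolynomial.idealOfVars σ R) ≤ 𝔞 := by
    rw [Ideal.map_span, Ideal.span_le]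
    rintro _ ⟨_, ⟨s, rfl⟩, rfl⟩
    simpa using hx s
  have h2 := Ideal.mem_map_of_mem (MvPolynomial.aeval x : MvPolynomial σ R →ₐ[R] A) hp
  rw [Ideal.map_pow] at h2
  exact Ideal.pow_right_mono h1 c h2

/-- Evaluation of a power series at a family of elements of a nilpotent ideal. -/
noncomputable def evalNilp (𝔞 : Ideal A) (c : ℕ) (h𝔞 : 𝔞 ^ c = ⊥) (x : σ → A)
    (hx : ∀ s, x s ∈ 𝔞) : MvPowerSeries σ R →ₐ[R] A :=
  (Ideal.Quotient.liftₐ (MvPolynomial.idealOfVars σ R ^ c) (MvPolynomial.aeval x)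
    (fun p hp => by
      have := aeval_mem_of_mem_pow_idealOfVars 𝔞 x hx c p hp
      rwa [h𝔞, Ideal.mem_bot] at this)).comp
    ((truncTotalAlgHom σ R c).restrictScalars R)

theorem evalNilp_apply (𝔞 : Ideal A) (c : ℕ) (h𝔞 : 𝔞 ^ c = ⊥) (x : σ → A)
    (hx : ∀ s, x s ∈ 𝔞) (f : MvPowerSeries σ R) :
    evalNilp 𝔞 c h𝔞 x hx f = MvPolynomial.aeval x (truncTotal c f) := rfl

theorem evalNilp_coe (𝔞 : Ideal A) (c : ℕ) (h𝔞 : 𝔞 ^ c = ⊥) (x : σ → A)
    (hx : ∀ s, x s ∈ 𝔞) (p : MvPolynomial σ R) :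
    evalNilp 𝔞 c h𝔞 x hx (p : MvPowerSeries σ R) = MvPolynomial.aeval x p := by
  have h1 : truncTotalAlgHom σ R c (algebraMap _ _ p) = Ideal.Quotient.mk _ p :=
    (truncTotalAlgHom σ R c).commutes p
  unfold evalNilp
  rw [AlgHom.comp_apply]
  change (Ideal.Quotient.liftₐ (MvPolynomial.idealOfVars σ R ^ c) (MvPolynomial.aeval x) _)
    (truncTotalAlgHom σ R c (algebraMap _ _ p)) = _
  rw [h1]
  rfl

theorem evalNilp_X (𝔞 : Ideal A) (c : ℕ) (h𝔞 : 𝔞 ^ c = ⊥) (x : σ → A)
    (hx : ∀ s, x s ∈ 𝔞) (s : σ) :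
    evalNilp (R := R) 𝔞 c h𝔞 x hx (X s) = x s := by
  rw [← MvPolynomial.coe_X, evalNilp_coe, MvPolynomial.aeval_X]

/-- An algebra map out of a power series ring into a ring in which the images of the variables
lie in a nilpotent ideal is determined by the images of the variables. -/
theorem algHom_ext_of_nilpotent (𝔞 : Ideal A) (c : ℕ) (h𝔞 : 𝔞 ^ c = ⊥)
    (ψ ψ' : MvPowerSeries σ R →ₐ[R] A) (hψ : ∀ s, ψ (X s) ∈ 𝔞)
    (h : ∀ s, ψ (X s) = ψ' (X s)) : ψ = ψ' := by
  -- both kill `varIdeal ^ c`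
  have hkill : ∀ φ : MvPowerSeries σ R →ₐ[R] A, (∀ s, φ (X s) ∈ 𝔞) →
      ∀ f ∈ varIdeal σ R ^ c, φ f = 0 := by
    intro φ hφ f hf
    have h1 : Ideal.map φ (varIdeal σ R) ≤ 𝔞 := by
      rw [varIdeal, Ideal.map_span, Ideal.span_le]
      rintro _ ⟨_, ⟨s, rfl⟩, rfl⟩
      exact hφ s
    have h2 := Ideal.mem_map_of_mem φ hf
    rw [Ideal.map_pow] at h2
    have h3 := Ideal.pow_right_mono h1 c h2
    rwa [h𝔞, Ideal.mem_bot] at h3
  -- both agree on polynomials
  have hpoly : ∀ p : MvPolynomial σ R, ψ (p : MvPowerSeries σ R) = ψ' (p : MvPowerSeries σ R) := by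
    intro p
    have e : ψ.comp (MvPolynomial.coeToMvPowerSeries.algHom R) =
        ψ'.comp (MvPolynomial.coeToMvPowerSeries.algHom R) := by
      apply MvPolynomial.algHom_ext
      intro s
      simp only [AlgHom.comp_apply, MvPolynomial.coeToMvPowerSeries.algHom_apply,
        MvPolynomial.coe_X, Algebra.algebraMap_self, MvPowerSeries.map_id, RingHom.id_apply]
      exact h s
    have := congrArg (fun φ => φ p) e
    simpa [MvPolynomial.coeToMvPowerSeries.algHom_apply] using this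
  ext f : 1
  have hf := sub_coe_truncTotal_mem c f
  have e : f = (f - ((truncTotal c f : MvPolynomial σ R) : MvPowerSeries σ R)) +
      ((truncTotal c f : MvPolynomial σ R) : MvPowerSeries σ R) := by ring
  rw [e, map_add, map_add, hkill ψ hψ _ hf, hkill ψ' (fun s => h s ▸ hψ s) _ hf, hpoly]

theorem evalNilp_range (𝔞 : Ideal A) (c : ℕ) (h𝔞 : 𝔞 ^ c = ⊥) (x : σ → A)
    (hx : ∀ s, x s ∈ 𝔞) :
    (evalNilp (R := R) 𝔞 c h𝔞 x hx).range = Algebra.adjoin R (Set.range x) := by
  apply le_antisymm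
  · rintro _ ⟨f, rfl⟩
    change evalNilp 𝔞 c h𝔞 x hx f ∈ _
    rw [evalNilp_apply, ← MvPolynomial.aeval_range x (R := R)]
    exact ⟨_, rfl⟩
  · rw [Algebra.adjoin_le_iff]
    rintro _ ⟨s, rfl⟩
    exact ⟨X s, evalNilp_X 𝔞 c h𝔞 x hx s⟩

end Eval

section Complete

variable (σ : Type*) [Finite σ] (𝒪 : Type*) [CommRing 𝒪] [IsLocalRing 𝒪]

omit [Finite σ] in
theorem mem_maximalIdeal_mvPowerSeries_iff (f : MvPowerSeries σ 𝒪) :
    f ∈ maximalIdeal (MvPowerSeries σ 𝒪) ↔ constantCoeff f ∈ maximalIdeal 𝒪 := by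
  rw [mem_maximalIdeal, mem_nonunits_iff, mem_maximalIdeal, mem_nonunits_iff,
    MvPowerSeries.isUnit_iff_constantCoeff]

omit [IsLocalRing 𝒪] in
theorem sub_C_constantCoeff_mem_varIdeal (f : MvPowerSeries σ 𝒪) :
    f - C (constantCoeff f) ∈ varIdeal σ 𝒪 := by
  classical
  have h := sub_coe_truncTotal_mem 1 f
  rw [pow_one] at h
  convert h using 2
  ext d
  rw [MvPolynomial.coeff_coe, coeff_truncTotal_eq_ite, coeff_C]
  by_cases hd : d = 0
  · subst hd
    simp
  · rw [if_neg hd, if_neg]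
    rw [Nat.lt_one_iff, Finsupp.degree_eq_zero_iff]
    exact hd

theorem maximalIdeal_mvPowerSeries :
    maximalIdeal (MvPowerSeries σ 𝒪) =
      varIdeal σ 𝒪 ⊔ (maximalIdeal 𝒪).map (algebraMap 𝒪 (MvPowerSeries σ 𝒪)) := by
  apply le_antisymm
  · intro f hf
    rw [mem_maximalIdeal_mvPowerSeries_iff] at hf
    have e : f = (f - C (constantCoeff f)) + C (constantCoeff f) := by ring
    rw [e]
    refine Submodule.add_mem_sup (sub_C_constantCoeff_mem_varIdeal σ 𝒪 f) ?_
    rw [c_eq_algebraMap]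
    exact Ideal.mem_map_of_mem _ hf
  · rw [sup_le_iff]
    constructor
    · rw [varIdeal, Ideal.span_le]
      rintro _ ⟨i, rfl⟩
      rw [SetLike.mem_coe, mem_maximalIdeal_mvPowerSeries_iff, constantCoeff_X]
      exact zero_mem _
    · rw [Ideal.map_le_iff_le_comap]
      intro a ha
      rw [Ideal.mem_comap, mem_maximalIdeal_mvPowerSeries_iff, ← c_eq_algebraMap, constantCoeff_C]
      exact ha

omit [Finite σ] in
instance isLocalHom_algebraMap_mvPowerSeries :
    IsLocalHom (algebraMap 𝒪 (MvPowerSeries σ 𝒪)) := by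
  refine ⟨fun a ha => ?_⟩
  rw [← c_eq_algebraMap, MvPowerSeries.isUnit_iff_constantCoeff, constantCoeff_C] at ha
  exact ha

theorem residue_algebraMap_surjective_mvPowerSeries :
    Function.Surjective
      (IsLocalRing.residue (MvPowerSeries σ 𝒪) ∘ algebraMap 𝒪 (MvPowerSeries σ 𝒪)) := by
  intro y
  obtain ⟨f, rfl⟩ := IsLocalRing.residue_surjective y
  refine ⟨constantCoeff f, ?_⟩
  rw [Function.comp_apply, eq_comm, ← sub_eq_zero, ← map_sub, IsLocalRing.residue_eq_zero_iff,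
    ← c_eq_algebraMap]
  have := sub_C_constantCoeff_mem_varIdeal σ 𝒪 f
  rw [maximalIdeal_mvPowerSeries]
  exact Ideal.mem_sup_left this

instance finite_residueField_mvPowerSeries [Finite (ResidueField 𝒪)] :
    Finite (ResidueField (MvPowerSeries σ 𝒪)) := by
  have h := residue_algebraMap_surjective_mvPowerSeries σ 𝒪
  have h2 : Function.Surjective (IsLocalRing.ResidueField.map (algebraMap 𝒪 (MvPowerSeries σ 𝒪))) := by
    intro y
    obtain ⟨a, rfl⟩ := h y
    exact ⟨IsLocalRing.residue 𝒪 a, by simp [IsLocalRing.ResidueField.map_residue]⟩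
  exact Finite.of_surjective _ h2

variable [IsNoetherianRing 𝒪] [IsAdicComplete (maximalIdeal 𝒪) 𝒪]

omit [IsAdicComplete (maximalIdeal 𝒪) 𝒪] in
theorem finite_quotient_maximalIdeal_pow_mvPowerSeries [Finite (ResidueField 𝒪)] (c : ℕ) :
    Finite (MvPowerSeries σ 𝒪 ⧸ maximalIdeal (MvPowerSeries σ 𝒪) ^ c) :=
  IsLocalRing.finite_quotient_iff.mpr ⟨c, le_rfl⟩

/-- `𝒪⟦X₁,…,X_r⟧` is complete with respect to its maximal ideal. -/
instance isAdicComplete_maximalIdeal_mvPowerSeries :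
    IsAdicComplete (maximalIdeal (MvPowerSeries σ 𝒪)) (MvPowerSeries σ 𝒪) := by
  have hH : IsHausdorff (maximalIdeal (MvPowerSeries σ 𝒪)) (MvPowerSeries σ 𝒪) := inferInstance
  have hP : IsPrecomplete (maximalIdeal (MvPowerSeries σ 𝒪)) (MvPowerSeries σ 𝒪) := by
    rw [maximalIdeal_mvPowerSeries]
    have h0 : IsAdicComplete (varIdeal σ 𝒪) (MvPowerSeries σ 𝒪) := inferInstance
    have : IsPrecomplete (varIdeal σ 𝒪) (MvPowerSeries σ 𝒪) := h0.toIsPrecomplete
    apply isPrecomplete_sup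
    intro m
    rw [IsAdicComplete.map_algebraMap_iff]
    exact IsAdicComplete.of_module_finite (maximalIdeal 𝒪) _
  exact { toIsHausdorff := hH, toIsPrecomplete := hP }

end Complete

end Fermat.Agent.TeamA
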