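import Mathlib
import Fermat.Prelude.Def_GaloisRep_DeformationCondition

/-!
# Truncations `A ⧸ 𝔪 ^ c` of a complete local test algebra, and lifting compatible families
-/

set_option autoImplicit false

namespace Fermat.Agent.TeamA

open IsLocalRing

section Quot

variable {𝒪 : Type} [CommRing 𝒪] [IsLocalRing 𝒪]
variable {A : Type} [CommRing A] [IsLocalRing A] [Algebra 𝒪 A]

theorem maximalIdeal_pow_ne_top {c : ℕ} (hc : c ≠ 0) : maximalIdeal A ^ c ≠ ⊤ := by
  intro h
  have h1 : maximalIdeal A ^ c ≤ maximalIdeal A := Ideal.pow_le_self hc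
  rw [h] at h1
  exact (maximalIdeal.isMaximal A).ne_top (top_le_iff.mp h1)

theorem nontrivial_quotient_pow {c : ℕ} (hc : c ≠ 0) : Nontrivial (A ⧸ maximalIdeal A ^ c) :=
  Ideal.Quotient.nontrivial_iff.mpr (maximalIdeal_pow_ne_top hc)

/-- `A ⧸ 𝔪 ^ c` is local for `c ≠ 0`. -/
theorem isLocalRing_quotient_pow {c : ℕ} (hc : c ≠ 0) : IsLocalRing (A ⧸ maximalIdeal A ^ c) :=
  haveI := nontrivial_quotient_pow (A := A) hc
  IsLocalRing.of_surjective' (Ideal.Quotient.mk (maximalIdeal A ^ c)) Ideal.Quotient.mk_surjective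

/-- The quotient map `A → A ⧸ 𝔪 ^ c` is a local homomorphism. -/
theorem isLocalHom_quotient_mk_pow {c : ℕ} (hc : c ≠ 0) :
    IsLocalHom (Ideal.Quotient.mk (maximalIdeal A ^ c)) := by
  refine ⟨fun a ha => ?_⟩
  by_contra hna
  have hmem : a ∈ maximalIdeal A := hna
  have h0 : (Ideal.Quotient.mk (maximalIdeal A ^ c) a) ^ c = 0 := by
    rw [← map_pow, Ideal.Quotient.eq_zero_iff_mem]
    exact Ideal.pow_mem_pow hmem c
  haveI := nontrivial_quotient_pow (A := A) hc
  exact (ha.pow c).ne_zero h0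

/-- The maximal ideal of `A ⧸ 𝔪 ^ c` is the image of `𝔪`. -/
theorem maximalIdeal_quotient_pow {c : ℕ} (hc : c ≠ 0)
    [IsLocalRing (A ⧸ maximalIdeal A ^ c)] :
    maximalIdeal (A ⧸ maximalIdeal A ^ c) =
      (maximalIdeal A).map (Ideal.Quotient.mk (maximalIdeal A ^ c)) := by
  haveI := isLocalHom_quotient_mk_pow (A := A) hc
  ext x
  obtain ⟨a, rfl⟩ := Ideal.Quotient.mk_surjective x
  rw [mem_maximalIdeal, mem_nonunits_iff]
  constructor
  · intro h
    refine Ideal.mem_map_of_mem _ ?_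
    rw [mem_maximalIdeal, mem_nonunits_iff]
    exact fun hu => h (hu.map _)
  · intro h hu
    rw [Ideal.mem_map_iff_of_surjective _ Ideal.Quotient.mk_surjective] at h
    obtain ⟨b, hb, hab⟩ := h
    rw [← hab] at hu
    exact hb (isUnit_of_map_unit _ b hu)

/-- The maximal ideal of `A ⧸ 𝔪 ^ c` is nilpotent. -/
theorem maximalIdeal_quotient_pow_pow {c : ℕ} (hc : c ≠ 0)
    [IsLocalRing (A ⧸ maximalIdeal A ^ c)] :
    maximalIdeal (A ⧸ maximalIdeal A ^ c) ^ c = ⊥ := by
  rw [maximalIdeal_quotient_pow hc, ← Ideal.map_pow, Ideal.map_quotient_self]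

theorem isLocalHom_algebraMap_quotient_pow (hloc : IsLocalHom (algebraMap 𝒪 A)) {c : ℕ}
    (hc : c ≠ 0) : IsLocalHom (algebraMap 𝒪 (A ⧸ maximalIdeal A ^ c)) := by
  haveI := isLocalHom_quotient_mk_pow (A := A) hc
  refine ⟨fun a ha => ?_⟩
  have h1 : algebraMap 𝒪 (A ⧸ maximalIdeal A ^ c) a =
      Ideal.Quotient.mk (maximalIdeal A ^ c) (algebraMap 𝒪 A a) := rfl
  rw [h1] at ha
  exact hloc.map_nonunit a (isUnit_of_map_unit _ _ ha)

theorem residue_surjective_quotient_pow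
    (hsurj : Function.Surjective (IsLocalRing.residue A ∘ algebraMap 𝒪 A)) {c : ℕ} (hc : c ≠ 0)
    [IsLocalRing (A ⧸ maximalIdeal A ^ c)] :
    Function.Surjective
      (IsLocalRing.residue (A ⧸ maximalIdeal A ^ c) ∘ algebraMap 𝒪 (A ⧸ maximalIdeal A ^ c)) := by
  intro x
  obtain ⟨y, rfl⟩ := IsLocalRing.residue_surjective x
  obtain ⟨a, rfl⟩ := Ideal.Quotient.mk_surjective y
  obtain ⟨r, hr⟩ := hsurj (IsLocalRing.residue A a)
  refine ⟨r, ?_⟩
  simp only [Function.comp_apply] at hr ⊢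
  rw [← sub_eq_zero, ← map_sub, IsLocalRing.residue_eq_zero_iff] at hr ⊢
  rw [maximalIdeal_quotient_pow hc]
  have h1 : algebraMap 𝒪 (A ⧸ maximalIdeal A ^ c) r - Ideal.Quotient.mk (maximalIdeal A ^ c) a =
      Ideal.Quotient.mk (maximalIdeal A ^ c) (algebraMap 𝒪 A r - a) := by
    rw [map_sub]; rfl
  rw [h1]
  exact Ideal.mem_map_of_mem _ hr

theorem isArtinianRing_quotient_pow [IsNoetherianRing A] {c : ℕ} (hc : c ≠ 0)
    [IsLocalRing (A ⧸ maximalIdeal A ^ c)] :
    IsArtinianRing (A ⧸ maximalIdeal A ^ c) := by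
  rw [isArtinianRing_iff_isNilpotent_maximalIdeal]
  exact ⟨c, maximalIdeal_quotient_pow_pow hc⟩

/-- `A ⧸ 𝔪 ^ c` is an Artinian test algebra. -/
theorem isArtinianTestAlgebra_quotient_pow [IsNoetherianRing A]
    (hloc : IsLocalHom (algebraMap 𝒪 A))
    (hsurj : Function.Surjective (IsLocalRing.residue A ∘ algebraMap 𝒪 A)) {c : ℕ} (hc : c ≠ 0)
    [IsLocalRing (A ⧸ maximalIdeal A ^ c)] :
    GaloisRep.IsArtinianTestAlgebra 𝒪 (A ⧸ maximalIdeal A ^ c) where
  isLocalHom := isLocalHom_algebraMap_quotient_pow hloc hc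
  residue_surjective := residue_surjective_quotient_pow hsurj hc
  isArtinian := isArtinianRing_quotient_pow hc

/-- The residue field of a residue-surjective local `𝒪`-algebra is finite if that of `𝒪` is. -/
theorem finite_residueField_of_residue_surjective [Finite (ResidueField 𝒪)]
    (hloc : IsLocalHom (algebraMap 𝒪 A))
    (hsurj : Function.Surjective (IsLocalRing.residue A ∘ algebraMap 𝒪 A)) :
    Finite (ResidueField A) := by
  haveI := hloc
  refine Finite.of_surjective (IsLocalRing.ResidueField.map (algebraMap 𝒪 A)) ?_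
  intro x
  obtain ⟨r, hr⟩ := hsurj x
  exact ⟨IsLocalRing.residue 𝒪 r, by simpa using hr⟩

/-- `A ⧸ 𝔪 ^ c` is finite when `A` is Noetherian with finite residue field. -/
theorem finite_quotient_pow [IsNoetherianRing A] [Finite (ResidueField A)] (c : ℕ) :
    Finite (A ⧸ maximalIdeal A ^ c) := by
  haveI : Finite (A ⧸ maximalIdeal A) := inferInstanceAs (Finite (ResidueField A))
  exact Ideal.finite_quotient_pow (IsNoetherian.noetherian _) c

end Quot

section Lift

variable {𝒪 R A : Type*} [CommRing 𝒪] [CommRing R] [Algebra 𝒪 R] [CommRing A] [Algebra 𝒪 A]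

/-- Successor-compatibility implies compatibility for all `m ≤ n`. -/
theorem factor_comp_eq_of_succ (I : Ideal A) (f : ∀ c : ℕ, R →ₐ[𝒪] A ⧸ I ^ c)
    (hf : ∀ c, (Ideal.Quotient.factorₐ 𝒪 (Ideal.pow_le_pow_right (Nat.le_succ c))).comp
      (f (c + 1)) = f c) {m n : ℕ} (hle : m ≤ n) :
    (Ideal.Quotient.factorₐ 𝒪 (Ideal.pow_le_pow_right hle)).comp (f n) = f m := by
  induction n, hle using Nat.le_induction with
  | base =>
    ext x
    obtain ⟨a, ha⟩ := Ideal.Quotient.mk_surjective (f m x)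
    simp [← ha]
  | succ n hmn ih =>
    rw [← ih, ← hf n]
    ext x
    obtain ⟨a, ha⟩ := Ideal.Quotient.mk_surjective (f (n + 1) x)
    simp [← ha]

/-- A compatible family of `𝒪`-algebra maps `R → A ⧸ I ^ c` into an `I`-adically complete ring
lifts uniquely to `R → A`. -/
theorem existsUnique_algHom_of_compatible (I : Ideal A) [IsAdicComplete I A]
    (f : ∀ c : ℕ, R →ₐ[𝒪] A ⧸ I ^ c)
    (hf : ∀ c, (Ideal.Quotient.factorₐ 𝒪 (Ideal.pow_le_pow_right (Nat.le_succ c))).comp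
      (f (c + 1)) = f c) :
    ∃! F : R →ₐ[𝒪] A, ∀ c, (Ideal.Quotient.mkₐ 𝒪 (I ^ c)).comp F = f c := by
  refine ⟨IsAdicComplete.liftAlgHom I f (fun hle => factor_comp_eq_of_succ I f hf hle),
    fun c => IsAdicComplete.mkₐ_comp_liftAlgHom I f _ c, fun G hG => ?_⟩
  apply IsAdicComplete.algHom_ext I
  intro n
  rw [hG n, IsAdicComplete.mkₐ_comp_liftAlgHom]

end Lift

end Fermat.Agent.TeamA
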