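import Fermat.Agent.TeamA.TestAlg
set_option autoImplicit false
open scoped TensorProduct
open IsLocalRing Polynomial
namespace Fermat.Agent.TeamA.Rep
local notation "Γℚ" => (AlgebraicClosure ℚ ≃ₐ[ℚ] AlgebraicClosure ℚ)

section EvalFS
variable {𝒪 : Type} [CommRing 𝒪]
variable {A : Type} [CommRing A] [Algebra 𝒪 A]

/-- Evaluate a finitely supported `𝒪`-combination of group elements on a matrix function. -/
noncomputable def evalFS (a : Γℚ →₀ 𝒪) (r : Γℚ → Matrix (Fin 2) (Fin 2) A) :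
    Matrix (Fin 2) (Fin 2) A :=
  a.sum fun g c => algebraMap 𝒪 A c • r g

theorem evalFS_apply (a : Γℚ →₀ 𝒪) (r : Γℚ → Matrix (Fin 2) (Fin 2) A) (i j : Fin 2) :
    evalFS a r i j = a.sum fun g c => algebraMap 𝒪 A c * r g i j := by
  unfold evalFS
  rw [Finsupp.sum, Finsupp.sum, Matrix.sum_apply]
  rfl

theorem evalFS_map {B : Type} [CommRing B] [Algebra 𝒪 B] (φ : A →ₐ[𝒪] B) (a : Γℚ →₀ 𝒪)
    (r : Γℚ → Matrix (Fin 2) (Fin 2) A) :
    evalFS a (fun g => (r g).map φ) = (evalFS a r).map φ := by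
  ext i j
  rw [Matrix.map_apply, evalFS_apply, evalFS_apply, Finsupp.sum, Finsupp.sum, map_sum]
  refine Finset.sum_congr rfl fun g _ => ?_
  rw [map_mul, AlgHom.commutes, Matrix.map_apply]

theorem evalFS_conj (a : Γℚ →₀ 𝒪) (r : Γℚ → Matrix (Fin 2) (Fin 2) A)
    (M M' : Matrix (Fin 2) (Fin 2) A) :
    evalFS a (fun g => M * r g * M') = M * evalFS a r * M' := by
  unfold evalFS
  rw [Finsupp.sum, Finsupp.sum, Finset.mul_sum, Finset.sum_mul]
  refine Finset.sum_congr rfl fun g _ => ?_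
  rw [Matrix.mul_smul, Matrix.smul_mul]

theorem mul_evalFS (a : Γℚ →₀ 𝒪) (r : Γℚ → Matrix (Fin 2) (Fin 2) A)
    (M : Matrix (Fin 2) (Fin 2) A) :
    M * evalFS a r = evalFS a (fun g => M * r g) := by
  unfold evalFS
  rw [Finsupp.sum, Finsupp.sum, Finset.mul_sum]
  refine Finset.sum_congr rfl fun g _ => ?_
  rw [Matrix.mul_smul]

theorem evalFS_mul (a : Γℚ →₀ 𝒪) (r : Γℚ → Matrix (Fin 2) (Fin 2) A)
    (M : Matrix (Fin 2) (Fin 2) A) :
    evalFS a r * M = evalFS a (fun g => r g * M) := by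
  unfold evalFS
  rw [Finsupp.sum, Finsupp.sum, Finset.sum_mul]
  refine Finset.sum_congr rfl fun g _ => ?_
  rw [Matrix.smul_mul]

end EvalFS

section EvalFSLift
variable {𝒪 : Type} [CommRing 𝒪] [IsLocalRing 𝒪]
variable {A : Type} [CommRing A] [IsLocalRing A] [Algebra 𝒪 A]

theorem evalFS_sub_mem (a : Γℚ →₀ 𝒪) {Rt : Γℚ → Matrix (Fin 2) (Fin 2) 𝒪}
    {r : Γℚ → Matrix (Fin 2) (Fin 2) A} (h : Lifts Rt r) (i j : Fin 2) :
    evalFS a r i j - algebraMap 𝒪 A (evalFS a Rt i j) ∈ maximalIdeal A := by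
  rw [evalFS_apply, evalFS_apply, Finsupp.sum, Finsupp.sum, map_sum, ← Finset.sum_sub_distrib]
  refine Ideal.sum_mem _ fun g _ => ?_
  have : algebraMap 𝒪 A (a g) * r g i j - algebraMap 𝒪 A (algebraMap 𝒪 𝒪 (a g) * Rt g i j)
      = algebraMap 𝒪 A (a g) * (r g i j - algebraMap 𝒪 A (Rt g i j)) := by
    rw [map_mul, Algebra.algebraMap_self, RingHom.id_apply]
    ring
  rw [this]
  exact Ideal.mul_mem_left _ _ (h g i j)

end EvalFSLift
section LocalUnits
variable {A : Type} [CommRing A] [IsLocalRing A]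

theorem isUnit_of_sub_one_mem {u : A} (h : u - 1 ∈ maximalIdeal A) : IsUnit u := by
  by_contra hn
  have hu : u ∈ maximalIdeal A := (mem_maximalIdeal _).mpr hn
  have := (maximalIdeal A).sub_mem hu h
  rw [sub_sub_cancel] at this
  exact (mem_maximalIdeal _).mp this isUnit_one

theorem eq_zero_of_mul_eq_zero_of_sub_one_mem {u x : A} (h : u - 1 ∈ maximalIdeal A)
    (hx : x * u = 0) : x = 0 := by
  obtain ⟨v, hv⟩ := (isUnit_of_sub_one_mem h)
  rw [← hv] at hx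
  exact (Units.mul_left_eq_zero v).mp hx

end LocalUnits

section Normalized
variable {𝒪 : Type} [CommRing 𝒪] [IsLocalRing 𝒪]
variable {A : Type} [CommRing A] [IsLocalRing A] [Algebra 𝒪 A]

/-- The rigidifying normal form. -/
def Normalized (α β : Γℚ →₀ 𝒪) (r : Γℚ → Matrix (Fin 2) (Fin 2) A) : Prop :=
  evalFS α r 1 0 = 0 ∧ evalFS β r 0 0 = 0 ∧ evalFS β r 1 0 = 1

theorem Normalized.map {B : Type} [CommRing B] [IsLocalRing B] [Algebra 𝒪 B]
    {α β : Γℚ →₀ 𝒪} {r : Γℚ → Matrix (Fin 2) (Fin 2) A} (h : Normalized α β r)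
    (φ : A →ₐ[𝒪] B) : Normalized α β (fun g => (r g).map φ) := by
  obtain ⟨h1, h2, h3⟩ := h
  refine ⟨?_, ?_, ?_⟩
  · rw [evalFS_map, Matrix.map_apply, h1, map_zero]
  · rw [evalFS_map, Matrix.map_apply, h2, map_zero]
  · rw [evalFS_map, Matrix.map_apply, h3, map_one]

/-- The conditions on `α, β` relative to the fixed lift `Rt`:
`Rt(α) ≡ E₁₁` and `Rt(β) e₁ ≡ e₂` modulo the maximal ideal. -/
structure FrameCond (Rt : Γℚ → Matrix (Fin 2) (Fin 2) 𝒪) (α β : Γℚ →₀ 𝒪) : Prop where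
  a00 : evalFS α Rt 0 0 - 1 ∈ maximalIdeal 𝒪
  a01 : evalFS α Rt 0 1 ∈ maximalIdeal 𝒪
  a10 : evalFS α Rt 1 0 ∈ maximalIdeal 𝒪
  a11 : evalFS α Rt 1 1 ∈ maximalIdeal 𝒪
  b00 : evalFS β Rt 0 0 ∈ maximalIdeal 𝒪
  b10 : evalFS β Rt 1 0 - 1 ∈ maximalIdeal 𝒪

theorem algebraMap_mem_maximalIdeal [IsTestAlg 𝒪 A] {o : 𝒪} (ho : o ∈ maximalIdeal 𝒪) :
    algebraMap 𝒪 A o ∈ maximalIdeal A := by
  rw [mem_maximalIdeal, mem_nonunits_iff] at ho ⊢
  intro hu
  exact ho ((IsTestAlg.isLocalHom (𝒪 := 𝒪) (A := A)).map_nonunit o hu)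

theorem evalFS_mem_of_mem [IsTestAlg 𝒪 A] (a : Γℚ →₀ 𝒪) {Rt : Γℚ → Matrix (Fin 2) (Fin 2) 𝒪}
    {r : Γℚ → Matrix (Fin 2) (Fin 2) A} (h : Lifts Rt r) (i j : Fin 2)
    (h0 : evalFS a Rt i j ∈ maximalIdeal 𝒪) : evalFS a r i j ∈ maximalIdeal A := by
  have h1 := evalFS_sub_mem a h i j
  have h2 := algebraMap_mem_maximalIdeal (A := A) h0
  have := (maximalIdeal A).add_mem h1 h2
  rwa [sub_add_cancel] at this

theorem evalFS_sub_one_mem_of_mem [IsTestAlg 𝒪 A] (a : Γℚ →₀ 𝒪)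
    {Rt : Γℚ → Matrix (Fin 2) (Fin 2) 𝒪}
    {r : Γℚ → Matrix (Fin 2) (Fin 2) A} (h : Lifts Rt r) (i j : Fin 2)
    (h0 : evalFS a Rt i j - 1 ∈ maximalIdeal 𝒪) : evalFS a r i j - 1 ∈ maximalIdeal A := by
  have h1 := evalFS_sub_mem a h i j
  have h2 : algebraMap 𝒪 A (evalFS a Rt i j) - 1 ∈ maximalIdeal A := by
    have := algebraMap_mem_maximalIdeal (A := A) h0
    rwa [map_sub, map_one] at this
  have := (maximalIdeal A).add_mem h1 h2
  rwa [sub_add_sub_cancel] at this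

/-- Uniqueness of the normal form: conjugate normalized lifts are equal. -/
theorem normalized_unique [IsTestAlg 𝒪 A] {Rt : Γℚ → Matrix (Fin 2) (Fin 2) 𝒪} {α β : Γℚ →₀ 𝒪}
    (hF : FrameCond Rt α β) {r r' : Γℚ → Matrix (Fin 2) (Fin 2) A}
    (hr : Lifts Rt r) (hr' : Lifts Rt r') (hn : Normalized α β r) (hn' : Normalized α β r')
    (M M' : Matrix (Fin 2) (Fin 2) A) (h1 : M' * M = 1)
    (h : ∀ g, M * r g = r' g * M) : r = r' := by
  have hX : M * evalFS α r = evalFS α r' * M := by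
    rw [mul_evalFS, evalFS_mul]; congr 1; funext g; exact h g
  have hY : M * evalFS β r = evalFS β r' * M := by
    rw [mul_evalFS, evalFS_mul]; congr 1; funext g; exact h g
  obtain ⟨hx10, hy00, hy10⟩ := hn
  obtain ⟨hx10', hy00', hy10'⟩ := hn'
  -- the entry `M 1 0` vanishes
  have e10 := congrFun (congrFun hX 1) 0
  rw [Matrix.mul_apply, Matrix.mul_apply, Fin.sum_univ_two, Fin.sum_univ_two, hx10, hx10',
    mul_zero, add_zero, zero_mul, zero_add] at e10
  have hm10 : M 1 0 = 0 := by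
    have ha := evalFS_sub_one_mem_of_mem α hr 0 0 hF.a00
    have hd := evalFS_mem_of_mem α hr' 1 1 hF.a11
    have hu : (evalFS α r 0 0 - evalFS α r' 1 1) - 1 ∈ maximalIdeal A := by
      have := (maximalIdeal A).sub_mem ha hd
      rwa [sub_right_comm] at this
    apply eq_zero_of_mul_eq_zero_of_sub_one_mem hu
    rw [mul_sub, e10]; ring
  have e00 := congrFun (congrFun hY 0) 0
  simp only [Matrix.mul_apply, Fin.sum_univ_two, hy00, hy10, hy00',
    hm10, mul_zero, zero_mul, add_zero, zero_add, mul_one] at e00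
  have e10' := congrFun (congrFun hY 1) 0
  simp only [Matrix.mul_apply, Fin.sum_univ_two, hy00, hy10, hy10',
    hm10, mul_zero, add_zero, zero_add, mul_one, one_mul] at e10'
  have hM : M = M 0 0 • (1 : Matrix (Fin 2) (Fin 2) A) := by
    ext i j
    fin_cases i <;> fin_cases j <;> simp [hm10, e00, e10']
  funext g
  have hg := h g
  rw [hM, Matrix.smul_mul, Matrix.mul_smul, one_mul, mul_one] at hg
  have hinv : M' * (M 0 0 • (1 : Matrix (Fin 2) (Fin 2) A)) = 1 := by rw [← hM]; exact h1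
  have : (M' * (M 0 0 • (1 : Matrix (Fin 2) (Fin 2) A))) * r g
      = (M' * (M 0 0 • (1 : Matrix (Fin 2) (Fin 2) A))) * r' g := by
    rw [Matrix.mul_assoc, Matrix.mul_assoc, Matrix.smul_mul, Matrix.smul_mul, one_mul, one_mul, hg]
  rwa [hinv, one_mul, one_mul] at this

end Normalized

section TwoByTwo
variable {A : Type} [CommRing A]

theorem two_by_two_inv (w0 w1 t δi : A) (h : (w1 - w0 * t) * δi = 1) :
    !![1, w0; t, w1] * (δi • !![w1, -w0; -t, 1]) = 1 ∧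
    (δi • !![w1, -w0; -t, 1]) * !![1, w0; t, w1] = 1 := by
  constructor
  · ext i j
    fin_cases i <;> fin_cases j <;>
      simp [Matrix.mul_apply, Fin.sum_univ_two] <;>
      first | linear_combination h | linear_combination (-1 : A) * h | ring
  · ext i j
    fin_cases i <;> fin_cases j <;>
      simp [Matrix.mul_apply, Fin.sum_univ_two] <;>
      first | linear_combination h | linear_combination (-1 : A) * h | ring

theorem conj_entries (w0 w1 t δi : A) (Z : Matrix (Fin 2) (Fin 2) A) :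
    ((δi • !![w1, -w0; -t, 1]) * Z * !![1, w0; t, w1]) 1 0
      = δi * (-(t * (Z 0 0 + Z 0 1 * t)) + (Z 1 0 + Z 1 1 * t)) ∧
    ((δi • !![w1, -w0; -t, 1]) * Z * !![1, w0; t, w1]) 0 0
      = δi * (w1 * (Z 0 0 + Z 0 1 * t) - w0 * (Z 1 0 + Z 1 1 * t)) := by
  constructor <;> simp [Matrix.mul_apply, Fin.sum_univ_two, Matrix.vecMul, dotProduct] <;> ring

end TwoByTwo

section Existence
variable {𝒪 : Type} [CommRing 𝒪] [IsLocalRing 𝒪]
variable {A : Type} [CommRing A] [IsLocalRing A] [Algebra 𝒪 A]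

/-- The Hensel property, stated without a typeclass to avoid instance diamonds. -/
def HenselProp (A : Type) [CommRing A] [IsLocalRing A] : Prop :=
  ∀ f : A[X], f.Monic → ∀ a₀ : A, f.eval a₀ ∈ maximalIdeal A → IsUnit (f.derivative.eval a₀) →
    ∃ a : A, f.IsRoot a ∧ a - a₀ ∈ maximalIdeal A

theorem henselProp_of_isAdicComplete [IsAdicComplete (maximalIdeal A) A] : HenselProp A := by
  intro f hf a₀ h1 h2
  exact HenselianRing.is_henselian (I := maximalIdeal A) f hf a₀ h1 (h2.map _)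

theorem exists_normalizing [IsTestAlg 𝒪 A] (hH : HenselProp A)
    {Rt : Γℚ → Matrix (Fin 2) (Fin 2) 𝒪} {α β : Γℚ →₀ 𝒪}
    (hF : FrameCond Rt α β) (r : Γℚ → Matrix (Fin 2) (Fin 2) A) (hr : Lifts Rt r) :
    ∃ P Q : Matrix (Fin 2) (Fin 2) A, P * Q = 1 ∧ Q * P = 1 ∧
      (∀ i j, (P - 1) i j ∈ maximalIdeal A) ∧ (∀ i j, (Q - 1) i j ∈ maximalIdeal A) ∧
      Normalized α β (fun g => Q * r g * P) := by
  obtain ⟨X, hX⟩ : ∃ X, X = evalFS α r := ⟨_, rfl⟩
  obtain ⟨Y, hY⟩ : ∃ Y, Y = evalFS β r := ⟨_, rfl⟩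
  have ha : X 0 0 - 1 ∈ maximalIdeal A := hX ▸ evalFS_sub_one_mem_of_mem α hr 0 0 hF.a00
  have hb : X 0 1 ∈ maximalIdeal A := hX ▸ evalFS_mem_of_mem α hr 0 1 hF.a01
  have hc : X 1 0 ∈ maximalIdeal A := hX ▸ evalFS_mem_of_mem α hr 1 0 hF.a10
  have hd : X 1 1 ∈ maximalIdeal A := hX ▸ evalFS_mem_of_mem α hr 1 1 hF.a11
  have hy00 : Y 0 0 ∈ maximalIdeal A := hY ▸ evalFS_mem_of_mem β hr 0 0 hF.b00
  have hy10 : Y 1 0 - 1 ∈ maximalIdeal A := hY ▸ evalFS_sub_one_mem_of_mem β hr 1 0 hF.b10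
  -- Hensel: root of `s² + (a - d) s - b c`
  let f : A[X] := Polynomial.X ^ 2 + Polynomial.C (X 0 0 - X 1 1) * Polynomial.X
    - Polynomial.C (X 0 1 * X 1 0)
  have hfm : f.Monic := by
    have : f = Polynomial.X ^ 2 + (Polynomial.C (X 0 0 - X 1 1) * Polynomial.X
      - Polynomial.C (X 0 1 * X 1 0)) := by simp only [f]; ring
    rw [this]
    apply Polynomial.monic_X_pow_add
    refine lt_of_le_of_lt (Polynomial.degree_sub_le _ _) ?_
    refine max_lt ?_ ?_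
    · exact lt_of_le_of_lt (Polynomial.degree_C_mul_X_le _) (by norm_num)
    · exact lt_of_le_of_lt Polynomial.degree_C_le (by norm_num)
  have hf0 : f.eval 0 ∈ maximalIdeal A := by
    simp only [f, Polynomial.eval_sub, Polynomial.eval_add, Polynomial.eval_pow, Polynomial.eval_X,
      Polynomial.eval_mul, Polynomial.eval_C]
    have : (0 : A) ^ 2 + (X 0 0 - X 1 1) * 0 - X 0 1 * X 1 0 = -(X 0 1 * X 1 0) := by ring
    rw [this]
    exact (maximalIdeal A).neg_mem (Ideal.mul_mem_right _ _ hb)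
  have hf' : IsUnit (f.derivative.eval 0) := by
    have : f.derivative.eval 0 = X 0 0 - X 1 1 := by
      simp [f]
    rw [this]
    apply isUnit_of_sub_one_mem
    have := (maximalIdeal A).sub_mem ha hd
    rwa [sub_right_comm] at this
  obtain ⟨s, hs, hsm⟩ := hH f hfm 0 hf0 hf'
  rw [sub_zero] at hsm
  have hs' : s ^ 2 + (X 0 0 - X 1 1) * s - X 0 1 * X 1 0 = 0 := by
    have := hs
    simp only [f, Polynomial.IsRoot, Polynomial.eval_sub, Polynomial.eval_add, Polynomial.eval_pow,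
      Polynomial.eval_X, Polynomial.eval_mul, Polynomial.eval_C] at this
    exact this
  have hu : IsUnit (s + X 0 0 - X 1 1) := by
    apply isUnit_of_sub_one_mem
    have := (maximalIdeal A).sub_mem ((maximalIdeal A).add_mem hsm ha) hd
    have e : s + (X 0 0 - 1) - X 1 1 = s + X 0 0 - X 1 1 - 1 := by ring
    rwa [e] at this
  obtain ⟨ui, hui⟩ := hu.exists_right_inv
  obtain ⟨t, ht⟩ : ∃ t, t = X 1 0 * ui := ⟨_, rfl⟩
  have htm : t ∈ maximalIdeal A := ht ▸ Ideal.mul_mem_right _ _ hc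
  have hbt : X 0 1 * t = s := by
    have : X 0 1 * t = (s * (s + X 0 0 - X 1 1)) * ui := by
      rw [ht]; linear_combination (-ui) * hs'
    rw [this, mul_assoc, hui, mul_one]
  have hquad : X 0 1 * t ^ 2 + (X 0 0 - X 1 1) * t - X 1 0 = 0 := by
    have : X 0 1 * t ^ 2 + (X 0 0 - X 1 1) * t - X 1 0
        = t * (X 0 1 * t + X 0 0 - X 1 1) - X 1 0 := by ring
    rw [this, hbt, ht, mul_assoc, mul_comm ui, hui, mul_one, sub_self]
  obtain ⟨w0, hw0⟩ : ∃ w0, w0 = Y 0 0 + Y 0 1 * t := ⟨_, rfl⟩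
  obtain ⟨w1, hw1⟩ : ∃ w1, w1 = Y 1 0 + Y 1 1 * t := ⟨_, rfl⟩
  have hw0m : w0 ∈ maximalIdeal A :=
    hw0 ▸ (maximalIdeal A).add_mem hy00 (Ideal.mul_mem_left _ _ htm)
  have hw1m : w1 - 1 ∈ maximalIdeal A := by
    have := (maximalIdeal A).add_mem hy10 (Ideal.mul_mem_left _ (Y 1 1) htm)
    have e : Y 1 0 - 1 + Y 1 1 * t = w1 - 1 := by rw [hw1]; ring
    rwa [e] at this
  have hδm : w1 - w0 * t - 1 ∈ maximalIdeal A := by
    have := (maximalIdeal A).sub_mem hw1m (Ideal.mul_mem_left _ w0 htm)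
    have e : w1 - 1 - w0 * t = w1 - w0 * t - 1 := by ring
    rwa [e] at this
  have hδ : IsUnit (w1 - w0 * t) := isUnit_of_sub_one_mem hδm
  obtain ⟨δi, hδi⟩ := hδ.exists_right_inv
  have hδim : δi - 1 ∈ maximalIdeal A := by
    have h1 : (w1 - w0 * t - 1) * δi ∈ maximalIdeal A := Ideal.mul_mem_right _ _ hδm
    have e : δi - 1 = -((w1 - w0 * t - 1) * δi) := by linear_combination hδi
    rw [e]
    exact (maximalIdeal A).neg_mem h1
  obtain ⟨hPQ, hQP⟩ := two_by_two_inv w0 w1 t δi hδi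
  refine ⟨!![1, w0; t, w1], δi • !![w1, -w0; -t, 1], hPQ, hQP, ?_, ?_, ?_⟩
  · intro i j
    fin_cases i <;> fin_cases j <;> simp <;> assumption
  · intro i j
    fin_cases i <;> fin_cases j
    · show δi * w1 - 1 ∈ maximalIdeal A
      have e : δi * w1 - 1 = (δi - 1) * w1 + (w1 - 1) := by ring
      rw [e]
      exact (maximalIdeal A).add_mem (Ideal.mul_mem_right _ _ hδim) hw1m
    · show δi * (-w0) - 0 ∈ maximalIdeal A
      rw [sub_zero]
      exact Ideal.mul_mem_left _ _ ((maximalIdeal A).neg_mem hw0m)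
    · show δi * (-t) - 0 ∈ maximalIdeal A
      rw [sub_zero]
      exact Ideal.mul_mem_left _ _ ((maximalIdeal A).neg_mem htm)
    · show δi * 1 - 1 ∈ maximalIdeal A
      rw [mul_one]
      exact hδim
  · refine ⟨?_, ?_, ?_⟩
    · rw [evalFS_conj, ← hX, (conj_entries w0 w1 t δi X).1]
      linear_combination (-δi) * hquad
    · rw [evalFS_conj, ← hY, (conj_entries w0 w1 t δi Y).2, ← hw0, ← hw1]
      ring
    · rw [evalFS_conj, ← hY, (conj_entries w0 w1 t δi Y).1, ← hw0, ← hw1]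
      linear_combination hδi

end Existence

section LiftsConj
variable {𝒪 : Type} [CommRing 𝒪] [IsLocalRing 𝒪]
variable {A : Type} [CommRing A] [IsLocalRing A] [Algebra 𝒪 A]

theorem mul_sub_self_mem {Q : Matrix (Fin 2) (Fin 2) A}
    (hQ : ∀ i j, (Q - 1) i j ∈ maximalIdeal A) (Z : Matrix (Fin 2) (Fin 2) A) (i j : Fin 2) :
    (Q * Z - Z) i j ∈ maximalIdeal A := by
  have : Q * Z - Z = (Q - 1) * Z := by rw [Matrix.sub_mul, one_mul]
  rw [this, Matrix.mul_apply]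
  exact Ideal.sum_mem _ fun k _ => Ideal.mul_mem_right _ _ (hQ i k)

theorem mul_sub_self_mem' {P : Matrix (Fin 2) (Fin 2) A}
    (hP : ∀ i j, (P - 1) i j ∈ maximalIdeal A) (Z : Matrix (Fin 2) (Fin 2) A) (i j : Fin 2) :
    (Z * P - Z) i j ∈ maximalIdeal A := by
  have : Z * P - Z = Z * (P - 1) := by rw [Matrix.mul_sub, mul_one]
  rw [this, Matrix.mul_apply]
  exact Ideal.sum_mem _ fun k _ => Ideal.mul_mem_left _ _ (hP k j)

theorem Lifts.conj {Rt : Γℚ → Matrix (Fin 2) (Fin 2) 𝒪} {r : Γℚ → Matrix (Fin 2) (Fin 2) A}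
    (h : Lifts Rt r) {P Q : Matrix (Fin 2) (Fin 2) A}
    (hP : ∀ i j, (P - 1) i j ∈ maximalIdeal A) (hQ : ∀ i j, (Q - 1) i j ∈ maximalIdeal A) :
    Lifts Rt (fun g => Q * r g * P) := by
  intro g i j
  have h1 := mul_sub_self_mem hQ (r g * P) i j
  have h2 := mul_sub_self_mem' hP (r g) i j
  have h3 := h g i j
  have e : (Q * r g * P) i j - algebraMap 𝒪 A (Rt g i j)
      = (Q * (r g * P) - r g * P) i j + (r g * P - r g) i j
        + (r g i j - algebraMap 𝒪 A (Rt g i j)) := by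
    rw [Matrix.sub_apply, Matrix.sub_apply, Matrix.mul_assoc]
    ring
  rw [e]
  exact (maximalIdeal A).add_mem ((maximalIdeal A).add_mem h1 h2) h3

end LiftsConj

end Fermat.Agent.TeamA.Rep
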