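/-
TeamA (S53): extraction of a based lift.
If `ρA` is a representation over a test algebra `A` whose residual representation is
equivalent to (the base change of) `ρbar`, then `ρA` has a basis in which its matrix
function lifts the fixed set-theoretic lift `Rt` of `ρbar`.  Conversely a matrix function
lifting `Rt` has residual representation equivalent to `ρbar`.
All declarations live in `Fermat.Agent.TeamA.BasedLift`.
-/
import Fermat.Agent.TeamA.NormalForm

set_option autoImplicit false

open IsLocalRing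
open Fermat.Agent.TeamA.Rep

namespace Fermat.Agent.TeamA.BasedLift

local notation "Γℚ" => (AlgebraicClosure ℚ ≃ₐ[ℚ] AlgebraicClosure ℚ)

section ChangeBasis
variable {A : Type} [CommRing A] [IsLocalRing A]

/-- Change of basis for `matOf`: for mutually inverse `P`, `Q` there is a basis in which the
matrix function becomes `Q * (matOf ρ b g) * P`. -/
theorem exists_basis_matOf_conj (ρ : GaloisRepAdic A) (b : Module.Basis (Fin 2) A ρ.V)
    (P Q : Matrix (Fin 2) (Fin 2) A) (hPQ : P * Q = 1) (hQP : Q * P = 1) :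
    ∃ b' : Module.Basis (Fin 2) A ρ.V, ∀ g, matOf ρ b' g = Q * matOf ρ b g * P := by
  let e : ρ.V ≃ₗ[A] ρ.V := Matrix.toLinOfInv b b hPQ hQP
  refine ⟨b.map e, fun g => ?_⟩
  have he : LinearMap.toMatrix b b e.toLinearMap = P := by
    show LinearMap.toMatrix b b (Matrix.toLin b b P) = P
    exact LinearMap.toMatrix_toLin b b P
  have hes : LinearMap.toMatrix b b e.symm.toLinearMap = Q := by
    show LinearMap.toMatrix b b (Matrix.toLin b b Q) = Q
    exact LinearMap.toMatrix_toLin b b Q
  have h1 : matOf ρ (b.map e) g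
      = LinearMap.toMatrix b b (e.symm.toLinearMap ∘ₗ ρ.ρ g ∘ₗ e.toLinearMap) := by
    ext i j
    unfold matOf
    rw [LinearMap.toMatrix_apply, LinearMap.toMatrix_apply]
    simp only [Module.Basis.map_apply, Module.Basis.map_repr, LinearEquiv.trans_apply,
      LinearMap.comp_apply, LinearEquiv.coe_coe]
  rw [h1, LinearMap.toMatrix_comp b b b, LinearMap.toMatrix_comp b b b, he, hes, Matrix.mul_assoc]
  rfl

end ChangeBasis

section LiftInvertible
variable {A : Type} [CommRing A] [IsLocalRing A]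

/-- An invertible matrix over the residue field lifts to an invertible matrix. -/
theorem exists_lift_inv (M M' : Matrix (Fin 2) (Fin 2) (ResidueField A)) (h : M * M' = 1) :
    ∃ P Q : Matrix (Fin 2) (Fin 2) A, P * Q = 1 ∧ Q * P = 1 ∧
      Q.map (residue A) = M ∧ P.map (residue A) = M' := by
  have hsurj : Function.Surjective (residue A) := residue_surjective
  let Q : Matrix (Fin 2) (Fin 2) A := M.map (Function.surjInv hsurj)
  have hQ : Q.map (residue A) = M := by
    ext i j
    simp only [Q, Matrix.map_apply]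
    exact Function.surjInv_eq hsurj _
  have hM'M : M' * M = 1 := mul_eq_one_comm.mp h
  have hdet : IsUnit Q.det := by
    have h1 : residue A Q.det = M.det := by
      rw [RingHom.map_det, RingHom.mapMatrix_apply, hQ]
    have h2 : IsUnit M.det := by
      refine IsUnit.of_mul_eq_one (M'.det) ?_
      rw [← Matrix.det_mul, h, Matrix.det_one]
    have h3 : IsUnit (residue A Q.det) := h1 ▸ h2
    exact isUnit_of_map_unit (residue A) _ h3
  have hQi : Q * Q⁻¹ = 1 := Matrix.mul_nonsing_inv Q hdet
  have hiQ : Q⁻¹ * Q = 1 := Matrix.nonsing_inv_mul Q hdet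
  refine ⟨Q⁻¹, Q, hiQ, hQi, hQ, ?_⟩
  have h4 : Q.map (residue A) * (Q⁻¹).map (residue A) = 1 := by
    have := congrArg (fun X : Matrix (Fin 2) (Fin 2) A => X.map (residue A)) hQi
    simp only [Matrix.map_mul] at this
    rw [this, Matrix.map_one _ (map_zero _) (map_one _)]
  rw [hQ] at h4
  calc (Q⁻¹).map (residue A) = (M' * M) * (Q⁻¹).map (residue A) := by rw [hM'M, one_mul]
    _ = M' * (M * (Q⁻¹).map (residue A)) := Matrix.mul_assoc _ _ _
    _ = M' := by rw [h4, mul_one]

end LiftInvertible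

section Based
variable {𝒪 : Type} [CommRing 𝒪] [IsLocalRing 𝒪]
variable {A : Type} [CommRing A] [IsLocalRing A] [Algebra 𝒪 A] [IsTestAlg 𝒪 A]

/-- A representation with a basis whose matrix function lifts `Rt` has the right residual
representation. -/
theorem residual_isEquiv_of_lifts (ρbar : ResidualGaloisRep (ResidueField 𝒪))
    (b : Module.Basis (Fin 2) (ResidueField 𝒪) ρbar.V)
    (Rt : Γℚ → Matrix (Fin 2) (Fin 2) 𝒪)
    (hRt : ∀ g, (Rt g).map (residue 𝒪) = matOfRes ρbar b g)
    (ρA : GaloisRepAdic A) (bA : Module.Basis (Fin 2) A ρA.V)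
    (hl : Lifts Rt (matOf ρA bA)) :
    ρA.residual.IsEquiv (ρbar.baseChangeAlong (kappa 𝒪 A)) := by
  refine res_isEquiv_of_conj _ _ (residualBasis ρA bA) (resBcBasis (kappa 𝒪 A) ρbar b) 1 1
    (one_mul 1) (one_mul 1) fun g => ?_
  rw [one_mul, mul_one, matOfRes_residual, matOfRes_baseChangeAlong, ← hRt g]
  exact (lifts_iff_map_residue Rt _).mp hl g

/-- Extraction of a based lift. -/
theorem exists_basis_lifts (ρbar : ResidualGaloisRep (ResidueField 𝒪))
    (b : Module.Basis (Fin 2) (ResidueField 𝒪) ρbar.V)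
    (Rt : Γℚ → Matrix (Fin 2) (Fin 2) 𝒪)
    (hRt : ∀ g, (Rt g).map (residue 𝒪) = matOfRes ρbar b g)
    (ρA : GaloisRepAdic A)
    (h : ρA.residual.IsEquiv (ρbar.baseChangeAlong (kappa 𝒪 A))) :
    ∃ bA : Module.Basis (Fin 2) A ρA.V, Lifts Rt (matOf ρA bA) := by
  let b0 : Module.Basis (Fin 2) A ρA.V := Module.finBasisOfFinrankEq A ρA.V ρA.finrank_eq
  obtain ⟨M, M', h1, h2, hconj⟩ := res_exists_conj_of_isEquiv _ _ (residualBasis ρA b0)
    (resBcBasis (kappa 𝒪 A) ρbar b) h
  obtain ⟨P, Q, hPQ, hQP, hQ, hP⟩ := exists_lift_inv M M' h1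
  obtain ⟨bA, hbA⟩ := exists_basis_matOf_conj ρA b0 P Q hPQ hQP
  refine ⟨bA, (lifts_iff_map_residue Rt _).mpr fun g => ?_⟩
  rw [hbA g, Matrix.map_mul, Matrix.map_mul, hQ, hP, hRt g, ← matOfRes_residual,
    ← matOfRes_baseChangeAlong, hconj g, Matrix.mul_assoc, h1, mul_one]

end Based

end Fermat.Agent.TeamA.BasedLift
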