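import Mathlib
import Fermat.Prelude.Def_GaloisRep_DeformationCondition

/-!
# The dual numbers `k[ε]` as a test algebra over `𝒪`

The `𝒪`-algebra structure is the one used (via `letI`) in the frozen definition
`GaloisRep.TangentFinite`; it is given a name here so that all files agree syntactically.
-/

set_option autoImplicit false
set_option linter.style.haveILetI false

namespace Fermat.Agent.TeamA

open IsLocalRing TrivSqZeroExt

variable (𝒪 : Type*) [CommRing 𝒪] [IsLocalRing 𝒪]

/-- The `𝒪`-algebra structure on `k[ε]` (`k` the residue field of `𝒪`), exactly as in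
`GaloisRep.TangentFinite`. -/
@[reducible] noncomputable def dualNumberAlgebra :
    Algebra 𝒪 (DualNumber (ResidueField 𝒪)) :=
  ((algebraMap (ResidueField 𝒪) (DualNumber (ResidueField 𝒪))).comp
      (algebraMap 𝒪 (ResidueField 𝒪))).toAlgebra

/-- The `k`-algebra structure on the residue field of `k[ε]`, exactly as in
`GaloisRep.TangentFinite`. -/
@[reducible] noncomputable def dualNumberResidueAlgebra :
    Algebra (ResidueField 𝒪) (ResidueField (DualNumber (ResidueField 𝒪))) :=
  ((IsLocalRing.residue (DualNumber (ResidueField 𝒪))).comp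
      (algebraMap (ResidueField 𝒪) (DualNumber (ResidueField 𝒪)))).toAlgebra

theorem dualNumberAlgebra_algebraMap_apply (x : 𝒪) :
    letI := dualNumberAlgebra 𝒪
    algebraMap 𝒪 (DualNumber (ResidueField 𝒪)) x = inl (residue 𝒪 x) := rfl

theorem dualNumber_isUnit_iff {K : Type*} [Field K] (x : DualNumber K) :
    IsUnit x ↔ x.fst ≠ 0 := by
  rw [TrivSqZeroExt.isUnit_iff_isUnit_fst, isUnit_iff_ne_zero]

theorem dualNumber_mem_maximalIdeal_iff {K : Type*} [Field K] (x : DualNumber K) :
    x ∈ maximalIdeal (DualNumber K) ↔ x.fst = 0 := by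
  rw [IsLocalRing.mem_maximalIdeal, mem_nonunits_iff, dualNumber_isUnit_iff, not_not]

theorem dualNumber_maximalIdeal_sq {K : Type*} [Field K] :
    maximalIdeal (DualNumber K) ^ 2 = ⊥ := by
  rw [eq_bot_iff, pow_two, Ideal.mul_le]
  intro x hx y hy
  rw [dualNumber_mem_maximalIdeal_iff] at hx hy
  rw [Ideal.mem_bot]
  ext <;> simp [hx, hy]

theorem dualNumberAlgebra_isLocalHom :
    letI := dualNumberAlgebra 𝒪
    IsLocalHom (algebraMap 𝒪 (DualNumber (ResidueField 𝒪))) := by
  letI := dualNumberAlgebra 𝒪
  constructor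
  intro a ha
  rw [dualNumberAlgebra_algebraMap_apply, dualNumber_isUnit_iff, fst_inl] at ha
  by_contra h
  exact ha ((IsLocalRing.residue_eq_zero_iff a).mpr h)

theorem dualNumber_residue_inl_surjective {K : Type*} [Field K] :
    Function.Surjective (fun x : K => residue (DualNumber K) (inl x)) := by
  intro y
  obtain ⟨z, rfl⟩ := IsLocalRing.residue_surjective y
  refine ⟨z.fst, ?_⟩
  change residue _ (inl z.fst) = residue _ z
  rw [← sub_eq_zero, ← map_sub, IsLocalRing.residue_eq_zero_iff, dualNumber_mem_maximalIdeal_iff]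
  simp

theorem dualNumberAlgebra_residue_surjective :
    letI := dualNumberAlgebra 𝒪
    Function.Surjective
      (IsLocalRing.residue (DualNumber (ResidueField 𝒪)) ∘
        algebraMap 𝒪 (DualNumber (ResidueField 𝒪))) := by
  letI := dualNumberAlgebra 𝒪
  intro y
  obtain ⟨z, rfl⟩ := dualNumber_residue_inl_surjective y
  obtain ⟨w, rfl⟩ := IsLocalRing.residue_surjective z
  exact ⟨w, rfl⟩

instance dualNumber_finite {K : Type*} [Field K] [Finite K] : Finite (DualNumber K) :=
  inferInstanceAs (Finite (K × K))

theorem dualNumber_isArtinianRing {K : Type*} [Field K] : IsArtinianRing (DualNumber K) := by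
  have : IsNoetherianRing (DualNumber K) := inferInstance
  have hdim : Ring.KrullDimLE 0 (DualNumber K) := by
    rw [Ring.krullDimLE_zero_iff]
    intro I hI
    have hle : I ≤ maximalIdeal (DualNumber K) := IsLocalRing.le_maximalIdeal hI.ne_top
    have hge : maximalIdeal (DualNumber K) ≤ I := by
      intro x hx
      apply hI.mem_of_pow_mem 2
      have : x ^ 2 ∈ maximalIdeal (DualNumber K) ^ 2 := Ideal.pow_mem_pow hx 2
      rw [dualNumber_maximalIdeal_sq] at this
      rw [(Ideal.mem_bot).mp this]
      exact I.zero_mem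
    rw [le_antisymm hle hge]
    infer_instance
  exact isArtinianRing_iff_krullDimLE_zero.mpr hdim

theorem dualNumber_isArtinianTestAlgebra (𝒪 : Type) [CommRing 𝒪] [IsLocalRing 𝒪] :
    letI := dualNumberAlgebra 𝒪
    GaloisRep.IsArtinianTestAlgebra 𝒪 (DualNumber (ResidueField 𝒪)) := by
  letI := dualNumberAlgebra 𝒪
  exact ⟨dualNumberAlgebra_isLocalHom 𝒪, dualNumberAlgebra_residue_surjective 𝒪,
    dualNumber_isArtinianRing⟩

end Fermat.Agent.TeamA
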