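import Fermat.Agent.TeamA.Descent
set_option autoImplicit false
open scoped TensorProduct
open IsLocalRing Polynomial
namespace Fermat.Agent.TeamA.Rep
local notation "Γℚ" => (AlgebraicClosure ℚ ≃ₐ[ℚ] AlgebraicClosure ℚ)

section FibGood
variable {𝒪 : Type} [CommRing 𝒪] [IsLocalRing 𝒪]
variable {ρbar : ResidualGaloisRep (ResidueField 𝒪)} {Fr : Frame 𝒪 ρbar}
variable {𝒟 : ∀ ⦃A : Type⦄ [CommRing A] [IsLocalRing A] [Algebra 𝒪 A], GaloisRepAdic A → Prop}
variable {A : Type} [CommRing A] [IsLocalRing A] [Algebra 𝒪 A] [IsTestAlg 𝒪 A] [IsArtinianRing A]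
variable {B : Type} [CommRing B] [IsLocalRing B] [Algebra 𝒪 B] [IsTestAlg 𝒪 B] [IsArtinianRing B]
variable {P : Type} [CommRing P] [IsLocalRing P] [Algebra 𝒪 P] [IsTestAlg 𝒪 P] [IsArtinianRing P]

omit [IsArtinianRing P] in
/-- every `𝒪`-algebra map from a test algebra to the residue field is the canonical one -/
theorem algHom_residueField_eq (φ : P →ₐ[𝒪] ResidueField 𝒪) : φ = resK 𝒪 P := by
  ext x
  obtain ⟨o, ho⟩ := exists_algebraMap_sub_mem 𝒪 P x
  have h1 : φ (x - algebraMap 𝒪 P o) ∈ maximalIdeal (ResidueField 𝒪) := map_mem_maximalIdeal φ ho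
  rw [IsLocalRing.maximalIdeal_eq_bot, Ideal.mem_bot, map_sub, AlgHom.commutes, sub_eq_zero] at h1
  rw [h1, (resK_eq_iff x o).mpr ho]
  rfl

omit [IsTestAlg 𝒪 A] [IsArtinianRing A] [IsTestAlg 𝒪 B] [IsArtinianRing B] [IsTestAlg 𝒪 P]
  [IsArtinianRing P] [IsLocalRing A] [IsLocalRing B] [IsLocalRing P] [IsLocalRing 𝒪] in
theorem matrix_ext_of_jointly_injective (pA : P →ₐ[𝒪] A) (pB : P →ₐ[𝒪] B)
    (hinj : Function.Injective (fun x => (pA x, pB x)))
    {M N : Matrix (Fin 2) (Fin 2) P}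
    (h1 : M.map pA = N.map pA) (h2 : M.map pB = N.map pB) : M = N := by
  refine Matrix.ext fun i j => ?_
  apply hinj
  exact Prod.ext (congrFun (congrFun h1 i) j) (congrFun (congrFun h2 i) j)

/-- Goodness can be checked on the two projections of a fibre product over the residue field. -/
theorem IsGood.of_fibre (h𝒟 : GaloisRep.IsDeformationCondition 𝒪 𝒟)
    (pA : P →ₐ[𝒪] A) (pB : P →ₐ[𝒪] B)
    (hinj : Function.Injective (fun x => (pA x, pB x)))
    (hsurj : ∀ a b, (∃ o : 𝒪, a - algebraMap 𝒪 A o ∈ maximalIdeal A ∧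
        b - algebraMap 𝒪 B o ∈ maximalIdeal B) → ∃ x, pA x = a ∧ pB x = b)
    (R : Γℚ → Matrix (Fin 2) (Fin 2) P)
    (hA : IsGood Fr 𝒟 A (fun g => (R g).map pA))
    (hB : IsGood Fr 𝒟 B (fun g => (R g).map pB)) : IsGood Fr 𝒟 P R := by
  have hext : ∀ {x y : P}, pA x = pA y → pB x = pB y → x = y :=
    fun h1 h2 => hinj (Prod.ext h1 h2)
  have hone : R 1 = 1 := by
    apply matrix_ext_of_jointly_injective pA pB hinj
    · rw [hA.map_one, Matrix.map_one _ (_root_.map_zero _) (_root_.map_one _)]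
    · rw [hB.map_one, Matrix.map_one _ (_root_.map_zero _) (_root_.map_one _)]
  have hmul : ∀ g g', R (g * g') = R g * R g' := by
    intro g g'
    apply matrix_ext_of_jointly_injective pA pB hinj
    · rw [hA.map_mul, Matrix.map_mul]
    · rw [hB.map_mul, Matrix.map_mul]
  let rh : Γℚ →* Matrix (Fin 2) (Fin 2) P := ⟨⟨R, hone⟩, hmul⟩
  have hcont : MatCont rh := by
    apply matCont_of_eq_one
    obtain ⟨L₁, hL₁, h₁⟩ := exists_eq_one_of_matCont hA.matCont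
    obtain ⟨L₂, hL₂, h₂⟩ := exists_eq_one_of_matCont hB.matCont
    refine ⟨L₁ ⊔ L₂, IntermediateField.finiteDimensional_sup L₁ L₂, fun σ hσ => ?_⟩
    apply matrix_ext_of_jointly_injective pA pB hinj
    · show (R σ).map pA = _
      rw [h₁ σ (fun x hx => hσ x ((le_sup_left : L₁ ≤ L₁ ⊔ L₂) hx)),
        Matrix.map_one _ (_root_.map_zero _) (_root_.map_one _)]
    · show (R σ).map pB = _
      rw [h₂ σ (fun x hx => hσ x ((le_sup_right : L₂ ≤ L₁ ⊔ L₂) hx)),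
        Matrix.map_one _ (_root_.map_zero _) (_root_.map_one _)]
  have hpA := isLocalHom_of_isTestAlg pA
  have hpB := isLocalHom_of_isTestAlg pB
  obtain ⟨a1, a2, ρ₁, b₁, hb₁, hD₁⟩ := hA
  obtain ⟨c1, c2, ρ₂, b₂, hb₂, hD₂⟩ := hB
  refine ⟨?_, ?_, matRep rh hcont, stdBasis rh hcont, fun g => matOf_matRep rh hcont g, ?_⟩
  · intro g i j
    apply mem_maximalIdeal_of_map_mem (pA : P →+* A)
    have := a1 g i j
    change pA (R g i j) - algebraMap 𝒪 A (Fr.Rt g i j) ∈ maximalIdeal A at this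
    show pA (R g i j - algebraMap 𝒪 P (Fr.Rt g i j)) ∈ maximalIdeal A
    rwa [map_sub, AlgHom.commutes]
  · obtain ⟨n1, n2, n3⟩ := a2
    obtain ⟨m1, m2, m3⟩ := c2
    rw [evalFS_map, Matrix.map_apply] at n1 n2 n3 m1 m2 m3
    refine ⟨hext (by rw [n1, _root_.map_zero]) (by rw [m1, _root_.map_zero]),
      hext (by rw [n2, _root_.map_zero]) (by rw [m2, _root_.map_zero]),
      hext (by rw [n3, _root_.map_one]) (by rw [m3, _root_.map_one])⟩
  · refine h𝒟.of_fibreProduct (C := ResidueField 𝒪) isArtinianTestAlgebra_of isArtinianTestAlgebra_of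
      isArtinianTestAlgebra_of isArtinianTestAlgebra_of (resK 𝒪 A) (resK 𝒪 B) pA pB hpA hpB
      ?_ hinj ?_ ?_ ?_
    · rw [algHom_residueField_eq ((resK 𝒪 A).comp pA), algHom_residueField_eq ((resK 𝒪 B).comp pB)]
    · intro a b hab
      obtain ⟨o, ho⟩ := residue_surjective (resK 𝒪 A a)
      exact hsurj a b ⟨o, (resK_eq_iff a o).mp ho.symm, (resK_eq_iff b o).mp (hab ▸ ho.symm)⟩
    · refine h𝒟.of_isEquiv isArtinianTestAlgebra_of ?_ hD₁
      apply isEquiv_of_matOf_eq ρ₁ _ b₁ (bcBasis _ hpA (matRep rh hcont) (stdBasis rh hcont))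
      intro g
      rw [hb₁, matOf_baseChangeAlong, matOf_matRep]
      rfl
    · refine h𝒟.of_isEquiv isArtinianTestAlgebra_of ?_ hD₂
      apply isEquiv_of_matOf_eq ρ₂ _ b₂ (bcBasis _ hpB (matRep rh hcont) (stdBasis rh hcont))
      intro g
      rw [hb₂, matOf_baseChangeAlong, matOf_matRep]
      rfl

end FibGood
end Fermat.Agent.TeamA.Rep

namespace Fermat.Agent.TeamA.Rep
local notation "Γℚ" => (AlgebraicClosure ℚ ≃ₐ[ℚ] AlgebraicClosure ℚ)
section FibGood2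
variable {𝒪 : Type} [CommRing 𝒪] [IsLocalRing 𝒪]
variable {ρbar : ResidualGaloisRep (ResidueField 𝒪)} {Fr : Frame 𝒪 ρbar}
variable {𝒟 : ∀ ⦃A : Type⦄ [CommRing A] [IsLocalRing A] [Algebra 𝒪 A], GaloisRepAdic A → Prop}
variable {A : Type} [CommRing A] [IsLocalRing A] [Algebra 𝒪 A] [IsTestAlg 𝒪 A] [Finite A]
variable {B : Type} [CommRing B] [IsLocalRing B] [Algebra 𝒪 B] [IsTestAlg 𝒪 B] [Finite B]

/-- Goodness on the concrete fibre product `fibProd 𝒪 A B`. -/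
theorem IsGood.fib (h𝒟 : GaloisRep.IsDeformationCondition 𝒪 𝒟)
    (R : Γℚ → Matrix (Fin 2) (Fin 2) (fibProd 𝒪 A B))
    (hA : IsGood Fr 𝒟 A (fun g => (R g).map fibFst))
    (hB : IsGood Fr 𝒟 B (fun g => (R g).map fibSnd)) : IsGood Fr 𝒟 (fibProd 𝒪 A B) R := by
  refine IsGood.of_fibre h𝒟 fibFst fibSnd fib_injective ?_ R hA hB
  rintro a b ⟨o, h1, h2⟩
  exact ⟨⟨(a, b), o, h1, h2⟩, rfl, rfl⟩

end FibGood2
end Fermat.Agent.TeamA.Rep
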