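import Fermat.Agent.TeamA.NormalForm
import Fermat.Agent.TeamA.Burnside
set_option autoImplicit false
open scoped TensorProduct
open IsLocalRing Polynomial
namespace Fermat.Agent.TeamA.Rep
local notation "Γℚ" => (AlgebraicClosure ℚ ≃ₐ[ℚ] AlgebraicClosure ℚ)

section Frame
variable (𝒪 : Type) [CommRing 𝒪] [IsLocalRing 𝒪]

/-- The rigidifying data attached to `ρbar`. -/
structure Frame (ρbar : ResidualGaloisRep (ResidueField 𝒪)) where
  bbar : Module.Basis (Fin 2) (ResidueField 𝒪) ρbar.V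
  Rt : Γℚ → Matrix (Fin 2) (Fin 2) 𝒪
  α : Γℚ →₀ 𝒪
  β : Γℚ →₀ 𝒪
  hRt : ∀ g, (Rt g).map (residue 𝒪) = matOfRes ρbar bbar g
  cond : FrameCond Rt α β

variable {𝒪}

theorem residue_evalFS (a : Γℚ →₀ 𝒪) (Rt : Γℚ → Matrix (Fin 2) (Fin 2) 𝒪) (i j : Fin 2) :
    residue 𝒪 (evalFS a Rt i j) = a.sum fun g c => residue 𝒪 c * residue 𝒪 (Rt g i j) := by
  rw [evalFS_apply, Finsupp.sum, Finsupp.sum, map_sum]
  refine Finset.sum_congr rfl fun g _ => ?_
  rw [map_mul, Algebra.algebraMap_self, RingHom.id_apply]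

/-- lifting a finitely supported function along the residue map -/
theorem exists_finsupp_lift (abar : Γℚ →₀ ResidueField 𝒪) :
    ∃ a : Γℚ →₀ 𝒪, a.support ⊆ abar.support ∧ ∀ g, residue 𝒪 (a g) = abar g := by
  classical
  let s : ResidueField 𝒪 → 𝒪 := fun x =>
    if x = 0 then 0 else Classical.choose (residue_surjective x)
  have hs0 : s 0 = 0 := if_pos rfl
  have hs : ∀ x, residue 𝒪 (s x) = x := by
    intro x
    by_cases hx : x = 0
    · simp [s, hx]
    · simp only [s, if_neg hx]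
      exact Classical.choose_spec (residue_surjective x)
  refine ⟨abar.mapRange s hs0, Finsupp.support_mapRange, fun g => ?_⟩
  rw [Finsupp.mapRange_apply, hs]

theorem nonempty_frame (ρbar : ResidualGaloisRep (ResidueField 𝒪))
    (habs : ρbar.IsAbsolutelyIrreducible) : Nonempty (Frame 𝒪 ρbar) := by
  classical
  let bbar : Module.Basis (Fin 2) (ResidueField 𝒪) ρbar.V :=
    Module.finBasisOfFinrankEq _ _ ρbar.finrank_eq
  have hB := Fermat.Agent.TeamA.Burnside.span_range_eq_top ρbar habs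
  -- a set-theoretic lift of the matrices
  have hRt : ∀ g : Γℚ, ∃ R : Matrix (Fin 2) (Fin 2) 𝒪,
      R.map (residue 𝒪) = matOfRes ρbar bbar g := by
    intro g
    refine ⟨Matrix.of fun i j => Classical.choose (residue_surjective (matOfRes ρbar bbar g i j)), ?_⟩
    ext i j
    exact Classical.choose_spec (residue_surjective (matOfRes ρbar bbar g i j))
  choose Rt hRt' using hRt
  -- every matrix is a finite combination of group elements
  have hcomb : ∀ E : Matrix (Fin 2) (Fin 2) (ResidueField 𝒪), ∃ a : Γℚ →₀ 𝒪, ∀ i j,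
      residue 𝒪 (evalFS a Rt i j) = E i j := by
    intro E
    have hmem : Matrix.toLin bbar bbar E ∈ Submodule.span (ResidueField 𝒪) (Set.range ρbar.ρ) := by
      rw [hB]; trivial
    obtain ⟨abar, habar⟩ := (Finsupp.mem_span_range_iff_exists_finsupp).mp hmem
    obtain ⟨a, hsupp, ha⟩ := exists_finsupp_lift abar
    refine ⟨a, fun i j => ?_⟩
    have h1 : E = LinearMap.toMatrix bbar bbar (abar.sum fun g c => c • ρbar.ρ g) := by
      rw [habar, LinearMap.toMatrix_toLin]
    rw [residue_evalFS, h1, Finsupp.sum, Finsupp.sum, map_sum, Matrix.sum_apply]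
    rw [Finset.sum_subset hsupp (fun g _ hg => by
      rw [Finsupp.notMem_support_iff.mp hg, map_zero, zero_mul])]
    refine Finset.sum_congr rfl fun g _ => ?_
    rw [ha, map_smul, Matrix.smul_apply, smul_eq_mul]
    congr 1
    have := congrFun (congrFun (hRt' g) i) j
    rwa [Matrix.map_apply] at this
  obtain ⟨α, hα⟩ := hcomb (Matrix.single 0 0 1)
  obtain ⟨β, hβ⟩ := hcomb (Matrix.single 1 0 1)
  have key0 : ∀ x : 𝒪, residue 𝒪 x = 0 → x ∈ maximalIdeal 𝒪 := fun x hx =>
    (residue_eq_zero_iff x).mp hx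
  have key1 : ∀ x : 𝒪, residue 𝒪 x = 1 → x - 1 ∈ maximalIdeal 𝒪 := fun x hx => by
    rw [← residue_eq_zero_iff, map_sub, hx, map_one, sub_self]
  refine ⟨⟨bbar, Rt, α, β, hRt', ⟨?_, ?_, ?_, ?_, ?_, ?_⟩⟩⟩
  · exact key1 _ (by rw [hα]; simp)
  · exact key0 _ (by rw [hα]; simp)
  · exact key0 _ (by rw [hα]; simp)
  · exact key0 _ (by rw [hα]; simp)
  · exact key0 _ (by rw [hβ]; simp)
  · exact key1 _ (by rw [hβ]; simp)

end Frame
end Fermat.Agent.TeamA.Rep
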