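import Fermat.Agent.TeamA.FibProd
set_option autoImplicit false
open scoped TensorProduct
open IsLocalRing Polynomial
namespace Fermat.Agent.TeamA.Rep
local notation "Γℚ" => (AlgebraicClosure ℚ ≃ₐ[ℚ] AlgebraicClosure ℚ)

section ResK
variable (𝒪 : Type) [CommRing 𝒪] [IsLocalRing 𝒪]
variable (A : Type) [CommRing A] [IsLocalRing A] [Algebra 𝒪 A] [IsTestAlg 𝒪 A]

/-- The residue map with values in the residue field of `𝒪`. -/
noncomputable def resK : A →ₐ[𝒪] ResidueField 𝒪 where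
  toRingHom := ((RingEquiv.ofBijective (kappa 𝒪 A) (kappa_bijective 𝒪 A)).symm.toRingHom).comp
    (residue A)
  commutes' := by
    intro o
    show (RingEquiv.ofBijective (kappa 𝒪 A) (kappa_bijective 𝒪 A)).symm
      (residue A (algebraMap 𝒪 A o)) = algebraMap 𝒪 (ResidueField 𝒪) o
    rw [RingEquiv.symm_apply_eq]
    show residue A (algebraMap 𝒪 A o) = kappa 𝒪 A (residue 𝒪 o)
    rw [kappa_residue]

variable {𝒪 A}

theorem kappa_resK (a : A) : kappa 𝒪 A (resK 𝒪 A a) = residue A a := by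
  show (RingEquiv.ofBijective (kappa 𝒪 A) (kappa_bijective 𝒪 A))
    ((RingEquiv.ofBijective (kappa 𝒪 A) (kappa_bijective 𝒪 A)).symm (residue A a)) = residue A a
  rw [RingEquiv.apply_symm_apply]

theorem resK_eq_iff (a : A) (o : 𝒪) :
    resK 𝒪 A a = residue 𝒪 o ↔ a - algebraMap 𝒪 A o ∈ maximalIdeal A := by
  rw [← (kappa 𝒪 A).injective.eq_iff, kappa_resK, kappa_residue, ← residue_eq_zero_iff,
    map_sub, sub_eq_zero]

theorem resK_eq_zero_iff (a : A) : resK 𝒪 A a = 0 ↔ a ∈ maximalIdeal A := by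
  have := resK_eq_iff (𝒪 := 𝒪) a 0
  rwa [map_zero, map_zero, sub_zero] at this

theorem resK_surjective : Function.Surjective (resK 𝒪 A) := by
  intro x
  obtain ⟨o, rfl⟩ := residue_surjective x
  exact ⟨algebraMap 𝒪 A o, by rw [AlgHom.commutes]; rfl⟩

instance residueField_isTestAlg : IsTestAlg 𝒪 (ResidueField 𝒪) where
  isLocalHom := by
    rw [IsLocalRing.ResidueField.algebraMap_eq]
    infer_instance
  residue_surjective := by
    apply Function.Surjective.comp residue_surjective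
    rw [IsLocalRing.ResidueField.algebraMap_eq]
    exact residue_surjective

theorem isArtinianTestAlgebra_of [IsArtinianRing A] : GaloisRep.IsArtinianTestAlgebra 𝒪 A :=
  ⟨IsTestAlg.isLocalHom, IsTestAlg.residue_surjective, inferInstance⟩

end ResK

section FibFacts
variable {𝒪 : Type} [CommRing 𝒪] [IsLocalRing 𝒪]
variable {A : Type} [CommRing A] [IsLocalRing A] [Algebra 𝒪 A] [IsTestAlg 𝒪 A]
variable {B : Type} [CommRing B] [IsLocalRing B] [Algebra 𝒪 B] [IsTestAlg 𝒪 B]
variable [IsArtinianRing A] [IsArtinianRing B]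

theorem resK_comp_fib : (resK 𝒪 A).comp (fibFst (B := B)) = (resK 𝒪 B).comp fibSnd := by
  ext x
  obtain ⟨o, h1, h2⟩ := x.2
  show resK 𝒪 A (x : A × B).1 = resK 𝒪 B (x : A × B).2
  rw [(resK_eq_iff _ o).mpr h1, (resK_eq_iff _ o).mpr h2]

theorem fib_surjective (a : A) (b : B) (h : resK 𝒪 A a = resK 𝒪 B b) :
    ∃ x : fibProd 𝒪 A B, fibFst x = a ∧ fibSnd x = b := by
  obtain ⟨o, ho⟩ := residue_surjective (resK 𝒪 A a)
  refine ⟨⟨(a, b), o, ?_, ?_⟩, rfl, rfl⟩
  · exact (resK_eq_iff a o).mp ho.symm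
  · exact (resK_eq_iff b o).mp (h ▸ ho.symm)

end FibFacts
end Fermat.Agent.TeamA.Rep
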