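import Mathlib
import Fermat.Prelude.Def_GaloisRep_DeformationCondition

/-!
# Artinian test algebras are finite rings; subalgebras of finite local test algebras
-/

set_option autoImplicit false
set_option linter.style.haveILetI false
set_option linter.unusedSectionVars false

namespace Fermat.Agent.TeamA

open IsLocalRing

section Artinian

variable {𝒪 : Type*} [CommRing 𝒪] [IsLocalRing 𝒪]
variable {A : Type*} [CommRing A] [IsLocalRing A] [Algebra 𝒪 A]

/-- The maximal ideal of an Artinian local ring is nilpotent. -/
theorem exists_maximalIdeal_pow_eq_bot_of_isArtinianRing (A : Type*) [CommRing A] [IsLocalRing A]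
    [IsArtinianRing A] : ∃ c : ℕ, maximalIdeal A ^ c = ⊥ := by
  have h := IsArtinianRing.isNilpotent_jacobson_bot (R := A)
  rw [IsLocalRing.jacobson_eq_maximalIdeal ⊥ bot_ne_top] at h
  obtain ⟨c, hc⟩ := h
  exact ⟨c, hc⟩

/-- `𝒪 → A` local: the structure map sends the maximal ideal into the maximal ideal. -/
theorem algebraMap_mem_maximalIdeal (hloc : IsLocalHom (algebraMap 𝒪 A)) {o : 𝒪}
    (ho : o ∈ maximalIdeal 𝒪) : algebraMap 𝒪 A o ∈ maximalIdeal A := by
  rw [IsLocalRing.mem_maximalIdeal, mem_nonunits_iff] at ho ⊢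
  exact fun h => ho (hloc.map_nonunit o h)

/-- `𝒪 → A` local: only elements of the maximal ideal of `𝒪` land in the maximal ideal. -/
theorem mem_maximalIdeal_of_algebraMap_mem {o : 𝒪}
    (ho : algebraMap 𝒪 A o ∈ maximalIdeal A) : o ∈ maximalIdeal 𝒪 := by
  rw [IsLocalRing.mem_maximalIdeal, mem_nonunits_iff] at ho ⊢
  exact fun h => ho (h.map _)

/-- Residue field of a test algebra is finite when that of `𝒪` is. -/
theorem finite_residueField_of_testAlgebra [Finite (ResidueField 𝒪)]
    (hloc : IsLocalHom (algebraMap 𝒪 A))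
    (hsurj : Function.Surjective (residue A ∘ algebraMap 𝒪 A)) : Finite (ResidueField A) := by
  haveI := hloc
  refine Finite.of_surjective (ResidueField.map (algebraMap 𝒪 A)) ?_
  intro y
  obtain ⟨o, ho⟩ := hsurj y
  exact ⟨residue 𝒪 o, by rw [ResidueField.map_residue]; exact ho⟩

/-- (g) An Artinian local test algebra over `𝒪` (finite residue field) is a finite ring. -/
theorem finite_of_isArtinianRing_of_surjective [Finite (ResidueField 𝒪)] [IsArtinianRing A]
    (hloc : IsLocalHom (algebraMap 𝒪 A))
    (hsurj : Function.Surjective (residue A ∘ algebraMap 𝒪 A)) : Finite A := by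
  haveI := finite_residueField_of_testAlgebra hloc hsurj
  obtain ⟨c, hc⟩ := exists_maximalIdeal_pow_eq_bot_of_isArtinianRing A
  have h : Finite (A ⧸ (⊥ : Ideal A)) :=
    IsLocalRing.finite_quotient_iff.mpr ⟨c, hc.le⟩
  exact Finite.of_equiv _ (RingEquiv.quotientBot A).toEquiv

/-- A finite local ring is Artinian. -/
theorem isArtinianRing_of_finite (A : Type*) [CommRing A] [Finite A] : IsArtinianRing A :=
  inferInstance

end Artinian

section Subalgebra

variable {𝒪 : Type*} [CommRing 𝒪] [IsLocalRing 𝒪]
variable {A : Type*} [CommRing A] [IsLocalRing A] [Algebra 𝒪 A] [Finite A]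
variable (B : Subalgebra 𝒪 A)

/-- In a subalgebra of a finite ring, being a unit can be tested in the big ring. -/
theorem isUnit_subalgebra_iff (b : B) : IsUnit b ↔ IsUnit (b : A) := by
  constructor
  · intro h
    exact h.map B.val
  · intro h
    obtain ⟨n, hn, hpow⟩ := isOfFinOrder_iff_pow_eq_one.mp (isOfFinOrder_of_finite h.unit)
    have h1 : (b : A) ^ n = 1 := by
      have := congrArg Units.val hpow
      simpa using this
    refine IsUnit.of_mul_eq_one (b ^ (n - 1)) ?_
    apply Subtype.ext
    have : (b : A) * (b : A) ^ (n - 1) = 1 := by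
      rw [← pow_succ', Nat.sub_add_cancel hn, h1]
    simpa using this

/-- (j) A subalgebra of a finite local ring is local. -/
theorem isLocalRing_subalgebra : IsLocalRing B := by
  haveI : Nontrivial B := inferInstance
  refine IsLocalRing.of_nonunits_add ?_
  intro a b ha hb
  rw [mem_nonunits_iff, isUnit_subalgebra_iff] at ha hb ⊢
  have ha' : (a : A) ∈ maximalIdeal A := (IsLocalRing.mem_maximalIdeal _).mpr ha
  have hb' : (b : A) ∈ maximalIdeal A := (IsLocalRing.mem_maximalIdeal _).mpr hb
  have := (maximalIdeal A).add_mem ha' hb'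
  exact (IsLocalRing.mem_maximalIdeal _).mp this

/-- (j) The inclusion of a subalgebra of a finite local ring is a local homomorphism. -/
theorem isLocalHom_subalgebra_val : IsLocalHom (B.val : B →+* A) := by
  constructor
  intro b hb
  exact (isUnit_subalgebra_iff B b).mpr hb

/-- (j) membership in the maximal ideal of a subalgebra of a finite local ring. -/
theorem mem_maximalIdeal_subalgebra_iff (b : B) :
    haveI := isLocalRing_subalgebra B
    b ∈ maximalIdeal B ↔ (b : A) ∈ maximalIdeal A := by
  haveI := isLocalRing_subalgebra B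
  rw [IsLocalRing.mem_maximalIdeal, IsLocalRing.mem_maximalIdeal, mem_nonunits_iff,
    mem_nonunits_iff, isUnit_subalgebra_iff]

/-- (j) `𝒪 → B` is local. -/
theorem isLocalHom_algebraMap_subalgebra (hloc : IsLocalHom (algebraMap 𝒪 A)) :
    IsLocalHom (algebraMap 𝒪 B) := by
  constructor
  intro o ho
  apply hloc.map_nonunit o
  have := (isUnit_subalgebra_iff B _).mp ho
  simpa using this

/-- (j) `𝒪 → B → residue field of B` is onto. -/
theorem residue_algebraMap_subalgebra_surjective
    (hsurj : Function.Surjective (residue A ∘ algebraMap 𝒪 A)) :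
    haveI := isLocalRing_subalgebra B
    Function.Surjective (residue B ∘ algebraMap 𝒪 B) := by
  haveI := isLocalRing_subalgebra B
  intro y
  obtain ⟨b, rfl⟩ := IsLocalRing.residue_surjective y
  obtain ⟨o, ho⟩ := hsurj (residue A (b : A))
  refine ⟨o, ?_⟩
  change residue B (algebraMap 𝒪 B o) = residue B b
  rw [← sub_eq_zero, ← map_sub, IsLocalRing.residue_eq_zero_iff, mem_maximalIdeal_subalgebra_iff]
  have h2 : residue A (algebraMap 𝒪 A o) = residue A (b : A) := ho
  rw [← sub_eq_zero, ← map_sub, IsLocalRing.residue_eq_zero_iff] at h2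
  simpa using h2

/-- (j) A subalgebra of a finite local test algebra is an Artinian test algebra. -/
theorem isArtinianTestAlgebra_subalgebra {𝒪 A : Type} [CommRing 𝒪] [IsLocalRing 𝒪]
    [CommRing A] [IsLocalRing A] [Algebra 𝒪 A] [Finite A] (B : Subalgebra 𝒪 A)
    (hloc : IsLocalHom (algebraMap 𝒪 A))
    (hsurj : Function.Surjective (residue A ∘ algebraMap 𝒪 A)) :
    haveI := isLocalRing_subalgebra B
    GaloisRep.IsArtinianTestAlgebra 𝒪 B := by
  haveI := isLocalRing_subalgebra B
  exact ⟨isLocalHom_algebraMap_subalgebra B hloc,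
    residue_algebraMap_subalgebra_surjective B hsurj, inferInstance⟩

end Subalgebra

end Fermat.Agent.TeamA
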