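import Mathlib
import Fermat.Agent.TeamA.Dual
import Fermat.Agent.TeamA.ArtinTest

/-!
# Generation criterion for test algebras with nilpotent maximal ideal

(f) Let `A` be a local `𝒪`-algebra with residue field `k` (via `𝒪`) and nilpotent maximal ideal,
and let `B` be a subalgebra.  If `B ≠ ⊤`, there are two different `𝒪`-algebra maps `A → k[ε]`
agreeing on `B`.
-/

set_option autoImplicit false
set_option linter.style.haveILetI false
set_option linter.unusedSectionVars false

namespace Fermat.Agent.TeamA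

open IsLocalRing TrivSqZeroExt

section DualHom

variable {A K : Type*} [CommRing A] [CommRing K]

/-- The ring hom `a ↦ π a + D a ε` attached to a "`π`-derivation" `D`. -/
def dualNumberHom (π : A →+* K) (D : A →+ K)
    (hD : ∀ a b, D (a * b) = π a * D b + π b * D a) : A →+* DualNumber K where
  toFun a := inl (π a) + inr (D a)
  map_one' := by
    have h1 : D 1 = 0 := by
      have := hD 1 1
      simp only [mul_one, map_one, one_mul] at this
      exact left_eq_add.mp this
    simp [h1]
  map_mul' a b := by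
    ext
    · simp
    · simp [hD, mul_comm]
  map_zero' := by simp
  map_add' a b := by
    ext
    · simp
    · simp

theorem dualNumberHom_apply (π : A →+* K) (D : A →+ K)
    (hD : ∀ a b, D (a * b) = π a * D b + π b * D a) (a : A) :
    dualNumberHom π D hD a = inl (π a) + inr (D a) := rfl

end DualHom

section Nakayama

variable {𝒪 : Type*} [CommRing 𝒪] [IsLocalRing 𝒪]
variable {A : Type*} [CommRing A] [IsLocalRing A] [Algebra 𝒪 A]

theorem exists_sub_algebraMap_mem_maximalIdeal
    (hsurj : Function.Surjective (residue A ∘ algebraMap 𝒪 A)) (a : A) :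
    ∃ o : 𝒪, a - algebraMap 𝒪 A o ∈ maximalIdeal A := by
  obtain ⟨o, ho⟩ := hsurj (residue A a)
  refine ⟨o, ?_⟩
  rw [← residue_eq_zero_iff, map_sub, sub_eq_zero]
  exact ho.symm

theorem subalgebra_approx_step
    (hsurj : Function.Surjective (residue A ∘ algebraMap 𝒪 A)) (B : Subalgebra 𝒪 A)
    (h : ∀ x ∈ maximalIdeal A, ∃ b ∈ B, b ∈ maximalIdeal A ∧ x - b ∈ maximalIdeal A ^ 2) :
    ∀ j : ℕ, ∀ x ∈ maximalIdeal A ^ j,
      ∃ b ∈ B, b ∈ maximalIdeal A ^ j ∧ x - b ∈ maximalIdeal A ^ (j + 1) := by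
  intro j
  induction j with
  | zero =>
    intro x _
    obtain ⟨o, ho⟩ := exists_sub_algebraMap_mem_maximalIdeal hsurj x
    exact ⟨algebraMap 𝒪 A o, B.algebraMap_mem o, by simp, by simpa using ho⟩
  | succ j ih =>
    intro x hx
    rw [pow_succ] at hx
    refine Submodule.mul_induction_on hx ?_ ?_
    · intro u hu v hv
      obtain ⟨b, hbB, hbm, hub⟩ := ih u hu
      obtain ⟨b', hb'B, hb'm, hvb'⟩ := h v hv
      refine ⟨b * b', B.mul_mem hbB hb'B, ?_, ?_⟩
      · rw [pow_succ]
        exact Ideal.mul_mem_mul hbm hb'm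
      · have e : u * v - b * b' = (u - b) * v + b * (v - b') := by ring
        rw [e]
        apply Ideal.add_mem
        · rw [pow_succ (maximalIdeal A) (j + 1)]
          exact Ideal.mul_mem_mul hub hv
        · have e2 : maximalIdeal A ^ (j + 1 + 1) = maximalIdeal A ^ j * maximalIdeal A ^ 2 := by
            rw [← pow_add]
          rw [e2]
          exact Ideal.mul_mem_mul hbm hvb'
    · rintro u v ⟨b, hbB, hbm, hub⟩ ⟨b', hb'B, hb'm, hvb'⟩
      refine ⟨b + b', B.add_mem hbB hb'B, Ideal.add_mem _ hbm hb'm, ?_⟩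
      have e : u + v - (b + b') = (u - b) + (v - b') := by ring
      rw [e]
      exact Ideal.add_mem _ hub hvb'

/-- (f), Nakayama form: a subalgebra `B` of a local test algebra `A` with nilpotent maximal ideal
`m` such that `m ⊆ (B ∩ m) + m ^ 2` is everything. -/
theorem subalgebra_eq_top_of_maximalIdeal_subset
    (hsurj : Function.Surjective (residue A ∘ algebraMap 𝒪 A))
    (c : ℕ) (hc : maximalIdeal A ^ c = ⊥) (B : Subalgebra 𝒪 A)
    (h : ∀ x ∈ maximalIdeal A, ∃ b ∈ B, b ∈ maximalIdeal A ∧ x - b ∈ maximalIdeal A ^ 2) :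
    B = ⊤ := by
  have key : ∀ j : ℕ, ∀ a : A, ∃ b ∈ B, a - b ∈ maximalIdeal A ^ j := by
    intro j
    induction j with
    | zero => intro a; exact ⟨0, B.zero_mem, by simp⟩
    | succ j ih =>
      intro a
      obtain ⟨b, hb, hab⟩ := ih a
      obtain ⟨b', hb', _, h'⟩ := subalgebra_approx_step hsurj B h j (a - b) hab
      exact ⟨b + b', B.add_mem hb hb', by rwa [← sub_sub]⟩
  rw [eq_top_iff]
  intro a _
  obtain ⟨b, hb, hab⟩ := key c a
  rw [hc, Ideal.mem_bot, sub_eq_zero] at hab
  rwa [hab]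

end Nakayama

section Derivation

variable {𝒪 : Type*} [CommRing 𝒪] [IsLocalRing 𝒪]
variable {A : Type*} [CommRing A] [IsLocalRing A] [Algebra 𝒪 A]

/-- The image of `B ∩ m` in the cotangent space, as a subspace. -/
def cotangentImage (hsurj : Function.Surjective (residue A ∘ algebraMap 𝒪 A))
    (B : Subalgebra 𝒪 A) : Submodule (ResidueField A) (CotangentSpace A) where
  carrier := {v | ∃ x : maximalIdeal A, (x : A) ∈ B ∧ (maximalIdeal A).toCotangent x = v}
  zero_mem' := ⟨0, by simp [B.zero_mem], by simp⟩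
  add_mem' := by
    rintro _ _ ⟨x, hx, rfl⟩ ⟨y, hy, rfl⟩
    exact ⟨x + y, by simpa using B.add_mem hx hy, by simp⟩
  smul_mem' := by
    rintro c _ ⟨x, hx, rfl⟩
    obtain ⟨a, rfl⟩ := IsLocalRing.residue_surjective c
    obtain ⟨o, ho⟩ := exists_sub_algebraMap_mem_maximalIdeal hsurj a
    refine ⟨⟨algebraMap 𝒪 A o * x, Ideal.mul_mem_left _ _ x.2⟩, B.mul_mem (B.algebraMap_mem o) hx, ?_⟩
    have e1 : (residue A a) • (maximalIdeal A).toCotangent x
        = (maximalIdeal A).toCotangent (a • x) := by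
      rw [map_smul]
      exact (algebraMap_smul (ResidueField A) a ((maximalIdeal A).toCotangent x))
    rw [e1, Ideal.toCotangent_eq]
    have e2 : ((⟨algebraMap 𝒪 A o * x, Ideal.mul_mem_left _ _ x.2⟩ : maximalIdeal A) : A)
        - ((a • x : maximalIdeal A) : A) = -((a - algebraMap 𝒪 A o) * (x : A)) := by
      simp only [Submodule.coe_smul, smul_eq_mul]
      ring
    rw [e2, pow_two]
    exact Ideal.neg_mem_iff _ |>.mpr (Ideal.mul_mem_mul ho x.2)

theorem cotangentImage_eq_top_imp
    (hsurj : Function.Surjective (residue A ∘ algebraMap 𝒪 A)) (B : Subalgebra 𝒪 A)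
    (h : cotangentImage hsurj B = ⊤) :
    ∀ x ∈ maximalIdeal A, ∃ b ∈ B, b ∈ maximalIdeal A ∧ x - b ∈ maximalIdeal A ^ 2 := by
  intro x hx
  have : (maximalIdeal A).toCotangent ⟨x, hx⟩ ∈ cotangentImage hsurj B := by
    rw [h]; exact Submodule.mem_top
  obtain ⟨y, hyB, hy⟩ := this
  rw [Ideal.toCotangent_eq] at hy
  refine ⟨y, hyB, y.2, ?_⟩
  have := Ideal.neg_mem_iff _ |>.mpr hy
  simpa using this

/-- A `residue`-derivation `A → ResidueField A`, vanishing on `B`, nonzero, when `B` does not
fill up the cotangent space. -/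
theorem exists_derivation_of_cotangentImage_ne_top
    (hsurj : Function.Surjective (residue A ∘ algebraMap 𝒪 A)) (B : Subalgebra 𝒪 A)
    (h : cotangentImage hsurj B ≠ ⊤) :
    ∃ D : A →+ ResidueField A,
      (∀ a b, D (a * b) = residue A a * D b + residue A b * D a) ∧
      (∀ b ∈ B, D b = 0) ∧ ∃ a, D a ≠ 0 := by
  classical
  obtain ⟨lam, hlam0, hlam⟩ := (cotangentImage hsurj B).exists_le_ker_of_lt_top (lt_top_iff_ne_top.mpr h)
  -- the `A`-linear functional on `m`
  let L : maximalIdeal A →ₗ[A] ResidueField A :=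
    (lam.restrictScalars A).comp (maximalIdeal A).toCotangent
  have hLB : ∀ x : maximalIdeal A, (x : A) ∈ B → L x = 0 := by
    intro x hx
    have : (maximalIdeal A).toCotangent x ∈ cotangentImage hsurj B := ⟨x, hx, rfl⟩
    exact hlam this
  have hLsmul : ∀ (a : A) (x : maximalIdeal A), L (a • x) = residue A a * L x := by
    intro a x
    rw [map_smul, Algebra.smul_def]
    rfl
  -- choice of a constant
  choose o ho using exists_sub_algebraMap_mem_maximalIdeal (𝒪 := 𝒪) (A := A) hsurj
  let D₀ : A → ResidueField A := fun a => L ⟨a - algebraMap 𝒪 A (o a), ho a⟩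
  have hD₀ : ∀ (a : A) (o' : 𝒪) (h' : a - algebraMap 𝒪 A o' ∈ maximalIdeal A),
      D₀ a = L ⟨a - algebraMap 𝒪 A o', h'⟩ := by
    intro a o' h'
    rw [← sub_eq_zero]
    change L _ - L _ = 0
    rw [← map_sub]
    apply hLB
    have e : ((⟨a - algebraMap 𝒪 A (o a), ho a⟩ - ⟨a - algebraMap 𝒪 A o', h'⟩ : maximalIdeal A) : A)
        = algebraMap 𝒪 A (o' - o a) := by
      simp only [AddSubgroupClass.coe_sub, map_sub]
      ring
    rw [e]
    exact B.algebraMap_mem _
  have hD₀B : ∀ b ∈ B, D₀ b = 0 := by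
    intro b hb
    apply hLB
    exact B.sub_mem hb (B.algebraMap_mem _)
  have hD₀add : ∀ a b, D₀ (a + b) = D₀ a + D₀ b := by
    intro a b
    have h' : (a + b) - algebraMap 𝒪 A (o a + o b) ∈ maximalIdeal A := by
      have := (maximalIdeal A).add_mem (ho a) (ho b)
      rw [map_add]
      convert this using 1
      ring
    rw [hD₀ (a + b) (o a + o b) h']
    change L _ = L _ + L _
    rw [← map_add]
    congr 1
    apply Subtype.ext
    simp only [map_add, AddMemClass.mk_add_mk]
    ring
  have hres : ∀ a, residue A (algebraMap 𝒪 A (o a)) = residue A a := by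
    intro a
    have := ho a
    rw [← residue_eq_zero_iff, map_sub, sub_eq_zero] at this
    exact this.symm
  have hD₀mul : ∀ a b, D₀ (a * b) = residue A a * D₀ b + residue A b * D₀ a := by
    intro a b
    have h' : (a * b) - algebraMap 𝒪 A (o a * o b) ∈ maximalIdeal A := by
      have h1 := Ideal.mul_mem_left (maximalIdeal A) b (ho a)
      have h2 := Ideal.mul_mem_left (maximalIdeal A) (algebraMap 𝒪 A (o a)) (ho b)
      have := (maximalIdeal A).add_mem h1 h2
      rw [map_mul]
      convert this using 1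
      ring
    rw [hD₀ (a * b) (o a * o b) h']
    have e : (⟨a * b - algebraMap 𝒪 A (o a * o b), h'⟩ : maximalIdeal A)
        = algebraMap 𝒪 A (o a) • ⟨b - algebraMap 𝒪 A (o b), ho b⟩
          + b • ⟨a - algebraMap 𝒪 A (o a), ho a⟩ := by
      apply Subtype.ext
      simp only [map_mul, Submodule.coe_add, Submodule.coe_smul, smul_eq_mul]
      ring
    rw [e, map_add, hLsmul, hLsmul, hres]
  refine ⟨⟨⟨D₀, ?_⟩, hD₀add⟩, hD₀mul, hD₀B, ?_⟩
  · have := hD₀B 0 B.zero_mem
    exact this
  · -- nonvanishing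
    have : ∃ v, lam v ≠ 0 := by
      by_contra hcon
      simp only [not_exists, not_not] at hcon
      exact hlam0 (LinearMap.ext hcon)
    obtain ⟨v, hv⟩ := this
    obtain ⟨x, rfl⟩ := (maximalIdeal A).toCotangent_surjective v
    refine ⟨x, ?_⟩
    change D₀ x ≠ 0
    have h' : (x : A) - algebraMap 𝒪 A 0 ∈ maximalIdeal A := by simp
    rw [hD₀ x 0 h']
    have e : (⟨(x : A) - algebraMap 𝒪 A 0, h'⟩ : maximalIdeal A) = x := by
      apply Subtype.ext
      simp
    rw [e]
    exact hv

/-- (f) Generation criterion: if `B ≠ ⊤` is a subalgebra of a local test algebra `A` with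
nilpotent maximal ideal, there are two different `𝒪`-algebra maps `A → k[ε]` agreeing on `B`. -/
theorem exists_ne_algHom_dualNumber_of_ne_top
    (hloc : IsLocalHom (algebraMap 𝒪 A))
    (hsurj : Function.Surjective (residue A ∘ algebraMap 𝒪 A))
    (c : ℕ) (hc : maximalIdeal A ^ c = ⊥) (B : Subalgebra 𝒪 A) (hB : B ≠ ⊤) :
    letI := dualNumberAlgebra 𝒪
    ∃ f₁ f₂ : A →ₐ[𝒪] DualNumber (ResidueField 𝒪), f₁ ≠ f₂ ∧ ∀ b ∈ B, f₁ b = f₂ b := by
  letI := dualNumberAlgebra 𝒪
  haveI := hloc
  have hne : cotangentImage hsurj B ≠ ⊤ := fun h =>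
    hB (subalgebra_eq_top_of_maximalIdeal_subset hsurj c hc B (cotangentImage_eq_top_imp hsurj B h))
  obtain ⟨D, hDmul, hDB, a₀, ha₀⟩ := exists_derivation_of_cotangentImage_ne_top hsurj B hne
  -- identification of residue fields
  have hbij : Function.Bijective (ResidueField.map (algebraMap 𝒪 A)) := by
    refine ⟨(ResidueField.map (algebraMap 𝒪 A)).injective, fun y => ?_⟩
    obtain ⟨o, ho⟩ := hsurj y
    exact ⟨residue 𝒪 o, by rw [ResidueField.map_residue]; exact ho⟩
  let κ : ResidueField 𝒪 ≃+* ResidueField A := RingEquiv.ofBijective _ hbij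
  have hκ : ∀ o : 𝒪, κ.symm (residue A (algebraMap 𝒪 A o)) = residue 𝒪 o := by
    intro o
    rw [RingEquiv.symm_apply_eq]
    exact (ResidueField.map_residue _ _).symm
  let π' : A →+* ResidueField 𝒪 := (κ.symm : ResidueField A →+* ResidueField 𝒪).comp (residue A)
  let D' : A →+ ResidueField 𝒪 := (κ.symm : ResidueField A →+ ResidueField 𝒪).comp D
  have hD' : ∀ a b, D' (a * b) = π' a * D' b + π' b * D' a := by
    intro a b
    change κ.symm (D (a * b)) = κ.symm (residue A a) * κ.symm (D b)
      + κ.symm (residue A b) * κ.symm (D a)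
    rw [hDmul, map_add, map_mul, map_mul]
  have h0 : ∀ a b, (0 : A →+ ResidueField 𝒪) (a * b) = π' a * (0 : A →+ ResidueField 𝒪) b
      + π' b * (0 : A →+ ResidueField 𝒪) a := by
    intro a b; simp
  have hπ' : ∀ o : 𝒪, π' (algebraMap 𝒪 A o) = residue 𝒪 o := hκ
  have hD'B : ∀ b ∈ B, D' b = 0 := by
    intro b hb
    change κ.symm (D b) = 0
    rw [hDB b hb, map_zero]
  let f₁ : A →ₐ[𝒪] DualNumber (ResidueField 𝒪) :=
    { dualNumberHom π' 0 h0 with
      commutes' := by
        intro o
        change dualNumberHom π' 0 h0 (algebraMap 𝒪 A o) = inl (residue 𝒪 o)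
        rw [dualNumberHom_apply, hπ']
        simp }
  let f₂ : A →ₐ[𝒪] DualNumber (ResidueField 𝒪) :=
    { dualNumberHom π' D' hD' with
      commutes' := by
        intro o
        change dualNumberHom π' D' hD' (algebraMap 𝒪 A o) = inl (residue 𝒪 o)
        rw [dualNumberHom_apply, hπ', hD'B _ (B.algebraMap_mem o)]
        simp }
  refine ⟨f₁, f₂, ?_, ?_⟩
  · intro heq
    have h1 : f₁ a₀ = f₂ a₀ := by rw [heq]
    change dualNumberHom π' 0 h0 a₀ = dualNumberHom π' D' hD' a₀ at h1
    rw [dualNumberHom_apply, dualNumberHom_apply] at h1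
    have h2 := congrArg TrivSqZeroExt.snd h1
    simp only [AddMonoidHom.zero_apply, snd_add, snd_inl, snd_inr, add_zero, zero_add] at h2
    have h3 : κ.symm (D a₀) = 0 := h2.symm
    rw [map_eq_zero_iff _ κ.symm.injective] at h3
    exact ha₀ h3
  · intro b hb
    change dualNumberHom π' 0 h0 b = dualNumberHom π' D' hD' b
    rw [dualNumberHom_apply, dualNumberHom_apply, hD'B b hb]
    simp

end Derivation

end Fermat.Agent.TeamA
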