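import Mathlib
import Fermat.Prelude.Thm_IsLocalRing_isAdicComplete_of_module_finite
import Fermat.Agent.TeamA.MvPS

/-!
# Quotients of a complete Noetherian local `𝒪`-algebra

Everything `GaloisRep.DeformationRingData` needs to know about `R = S ⧸ J`
(`S` complete Noetherian local, e.g. `S = MvPowerSeries σ 𝒪`, and `J ≠ ⊤`).
-/

set_option autoImplicit false
set_option linter.style.haveILetI false
set_option linter.unusedSectionVars false

namespace Fermat.Agent.TeamA

open IsLocalRing

section General

variable {S : Type*} [CommRing S] [IsLocalRing S] (J : Ideal S)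

/-- A proper quotient of a local ring is local. -/
theorem isLocalRing_quotient (hJ : J ≠ ⊤) : IsLocalRing (S ⧸ J) :=
  haveI : Nontrivial (S ⧸ J) := Ideal.Quotient.nontrivial_iff.mpr hJ
  IsLocalRing.of_surjective' (Ideal.Quotient.mk J) Ideal.Quotient.mk_surjective

/-- The quotient map of a local ring by a proper ideal is a local homomorphism. -/
theorem isLocalHom_quotient_mk (hJ : J ≠ ⊤) : IsLocalHom (Ideal.Quotient.mk J) := by
  constructor
  intro a ha
  by_contra hna
  have hmem : a ∈ maximalIdeal S := (IsLocalRing.mem_maximalIdeal a).mpr hna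
  have hJle : J ≤ maximalIdeal S := IsLocalRing.le_maximalIdeal hJ
  obtain ⟨b, hb⟩ := ha.exists_right_inv
  obtain ⟨b, rfl⟩ := Ideal.Quotient.mk_surjective b
  rw [← map_mul, ← map_one (Ideal.Quotient.mk J), Ideal.Quotient.eq] at hb
  have h1 : (1 : S) ∈ maximalIdeal S := by
    have h2 : a * b ∈ maximalIdeal S := Ideal.mul_mem_right _ _ hmem
    have h3 := (maximalIdeal S).sub_mem h2 (hJle hb)
    simpa using h3
  exact (Ideal.ne_top_iff_one _).mp (IsLocalRing.maximalIdeal.isMaximal S).ne_top h1

/-- The maximal ideal of a proper quotient of a local ring. -/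
theorem maximalIdeal_quotient (hJ : J ≠ ⊤) :
    haveI := isLocalRing_quotient J hJ
    maximalIdeal (S ⧸ J) = (maximalIdeal S).map (Ideal.Quotient.mk J) := by
  haveI := isLocalRing_quotient J hJ
  haveI := isLocalHom_quotient_mk J hJ
  apply le_antisymm
  · intro x hx
    obtain ⟨y, rfl⟩ := Ideal.Quotient.mk_surjective x
    apply Ideal.mem_map_of_mem
    rw [IsLocalRing.mem_maximalIdeal, mem_nonunits_iff] at hx ⊢
    exact fun h => hx (h.map _)
  · rw [Ideal.map_le_iff_le_comap]
    intro x hx
    rw [Ideal.mem_comap]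
    exact map_nonunit (Ideal.Quotient.mk J) x hx

end General

section Algebra

variable {𝒪 : Type*} [CommRing 𝒪] [IsLocalRing 𝒪]
variable {S : Type*} [CommRing S] [IsLocalRing S] [Algebra 𝒪 S] (J : Ideal S)

/-- `𝒪 → S ⧸ J` is local when `𝒪 → S` is (and `J ≠ ⊤`). -/
theorem isLocalHom_algebraMap_quotient (hJ : J ≠ ⊤) [hloc : IsLocalHom (algebraMap 𝒪 S)] :
    IsLocalHom (algebraMap 𝒪 (S ⧸ J)) := by
  haveI := isLocalHom_quotient_mk J hJ
  constructor
  intro a ha
  have : IsUnit (Ideal.Quotient.mk J (algebraMap 𝒪 S a)) := ha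
  exact hloc.map_nonunit a ((isLocalHom_quotient_mk J hJ).map_nonunit _ this)

/-- `𝒪 → S ⧸ J → residue field` is onto when this holds for `S`. -/
theorem residue_algebraMap_quotient_surjective (hJ : J ≠ ⊤)
    (hsurj : Function.Surjective (residue S ∘ algebraMap 𝒪 S)) :
    haveI := isLocalRing_quotient J hJ
    Function.Surjective (residue (S ⧸ J) ∘ algebraMap 𝒪 (S ⧸ J)) := by
  haveI := isLocalRing_quotient J hJ
  intro y
  obtain ⟨z, rfl⟩ := IsLocalRing.residue_surjective y
  obtain ⟨w, rfl⟩ := Ideal.Quotient.mk_surjective z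
  obtain ⟨a, ha⟩ := hsurj (residue S w)
  refine ⟨a, ?_⟩
  change residue (S ⧸ J) (Ideal.Quotient.mk J (algebraMap 𝒪 S a)) = residue (S ⧸ J) _
  rw [← sub_eq_zero, ← map_sub, ← map_sub, IsLocalRing.residue_eq_zero_iff,
    maximalIdeal_quotient J hJ]
  apply Ideal.mem_map_of_mem
  rw [← IsLocalRing.residue_eq_zero_iff, map_sub, sub_eq_zero]
  exact ha

end Algebra

section Complete

variable {S : Type*} [CommRing S] [IsLocalRing S] [IsNoetherianRing S]
  [IsAdicComplete (maximalIdeal S) S] (J : Ideal S)

/-- A proper quotient of a complete Noetherian local ring is complete. -/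
theorem isAdicComplete_quotient (hJ : J ≠ ⊤) :
    haveI := isLocalRing_quotient J hJ
    IsAdicComplete (maximalIdeal (S ⧸ J)) (S ⧸ J) := by
  haveI := isLocalRing_quotient J hJ
  haveI : IsLocalHom (algebraMap S (S ⧸ J)) := isLocalHom_quotient_mk J hJ
  haveI : Module.Finite S (S ⧸ J) :=
    Module.Finite.of_surjective (Algebra.linearMap S (S ⧸ J)) Ideal.Quotient.mk_surjective
  exact IsLocalRing.isAdicComplete_of_module_finite (𝒪 := S) (T := S ⧸ J)

end Complete

end Fermat.Agent.TeamA
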