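import Fermat.Agent.TeamA.ResK
import Fermat.Agent.TeamA.Dual
/-!
# Specification of the abstract pro-representability theorem used for S53

A "rigid functor" on finite test algebras over `𝒪` (values: families `ι → A` of elements lifting
a fixed family `t : ι → 𝒪` modulo the maximal ideal), compatible with maps, injective descent and
fibre products over the residue field, with one point over the residue field and finitely many
points over the dual numbers, is pro-represented by a complete Noetherian local `𝒪`-algebra.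

This file only contains the definitions (hypotheses `RigidFunctor`, conclusion `ProRep`).
-/
set_option autoImplicit false
open IsLocalRing
namespace Fermat.Agent.TeamA.Rep

/-- Hypotheses of the abstract pro-representability theorem. -/
structure RigidFunctor (𝒪 : Type) [CommRing 𝒪] [IsLocalRing 𝒪] (ι : Type) where
  /-- the base point, over `𝒪` -/
  t : ι → 𝒪
  /-- the functor -/
  G : ∀ (A : Type) [CommRing A] [IsLocalRing A] [Algebra 𝒪 A], (ι → A) → Prop
  lifts : ∀ {A : Type} [CommRing A] [IsLocalRing A] [Algebra 𝒪 A] [IsTestAlg 𝒪 A] [Finite A]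
    {v : ι → A}, G A v → ∀ i, v i - algebraMap 𝒪 A (t i) ∈ maximalIdeal A
  map : ∀ {A B : Type} [CommRing A] [IsLocalRing A] [Algebra 𝒪 A] [IsTestAlg 𝒪 A] [Finite A]
    [CommRing B] [IsLocalRing B] [Algebra 𝒪 B] [IsTestAlg 𝒪 B] [Finite B]
    (φ : A →ₐ[𝒪] B) {v : ι → A}, G A v → G B (fun i => φ (v i))
  of_injective : ∀ {A B : Type} [CommRing A] [IsLocalRing A] [Algebra 𝒪 A] [IsTestAlg 𝒪 A]
    [Finite A] [CommRing B] [IsLocalRing B] [Algebra 𝒪 B] [IsTestAlg 𝒪 B] [Finite B]
    (φ : A →ₐ[𝒪] B), Function.Injective φ → ∀ v : ι → A, G B (fun i => φ (v i)) → G A v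
  fib : ∀ {A B : Type} [CommRing A] [IsLocalRing A] [Algebra 𝒪 A] [IsTestAlg 𝒪 A] [Finite A]
    [CommRing B] [IsLocalRing B] [Algebra 𝒪 B] [IsTestAlg 𝒪 B] [Finite B]
    (u : ι → fibProd 𝒪 A B), G A (fun i => fibFst (u i)) → G B (fun i => fibSnd (u i)) →
      G (fibProd 𝒪 A B) u
  base : ∃ v : ι → ResidueField 𝒪, G (ResidueField 𝒪) v
  tangent_finite :
    letI := dualNumberAlgebra 𝒪
    Finite {v : ι → DualNumber (ResidueField 𝒪) // G (DualNumber (ResidueField 𝒪)) v}

/-- Conclusion of the abstract pro-representability theorem. -/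
structure ProRep {𝒪 : Type} [CommRing 𝒪] [IsLocalRing 𝒪] {ι : Type} (D : RigidFunctor 𝒪 ι) :
    Type 1 where
  R : Type
  [instCommRing : CommRing R]
  [instIsLocalRing : IsLocalRing R]
  [instIsNoetherianRing : IsNoetherianRing R]
  [instIsAdicComplete : IsAdicComplete (IsLocalRing.maximalIdeal R) R]
  [instAlgebra : Algebra 𝒪 R]
  [instIsTestAlg : IsTestAlg 𝒪 R]
  /-- the universal family -/
  u : ι → R
  lifts : ∀ i, u i - algebraMap 𝒪 R (D.t i) ∈ maximalIdeal R
  good : ∀ (B : Type) [CommRing B] [IsLocalRing B] [Algebra 𝒪 B] [IsTestAlg 𝒪 B] [Finite B]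
    (q : R →ₐ[𝒪] B), D.G B (fun i => q (u i))
  universal : ∀ (B : Type) [CommRing B] [IsLocalRing B] [Algebra 𝒪 B] [IsTestAlg 𝒪 B] [Finite B]
    (v : ι → B), D.G B v → ∃! φ : R →ₐ[𝒪] B, ∀ i, φ (u i) = v i

attribute [instance] ProRep.instCommRing ProRep.instIsLocalRing ProRep.instIsNoetherianRing
  ProRep.instIsAdicComplete ProRep.instAlgebra ProRep.instIsTestAlg

/- The theorem to be proved (in `TeamA/ProRep.lean`):
theorem nonempty_proRep {𝒪 : Type} [CommRing 𝒪] [IsLocalRing 𝒪] [IsNoetherianRing 𝒪]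
    [IsAdicComplete (maximalIdeal 𝒪) 𝒪] [Finite (ResidueField 𝒪)] {ι : Type}
    (D : RigidFunctor 𝒪 ι) : Nonempty (ProRep D)
-/

end Fermat.Agent.TeamA.Rep
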