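import Fermat.Agent.TeamA.Tangent
import Fermat.Agent.TeamA.ProRepSpec
set_option autoImplicit false
open scoped TensorProduct
open IsLocalRing Polynomial
namespace Fermat.Agent.TeamA.Rep
local notation "Γℚ" => (AlgebraicClosure ℚ ≃ₐ[ℚ] AlgebraicClosure ℚ)

example (A : Type) [CommRing A] [Finite A] : IsArtinianRing A := inferInstance

section Functor
variable {𝒪 : Type} [CommRing 𝒪] [IsLocalRing 𝒪]
variable {A : Type} [CommRing A]

/-- matrix function attached to a family indexed by `Γℚ × Fin 2 × Fin 2` -/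
def toMat (v : Γℚ × Fin 2 × Fin 2 → A) : Γℚ → Matrix (Fin 2) (Fin 2) A :=
  fun g => Matrix.of fun i j => v (g, i, j)

/-- family attached to a matrix function -/
def ofMat (r : Γℚ → Matrix (Fin 2) (Fin 2) A) : Γℚ × Fin 2 × Fin 2 → A :=
  fun x => r x.1 x.2.1 x.2.2

@[simp] theorem toMat_apply (v : Γℚ × Fin 2 × Fin 2 → A) (g : Γℚ) (i j : Fin 2) :
    toMat v g i j = v (g, i, j) := rfl

@[simp] theorem toMat_ofMat (r : Γℚ → Matrix (Fin 2) (Fin 2) A) : toMat (ofMat r) = r := rfl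

@[simp] theorem ofMat_toMat (v : Γℚ × Fin 2 × Fin 2 → A) : ofMat (toMat v) = v := rfl

theorem toMat_map {B : Type} [CommRing B] (f : A → B) (v : Γℚ × Fin 2 × Fin 2 → A) :
    toMat (fun x => f (v x)) = fun g => (toMat v g).map f := rfl

end Functor
end Fermat.Agent.TeamA.Rep

namespace Fermat.Agent.TeamA.Rep
local notation "Γℚ" => (AlgebraicClosure ℚ ≃ₐ[ℚ] AlgebraicClosure ℚ)
section Base
variable {𝒪 : Type} [CommRing 𝒪] [IsLocalRing 𝒪]
variable {ρbar : ResidualGaloisRep (ResidueField 𝒪)} (Fr : Frame 𝒪 ρbar)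
variable {𝒟 : ∀ ⦃A : Type⦄ [CommRing A] [IsLocalRing A] [Algebra 𝒪 A], GaloisRepAdic A → Prop}

theorem isGood_residueField (hbar : 𝒟 (GaloisRepAdic.ofResidualGaloisRep ρbar)) :
    IsGood Fr 𝒟 (ResidueField 𝒪) (fun g => (Fr.Rt g).map (residue 𝒪)) := by
  have hev : ∀ a : Γℚ →₀ 𝒪, evalFS a (fun g => (Fr.Rt g).map (residue 𝒪))
      = (evalFS a Fr.Rt).map (residue 𝒪) := by
    intro a
    exact evalFS_map (Algebra.ofId 𝒪 (ResidueField 𝒪)) a Fr.Rt
  refine ⟨?_, ⟨?_, ?_, ?_⟩, GaloisRepAdic.ofResidualGaloisRep ρbar, Fr.bbar, fun g => ?_, hbar⟩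
  · intro g i j
    show residue 𝒪 (Fr.Rt g i j) - residue 𝒪 (Fr.Rt g i j) ∈ _
    rw [sub_self]
    exact Ideal.zero_mem _
  · rw [hev, Matrix.map_apply]
    exact (residue_eq_zero_iff _).mpr Fr.cond.a10
  · rw [hev, Matrix.map_apply]
    exact (residue_eq_zero_iff _).mpr Fr.cond.b00
  · rw [hev, Matrix.map_apply]
    have := (residue_eq_zero_iff _).mpr Fr.cond.b10
    rwa [map_sub, map_one, sub_eq_zero] at this
  · show _ = (Fr.Rt g).map (residue 𝒪)
    rw [Fr.hRt g]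
    rfl

end Base

section TheFunctor
variable {𝒪 : Type} [CommRing 𝒪] [IsLocalRing 𝒪]
variable {ρbar : ResidualGaloisRep (ResidueField 𝒪)} (Fr : Frame 𝒪 ρbar)
variable {𝒟 : ∀ ⦃A : Type⦄ [CommRing A] [IsLocalRing A] [Algebra 𝒪 A], GaloisRepAdic A → Prop}

/-- The rigidified deformation functor as an abstract rigid functor. -/
noncomputable def goodFunctor (h𝒟 : GaloisRep.IsDeformationCondition 𝒪 𝒟)
    (hbar : 𝒟 (GaloisRepAdic.ofResidualGaloisRep ρbar))
    (hfin : GaloisRep.TangentFinite 𝒪 ρbar 𝒟) : RigidFunctor 𝒪 (Γℚ × Fin 2 × Fin 2) where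
  t := ofMat Fr.Rt
  G := fun A _ _ _ v => IsGood Fr 𝒟 A (toMat v)
  lifts := fun {A} _ _ _ _ _ {v} h i => h.1 i.1 i.2.1 i.2.2
  map := fun {A B} _ _ _ _ _ _ _ _ _ _ φ {v} h => IsGood.map h𝒟 h φ
  of_injective := fun {A B} _ _ _ _ _ _ _ _ _ _ φ hφ v h => IsGood.of_injective h𝒟 φ hφ (toMat v) h
  fib := fun {A B} _ _ _ _ _ _ _ _ _ _ u hA hB => IsGood.fib h𝒟 (toMat u) hA hB
  base := ⟨ofMat (fun g => (Fr.Rt g).map (residue 𝒪)), isGood_residueField Fr hbar⟩
  tangent_finite := by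
    letI := dualNumberAlgebra 𝒪
    haveI := finite_good_dual Fr hfin
    exact Finite.of_injective
      (fun v : {v : Γℚ × Fin 2 × Fin 2 → DualNumber (ResidueField 𝒪) //
          IsGood Fr 𝒟 (DualNumber (ResidueField 𝒪)) (toMat v)} =>
        (⟨toMat v.1, v.2⟩ : {r : Γℚ → Matrix (Fin 2) (Fin 2) (DualNumber (ResidueField 𝒪)) //
          IsGood Fr 𝒟 (DualNumber (ResidueField 𝒪)) r}))
      (fun v w h => Subtype.ext (by
        have := congrArg (fun r => ofMat r.1) h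
        exact this))

end TheFunctor
end Fermat.Agent.TeamA.Rep
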