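import Mathlib

/-!
# Strict chains of open ideals in an adically precomplete ring
-/

namespace Fermat.Agent.TeamA

section Chain

variable {S : Type*} [CommRing S] (𝔪 : Ideal S) [IsPrecomplete 𝔪 S]

/-- Convenient form of precompleteness for a ring. -/
theorem exists_limit_of_cauchy (g : ℕ → S) (hg : ∀ n, g n - g (n + 1) ∈ 𝔪 ^ n) :
    ∃ L : S, ∀ n, g n - L ∈ 𝔪 ^ n := by
  have hC : ∀ {m n : ℕ}, m ≤ n → g m ≡ g n [SMOD (𝔪 ^ m • ⊤ : Submodule S S)] := by
    intro m n hmn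
    rw [SModEq.sub_mem]
    simp only [smul_eq_mul, Ideal.mul_top]
    induction n, hmn using Nat.le_induction with
    | base => simp
    | succ n hmn ih =>
      have e : g m - g (n + 1) = (g m - g n) + (g n - g (n + 1)) := by ring
      rw [e]
      exact add_mem ih (Ideal.pow_le_pow_right hmn (hg n))
  obtain ⟨L, hL⟩ := IsPrecomplete.prec ‹IsPrecomplete 𝔪 S› hC
  refine ⟨L, fun n => ?_⟩
  have := hL n
  rw [SModEq.sub_mem] at this
  simpa using this

variable (J : ℕ → Ideal S) (hanti : Antitone J) (hpow : ∀ c, 𝔪 ^ c ≤ J c)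
  (hstrict : ∀ c, J c ≤ J (c + 1) ⊔ 𝔪 ^ c)

include hanti hpow hstrict

theorem chain_sup_pow_eq (c : ℕ) : (⨅ c, J c) ⊔ 𝔪 ^ c = J c := by
  apply le_antisymm (sup_le (iInf_le _ _) (hpow c))
  intro x hx
  -- build the sequence
  have step : ∀ (i : ℕ) (a : {a : S // a ∈ J (c + i)}),
      ∃ b : {b : S // b ∈ J (c + (i + 1))}, a.1 - b.1 ∈ 𝔪 ^ (c + i) := by
    intro i a
    obtain ⟨u, hu, v, hv, huv⟩ := Submodule.mem_sup.mp (hstrict (c + i) a.2)
    refine ⟨⟨u, hu⟩, ?_⟩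
    have : a.1 - u = v := by rw [← huv]; ring
    rw [this]; exact hv
  choose nxt hnxt using step
  let seq : ∀ i : ℕ, {a : S // a ∈ J (c + i)} := fun i =>
    Nat.rec (motive := fun i => {a : S // a ∈ J (c + i)}) ⟨x, by simpa using hx⟩
      (fun i a => nxt i a) i
  have hseq0 : (seq 0).1 = x := rfl
  have hseqS : ∀ i, (seq i).1 - (seq (i + 1)).1 ∈ 𝔪 ^ (c + i) := fun i => hnxt i (seq i)
  let g : ℕ → S := fun i => (seq i).1
  have hg : ∀ n, g n - g (n + 1) ∈ 𝔪 ^ n := fun n =>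
    Ideal.pow_le_pow_right (Nat.le_add_left n c) (hseqS n)
  obtain ⟨L, hL⟩ := exists_limit_of_cauchy 𝔪 g hg
  -- `g 0 - g n ∈ 𝔪 ^ c`
  have hg0 : ∀ n, g 0 - g n ∈ 𝔪 ^ c := by
    intro n
    induction n with
    | zero => simp
    | succ n ih =>
      have e : g 0 - g (n + 1) = (g 0 - g n) + (g n - g (n + 1)) := by ring
      rw [e]
      exact add_mem ih (Ideal.pow_le_pow_right (Nat.le_add_right c n) (hseqS n))
  -- `L ∈ J (c + i)` for all `i`
  have hLJ : ∀ i, L ∈ J (c + i) := by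
    intro i
    have h1 : g (c + i) - L ∈ J (c + i) := hpow _ (hL (c + i))
    have h2 : g (c + i) ∈ J (c + i) := hanti (by omega) (seq (c + i)).2
    have e : L = g (c + i) - (g (c + i) - L) := by ring
    rw [e]
    exact sub_mem h2 h1
  have hLinf : L ∈ ⨅ c, J c := by
    rw [Ideal.mem_iInf]
    intro j
    exact hanti (Nat.le_add_left j c) (by simpa [add_comm] using hLJ j)
  have e : x = L + ((g 0 - g c) + (g c - L)) := by rw [← hseq0]; ring
  rw [e]
  exact Submodule.add_mem_sup hLinf (add_mem (hg0 c) (hL c))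

theorem chain_exists_lift (y : ∀ c, S ⧸ J c)
    (hy : ∀ c, Ideal.Quotient.factor (hanti (Nat.le_succ c)) (y (c + 1)) = y c) :
    ∃ z : S, ∀ c, Ideal.Quotient.mk (J c) z = y c := by
  have step : ∀ (c : ℕ) (a : {a : S // Ideal.Quotient.mk (J c) a = y c}),
      ∃ b : {b : S // Ideal.Quotient.mk (J (c + 1)) b = y (c + 1)}, a.1 - b.1 ∈ 𝔪 ^ c := by
    intro c a
    obtain ⟨z, hz⟩ := Ideal.Quotient.mk_surjective (y (c + 1))
    have h1 : z - a.1 ∈ J c := by
      rw [← Ideal.Quotient.eq, a.2, ← hy c, ← hz]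
      rfl
    obtain ⟨u, hu, v, hv, huv⟩ := Submodule.mem_sup.mp (hstrict c h1)
    refine ⟨⟨z - u, ?_⟩, ?_⟩
    · rw [map_sub, Ideal.Quotient.eq_zero_iff_mem.mpr hu, sub_zero, hz]
    · have : a.1 - (z - u) = -v := by
        have : z - a.1 = u + v := huv.symm
        linear_combination -this
      rw [this]
      exact neg_mem hv
  choose nxt hnxt using step
  obtain ⟨z0, hz0⟩ := Ideal.Quotient.mk_surjective (y 0)
  let seq : ∀ c : ℕ, {a : S // Ideal.Quotient.mk (J c) a = y c} := fun c =>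
    Nat.rec (motive := fun c => {a : S // Ideal.Quotient.mk (J c) a = y c}) ⟨z0, hz0⟩
      (fun c a => nxt c a) c
  have hseqS : ∀ c, (seq c).1 - (seq (c + 1)).1 ∈ 𝔪 ^ c := fun c => hnxt c (seq c)
  let g : ℕ → S := fun c => (seq c).1
  obtain ⟨L, hL⟩ := exists_limit_of_cauchy 𝔪 g hseqS
  refine ⟨L, fun c => ?_⟩
  have h1 : g c - L ∈ J c := hpow c (hL c)
  rw [← (seq c).2, eq_comm, Ideal.Quotient.eq]
  exact h1

end Chain

end Fermat.Agent.TeamA
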