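import Mathlib
import Fermat.Prelude.Def_GaloisRep_DeformationCondition
import Fermat.Agent.TeamA.ArtinTest

/-!
# The fibre product `A ×_k B` of two test algebras, as a subalgebra of `A × B`
-/

set_option autoImplicit false
set_option linter.style.haveILetI false
set_option linter.unusedSectionVars false

namespace Fermat.Agent.TeamA

open IsLocalRing

/-- In a subalgebra of a finite ring, being a unit can be tested in the big ring. -/
theorem isUnit_subalgebra_iff_of_finite {R A : Type*} [CommRing R] [CommRing A] [Algebra R A]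
    [Finite A] (B : Subalgebra R A) (b : B) : IsUnit b ↔ IsUnit (b : A) := by
  constructor
  · intro h
    exact h.map B.val
  · intro h
    obtain ⟨n, hn, hpow⟩ := isOfFinOrder_iff_pow_eq_one.mp (isOfFinOrder_of_finite h.unit)
    have h1 : (b : A) ^ n = 1 := by
      have := congrArg Units.val hpow
      simpa using this
    refine IsUnit.of_mul_eq_one (b ^ (n - 1)) ?_
    apply Subtype.ext
    have : (b : A) * (b : A) ^ (n - 1) = 1 := by
      rw [← pow_succ', Nat.sub_add_cancel hn, h1]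
    simpa using this

section

variable (𝒪 : Type*) [CommRing 𝒪] [IsLocalRing 𝒪]
variable (A B : Type*) [CommRing A] [IsLocalRing A] [Algebra 𝒪 A]
  [CommRing B] [IsLocalRing B] [Algebra 𝒪 B]

/-- The fibre product of `A` and `B` over the common residue field `k` of `𝒪`. -/
def fibreProd : Subalgebra 𝒪 (A × B) where
  carrier := {x | ∃ o : 𝒪, x.1 - algebraMap 𝒪 A o ∈ maximalIdeal A ∧
    x.2 - algebraMap 𝒪 B o ∈ maximalIdeal B}
  mul_mem' := by
    rintro x y ⟨o, h1, h2⟩ ⟨o', h1', h2'⟩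
    refine ⟨o * o', ?_, ?_⟩
    · have e : (x * y).1 - algebraMap 𝒪 A (o * o')
          = (x.1 - algebraMap 𝒪 A o) * y.1 + algebraMap 𝒪 A o * (y.1 - algebraMap 𝒪 A o') := by
        rw [map_mul, Prod.fst_mul]; ring
      rw [e]
      exact Ideal.add_mem _ (Ideal.mul_mem_right _ _ h1) (Ideal.mul_mem_left _ _ h1')
    · have e : (x * y).2 - algebraMap 𝒪 B (o * o')
          = (x.2 - algebraMap 𝒪 B o) * y.2 + algebraMap 𝒪 B o * (y.2 - algebraMap 𝒪 B o') := by
        rw [map_mul, Prod.snd_mul]; ring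
      rw [e]
      exact Ideal.add_mem _ (Ideal.mul_mem_right _ _ h2) (Ideal.mul_mem_left _ _ h2')
  one_mem' := ⟨1, by simp, by simp⟩
  add_mem' := by
    rintro x y ⟨o, h1, h2⟩ ⟨o', h1', h2'⟩
    refine ⟨o + o', ?_, ?_⟩
    · have e : (x + y).1 - algebraMap 𝒪 A (o + o')
          = (x.1 - algebraMap 𝒪 A o) + (y.1 - algebraMap 𝒪 A o') := by
        rw [map_add, Prod.fst_add]; ring
      rw [e]
      exact Ideal.add_mem _ h1 h1'
    · have e : (x + y).2 - algebraMap 𝒪 B (o + o')
          = (x.2 - algebraMap 𝒪 B o) + (y.2 - algebraMap 𝒪 B o') := by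
        rw [map_add, Prod.snd_add]; ring
      rw [e]
      exact Ideal.add_mem _ h2 h2'
  zero_mem' := ⟨0, by simp, by simp⟩
  algebraMap_mem' := by
    intro o
    exact ⟨o, by simp, by simp⟩

variable {𝒪 A B}

theorem mem_fibreProd_iff (x : A × B) :
    x ∈ fibreProd 𝒪 A B ↔ ∃ o : 𝒪, x.1 - algebraMap 𝒪 A o ∈ maximalIdeal A ∧
      x.2 - algebraMap 𝒪 B o ∈ maximalIdeal B := Iff.rfl

/-- The first projection. -/
def fibreProdFst : fibreProd 𝒪 A B →ₐ[𝒪] A := (AlgHom.fst 𝒪 A B).comp (fibreProd 𝒪 A B).val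

/-- The second projection. -/
def fibreProdSnd : fibreProd 𝒪 A B →ₐ[𝒪] B := (AlgHom.snd 𝒪 A B).comp (fibreProd 𝒪 A B).val

@[simp] theorem fibreProdFst_apply (x : fibreProd 𝒪 A B) : fibreProdFst x = (x : A × B).1 := rfl

@[simp] theorem fibreProdSnd_apply (x : fibreProd 𝒪 A B) : fibreProdSnd x = (x : A × B).2 := rfl

theorem fibreProd_injective :
    Function.Injective (fun x : fibreProd 𝒪 A B => (fibreProdFst x, fibreProdSnd x)) := by
  intro x y h
  apply Subtype.ext
  exact h

theorem fibreProd_surjective (a : A) (b : B)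
    (h : ∃ o : 𝒪, a - algebraMap 𝒪 A o ∈ maximalIdeal A ∧ b - algebraMap 𝒪 B o ∈ maximalIdeal B) :
    ∃ x : fibreProd 𝒪 A B, fibreProdFst x = a ∧ fibreProdSnd x = b :=
  ⟨⟨(a, b), h⟩, rfl, rfl⟩

/-- For elements of the fibre product, the two components are simultaneously in the maximal
ideals. -/
theorem fibreProd_fst_mem_iff_snd_mem (hlocA : IsLocalHom (algebraMap 𝒪 A))
    (hlocB : IsLocalHom (algebraMap 𝒪 B)) (x : fibreProd 𝒪 A B) :
    (x : A × B).1 ∈ maximalIdeal A ↔ (x : A × B).2 ∈ maximalIdeal B := by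
  obtain ⟨o, h1, h2⟩ := x.2
  have hA : (x : A × B).1 ∈ maximalIdeal A ↔ algebraMap 𝒪 A o ∈ maximalIdeal A := by
    constructor
    · intro h
      have := (maximalIdeal A).sub_mem h h1
      simpa using this
    · intro h
      have := (maximalIdeal A).add_mem h1 h
      simpa using this
  have hB : (x : A × B).2 ∈ maximalIdeal B ↔ algebraMap 𝒪 B o ∈ maximalIdeal B := by
    constructor
    · intro h
      have := (maximalIdeal B).sub_mem h h2
      simpa using this
    · intro h
      have := (maximalIdeal B).add_mem h2 h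
      simpa using this
  rw [hA, hB]
  constructor
  · intro h
    exact algebraMap_mem_maximalIdeal hlocB (mem_maximalIdeal_of_algebraMap_mem h)
  · intro h
    exact algebraMap_mem_maximalIdeal hlocA (mem_maximalIdeal_of_algebraMap_mem h)

variable [Finite A] [Finite B]

theorem isUnit_fibreProd_iff (hlocA : IsLocalHom (algebraMap 𝒪 A))
    (hlocB : IsLocalHom (algebraMap 𝒪 B)) (x : fibreProd 𝒪 A B) :
    IsUnit x ↔ (x : A × B).1 ∉ maximalIdeal A := by
  rw [isUnit_subalgebra_iff_of_finite, Prod.isUnit_iff]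
  constructor
  · rintro ⟨h, _⟩
    exact fun hm => (IsLocalRing.mem_maximalIdeal _).mp hm h
  · intro h
    refine ⟨by simpa [IsLocalRing.mem_maximalIdeal] using h, ?_⟩
    rw [fibreProd_fst_mem_iff_snd_mem hlocA hlocB] at h
    simpa [IsLocalRing.mem_maximalIdeal] using h

/-- The fibre product is a local ring. -/
theorem isLocalRing_fibreProd (hlocA : IsLocalHom (algebraMap 𝒪 A))
    (hlocB : IsLocalHom (algebraMap 𝒪 B)) : IsLocalRing (fibreProd 𝒪 A B) := by
  haveI : Nontrivial (fibreProd 𝒪 A B) := inferInstance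
  refine IsLocalRing.of_nonunits_add ?_
  intro a b ha hb
  rw [mem_nonunits_iff, isUnit_fibreProd_iff hlocA hlocB, not_not] at ha hb ⊢
  exact (maximalIdeal A).add_mem ha hb

theorem mem_maximalIdeal_fibreProd_iff (hlocA : IsLocalHom (algebraMap 𝒪 A))
    (hlocB : IsLocalHom (algebraMap 𝒪 B)) (x : fibreProd 𝒪 A B) :
    haveI := isLocalRing_fibreProd (𝒪 := 𝒪) (A := A) (B := B) hlocA hlocB
    x ∈ maximalIdeal (fibreProd 𝒪 A B) ↔ (x : A × B).1 ∈ maximalIdeal A := by
  haveI := isLocalRing_fibreProd (𝒪 := 𝒪) (A := A) (B := B) hlocA hlocB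
  rw [IsLocalRing.mem_maximalIdeal, mem_nonunits_iff, isUnit_fibreProd_iff hlocA hlocB, not_not]

theorem isLocalHom_algebraMap_fibreProd (hlocA : IsLocalHom (algebraMap 𝒪 A))
    (_hlocB : IsLocalHom (algebraMap 𝒪 B)) :
    IsLocalHom (algebraMap 𝒪 (fibreProd 𝒪 A B)) := by
  constructor
  intro o ho
  apply hlocA.map_nonunit o
  have := ho.map (fibreProdFst (𝒪 := 𝒪) (A := A) (B := B))
  simpa using this

theorem residue_algebraMap_fibreProd_surjective (hlocA : IsLocalHom (algebraMap 𝒪 A))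
    (hlocB : IsLocalHom (algebraMap 𝒪 B)) :
    haveI := isLocalRing_fibreProd (𝒪 := 𝒪) (A := A) (B := B) hlocA hlocB
    Function.Surjective (residue (fibreProd 𝒪 A B) ∘ algebraMap 𝒪 (fibreProd 𝒪 A B)) := by
  haveI := isLocalRing_fibreProd (𝒪 := 𝒪) (A := A) (B := B) hlocA hlocB
  intro y
  obtain ⟨x, rfl⟩ := IsLocalRing.residue_surjective y
  obtain ⟨o, h1, h2⟩ := x.2
  refine ⟨o, ?_⟩
  change residue _ (algebraMap 𝒪 (fibreProd 𝒪 A B) o) = residue _ x
  rw [eq_comm, ← sub_eq_zero, ← map_sub, IsLocalRing.residue_eq_zero_iff,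
    mem_maximalIdeal_fibreProd_iff hlocA hlocB]
  exact h1

end

/-- The fibre product of two finite local test algebras is an Artinian test algebra. -/
theorem isArtinianTestAlgebra_fibreProd {𝒪 A B : Type} [CommRing 𝒪] [IsLocalRing 𝒪]
    [CommRing A] [IsLocalRing A] [Algebra 𝒪 A] [CommRing B] [IsLocalRing B] [Algebra 𝒪 B]
    [Finite A] [Finite B]
    (hlocA : IsLocalHom (algebraMap 𝒪 A)) (hlocB : IsLocalHom (algebraMap 𝒪 B)) :
    haveI := isLocalRing_fibreProd (𝒪 := 𝒪) (A := A) (B := B) hlocA hlocB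
    GaloisRep.IsArtinianTestAlgebra 𝒪 (fibreProd 𝒪 A B) := by
  haveI := isLocalRing_fibreProd (𝒪 := 𝒪) (A := A) (B := B) hlocA hlocB
  exact ⟨isLocalHom_algebraMap_fibreProd hlocA hlocB,
    residue_algebraMap_fibreProd_surjective hlocA hlocB, inferInstance⟩

end Fermat.Agent.TeamA
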