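import Mathlib
import Fermat.Prelude.Def_GaloisRep_DeformationCondition
import Fermat.Agent.TeamA.MvPS
import Fermat.Agent.TeamA.Chain
import Fermat.Agent.TeamA.Dual
import Fermat.Agent.TeamA.ArtinTest
import Fermat.Agent.TeamA.Generation
import Fermat.Agent.TeamA.QuotInst
import Fermat.Agent.TeamA.FibreProd

/-!
# Abstract pro-representability of a functor of "rigidified lifts"

`F A ⊆ (I → A)` is a functor on Artinian test algebras satisfying Schlessinger-type conditions in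
the rigid situation (no automorphisms).  We show it is pro-represented by a quotient of a power
series ring over `𝒪`.
-/

set_option autoImplicit false
set_option linter.style.haveILetI false
set_option linter.unusedSectionVars false

namespace Fermat.Agent.TeamA

open IsLocalRing GaloisRep

/-- Finitely many functions are separated by finitely many points. -/
theorem exists_separating_finset {I X : Type*} (T : Set (I → X)) (hT : T.Finite) :
    ∃ Sg : Finset I, ∀ r ∈ T, ∀ r' ∈ T, (∀ s ∈ Sg, r s = r' s) → r = r' := by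
  classical
  let P := hT.toFinset ×ˢ hT.toFinset
  refine ⟨P.biUnion (fun p => if h : p.1 = p.2 then ∅ else {(Function.ne_iff.mp h).choose}), ?_⟩
  intro r hr r' hr' hagree
  by_contra hne
  have hmem : (r, r') ∈ P := by simp [P, hr, hr']
  have := hagree (Function.ne_iff.mp hne).choose (by
    rw [Finset.mem_biUnion]
    exact ⟨(r, r'), hmem, by simp [hne]⟩)
  exact (Function.ne_iff.mp hne).choose_spec this

/-- The axioms on a functor of rigidified lifts. -/
structure IsLiftFunctor (𝒪 : Type) [CommRing 𝒪] [IsLocalRing 𝒪] {I : Type}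
    (F : ∀ (A : Type) [CommRing A] [IsLocalRing A] [Algebra 𝒪 A], Set (I → A))
    (base : I → 𝒪) : Prop where
  map : ∀ {A B : Type} [CommRing A] [IsLocalRing A] [Algebra 𝒪 A]
    [CommRing B] [IsLocalRing B] [Algebra 𝒪 B],
    IsArtinianTestAlgebra 𝒪 A → IsArtinianTestAlgebra 𝒪 B →
    ∀ (φ : A →ₐ[𝒪] B) (r : I → A), r ∈ F A → (fun i => φ (r i)) ∈ F B
  base_mem : ∀ {A : Type} [CommRing A] [IsLocalRing A] [Algebra 𝒪 A],
    IsArtinianTestAlgebra 𝒪 A → ∀ (r : I → A), r ∈ F A →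
    ∀ i, r i - algebraMap 𝒪 A (base i) ∈ maximalIdeal A
  of_injective : ∀ {A B : Type} [CommRing A] [IsLocalRing A] [Algebra 𝒪 A]
    [CommRing B] [IsLocalRing B] [Algebra 𝒪 B],
    IsArtinianTestAlgebra 𝒪 A → IsArtinianTestAlgebra 𝒪 B →
    ∀ (φ : A →ₐ[𝒪] B), Function.Injective φ → ∀ (r : I → A), (fun i => φ (r i)) ∈ F B → r ∈ F A
  of_fibre : ∀ {A B P : Type} [CommRing A] [IsLocalRing A] [Algebra 𝒪 A]
    [CommRing B] [IsLocalRing B] [Algebra 𝒪 B] [CommRing P] [IsLocalRing P] [Algebra 𝒪 P],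
    IsArtinianTestAlgebra 𝒪 A → IsArtinianTestAlgebra 𝒪 B → IsArtinianTestAlgebra 𝒪 P →
    ∀ (pA : P →ₐ[𝒪] A) (pB : P →ₐ[𝒪] B),
      Function.Injective (fun x => (pA x, pB x)) →
      (∀ a b, (∃ o : 𝒪, a - algebraMap 𝒪 A o ∈ maximalIdeal A ∧
        b - algebraMap 𝒪 B o ∈ maximalIdeal B) → ∃ x, pA x = a ∧ pB x = b) →
      ∀ (r : I → P), (fun i => pA (r i)) ∈ F A → (fun i => pB (r i)) ∈ F B → r ∈ F P
  tangent : letI := dualNumberAlgebra 𝒪
    (F (DualNumber (ResidueField 𝒪))).Finite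
  nonempty : (F (ResidueField 𝒪)).Nonempty

section Basic

variable {𝒪 : Type} [CommRing 𝒪] [IsLocalRing 𝒪] [Finite (ResidueField 𝒪)] {I : Type}
  {F : ∀ (A : Type) [CommRing A] [IsLocalRing A] [Algebra 𝒪 A], Set (I → A)}
  {base : I → 𝒪} (hF : IsLiftFunctor 𝒪 F base)

include hF

/-- A separating finite set of coordinates for the tangent space. -/
theorem IsLiftFunctor.exists_separating :
    letI := dualNumberAlgebra 𝒪
    ∃ Sg : Finset I, ∀ r ∈ F (DualNumber (ResidueField 𝒪)),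
      ∀ r' ∈ F (DualNumber (ResidueField 𝒪)), (∀ s ∈ Sg, r s = r' s) → r = r' :=
  exists_separating_finset _ hF.tangent

/-- Lemma G: the coefficients `r i` all lie in the subalgebra generated by the coordinates in a
separating set. -/
theorem IsLiftFunctor.adjoin_range_le (Sg : Finset I)
    (hSg : letI := dualNumberAlgebra 𝒪
      ∀ r ∈ F (DualNumber (ResidueField 𝒪)),
      ∀ r' ∈ F (DualNumber (ResidueField 𝒪)), (∀ s ∈ Sg, r s = r' s) → r = r')
    {A : Type} [CommRing A] [IsLocalRing A] [Algebra 𝒪 A] (hA : IsArtinianTestAlgebra 𝒪 A)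
    (r : I → A) (hr : r ∈ F A) :
    Algebra.adjoin 𝒪 (Set.range r) ≤ Algebra.adjoin 𝒪 (r '' (Sg : Set I)) := by
  letI := dualNumberAlgebra 𝒪
  haveI := hA.isArtinian
  haveI : Finite A := finite_of_isArtinianRing_of_surjective hA.isLocalHom hA.residue_surjective
  -- the subalgebra generated by all coefficients
  set B : Subalgebra 𝒪 A := Algebra.adjoin 𝒪 (Set.range r) with hBdef
  haveI := isLocalRing_subalgebra B
  have hB : IsArtinianTestAlgebra 𝒪 B :=
    isArtinianTestAlgebra_subalgebra B hA.isLocalHom hA.residue_surjective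
  let rB : I → B := fun i => ⟨r i, Algebra.subset_adjoin ⟨i, rfl⟩⟩
  have hrB : rB ∈ F B := hF.of_injective hB hA B.val Subtype.val_injective rB hr
  -- the subalgebra of `B` generated by the `Sg`-coordinates
  set B' : Subalgebra 𝒪 B := Algebra.adjoin 𝒪 (rB '' (Sg : Set I)) with hB'def
  have htop : B' = ⊤ := by
    by_contra hne
    haveI := hB.isArtinian
    obtain ⟨c, hc⟩ := exists_maximalIdeal_pow_eq_bot_of_isArtinianRing B
    obtain ⟨f₁, f₂, hne12, hagree⟩ :=
      exists_ne_algHom_dualNumber_of_ne_top hB.isLocalHom hB.residue_surjective c hc B' hne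
    apply hne12
    have hk := dualNumber_isArtinianTestAlgebra 𝒪
    have h1 : (fun i => f₁ (rB i)) ∈ F (DualNumber (ResidueField 𝒪)) := hF.map hB hk f₁ rB hrB
    have h2 : (fun i => f₂ (rB i)) ∈ F (DualNumber (ResidueField 𝒪)) := hF.map hB hk f₂ rB hrB
    have h12 := hSg _ h1 _ h2 (fun s hs => hagree _ (Algebra.subset_adjoin ⟨s, hs, rfl⟩))
    have hgen : Algebra.adjoin 𝒪 (Set.range rB) = ⊤ := by
      have := Algebra.adjoin_adjoin_coe_preimage (R := 𝒪) (s := Set.range r)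
      convert this using 2
      ext x
      constructor
      · rintro ⟨i, rfl⟩
        exact ⟨i, rfl⟩
      · rintro ⟨i, hi⟩
        exact ⟨i, Subtype.ext hi⟩
    refine AlgHom.ext_of_adjoin_eq_top hgen ?_
    rintro _ ⟨i, rfl⟩
    exact congrFun h12 i
  -- transport back to `A`
  intro x hx
  have hx' : (⟨x, hx⟩ : B) ∈ B' := by rw [htop]; exact Algebra.mem_top
  have hmap : B'.map B.val = Algebra.adjoin 𝒪 (r '' (Sg : Set I)) := by
    rw [hB'def, AlgHom.map_adjoin]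
    congr 1
    ext y
    constructor
    · rintro ⟨_, ⟨s, hs, rfl⟩, rfl⟩
      exact ⟨s, hs, rfl⟩
    · rintro ⟨s, hs, rfl⟩
      exact ⟨rB s, ⟨s, hs, rfl⟩, rfl⟩
  rw [← hmap]
  exact ⟨⟨x, hx⟩, hx', rfl⟩

/-- Rigidity: two elements of `F A` agreeing on a separating set are equal. -/
theorem IsLiftFunctor.eq_of_agree (Sg : Finset I)
    (hSg : letI := dualNumberAlgebra 𝒪
      ∀ r ∈ F (DualNumber (ResidueField 𝒪)),
      ∀ r' ∈ F (DualNumber (ResidueField 𝒪)), (∀ s ∈ Sg, r s = r' s) → r = r')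
    {A : Type} [CommRing A] [IsLocalRing A] [Algebra 𝒪 A] (hA : IsArtinianTestAlgebra 𝒪 A)
    (r r' : I → A) (hr : r ∈ F A) (hr' : r' ∈ F A) (h : ∀ s ∈ Sg, r s = r' s) : r = r' := by
  haveI := hA.isArtinian
  haveI : Finite A := finite_of_isArtinianRing_of_surjective hA.isLocalHom hA.residue_surjective
  haveI := isLocalRing_fibreProd (𝒪 := 𝒪) (A := A) (B := A) hA.isLocalHom hA.isLocalHom
  have hP : IsArtinianTestAlgebra 𝒪 (fibreProd 𝒪 A A) :=
    isArtinianTestAlgebra_fibreProd hA.isLocalHom hA.isLocalHom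
  let rr : I → fibreProd 𝒪 A A := fun i =>
    ⟨(r i, r' i), ⟨base i, hF.base_mem hA r hr i, hF.base_mem hA r' hr' i⟩⟩
  have hrr : rr ∈ F (fibreProd 𝒪 A A) :=
    hF.of_fibre hA hA hP fibreProdFst fibreProdSnd fibreProd_injective
      (fun a b hab => fibreProd_surjective a b hab) rr hr hr'
  have hG := hF.adjoin_range_le Sg hSg hP rr hrr
  have hE : Algebra.adjoin 𝒪 (rr '' (Sg : Set I)) ≤
      AlgHom.equalizer (fibreProdFst (𝒪 := 𝒪) (A := A) (B := A)) fibreProdSnd := by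
    rw [Algebra.adjoin_le_iff]
    rintro _ ⟨s, hs, rfl⟩
    exact h s hs
  funext i
  exact hE (hG (Algebra.subset_adjoin ⟨i, rfl⟩))

end Basic

section TestQuot

open MvPowerSeries

variable {𝒪 : Type} [CommRing 𝒪] [IsLocalRing 𝒪] [IsNoetherianRing 𝒪]
  [Finite (ResidueField 𝒪)] {σ : Type} [Finite σ]

/-- A quotient of the power series ring by a proper ideal containing a power of the maximal
ideal is finite. -/
theorem finite_quotient_of_pow_le (K : Ideal (MvPowerSeries σ 𝒪)) (c : ℕ)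
    (hc : maximalIdeal (MvPowerSeries σ 𝒪) ^ c ≤ K) : Finite (MvPowerSeries σ 𝒪 ⧸ K) := by
  haveI := finite_quotient_maximalIdeal_pow_mvPowerSeries σ 𝒪 c
  exact Finite.of_surjective _ (Ideal.Quotient.factor_surjective hc)

/-- A quotient of the power series ring by a proper ideal containing a power of the maximal
ideal is an Artinian test algebra. -/
theorem isArtinianTestAlgebra_quotient_of_pow_le (K : Ideal (MvPowerSeries σ 𝒪)) (hK : K ≠ ⊤)
    (c : ℕ) (hc : maximalIdeal (MvPowerSeries σ 𝒪) ^ c ≤ K) :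
    haveI := isLocalRing_quotient K hK
    IsArtinianTestAlgebra 𝒪 (MvPowerSeries σ 𝒪 ⧸ K) := by
  haveI := isLocalRing_quotient K hK
  haveI := finite_quotient_of_pow_le K c hc
  exact ⟨isLocalHom_algebraMap_quotient K hK,
    residue_algebraMap_quotient_surjective K hK (residue_algebraMap_surjective_mvPowerSeries σ 𝒪),
    inferInstance⟩

/-- The maximal ideal of such a quotient is nilpotent of the expected exponent. -/
theorem maximalIdeal_quotient_pow_eq_bot (K : Ideal (MvPowerSeries σ 𝒪)) (hK : K ≠ ⊤)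
    (c : ℕ) (hc : maximalIdeal (MvPowerSeries σ 𝒪) ^ c ≤ K) :
    haveI := isLocalRing_quotient K hK
    maximalIdeal (MvPowerSeries σ 𝒪 ⧸ K) ^ c = ⊥ := by
  haveI := isLocalRing_quotient K hK
  rw [maximalIdeal_quotient K hK, ← Ideal.map_pow, Ideal.map_eq_bot_iff_le_ker, Ideal.mk_ker]
  exact hc

end TestQuot

section Admissible

open MvPowerSeries

variable {𝒪 : Type} [CommRing 𝒪] [IsLocalRing 𝒪] [IsNoetherianRing 𝒪]
  [Finite (ResidueField 𝒪)] {I : Type}
  {F : ∀ (A : Type) [CommRing A] [IsLocalRing A] [Algebra 𝒪 A], Set (I → A)}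
  {base : I → 𝒪} (hF : IsLiftFunctor 𝒪 F base) (Sg : Finset I)
  (hSg : letI := dualNumberAlgebra 𝒪
      ∀ r ∈ F (DualNumber (ResidueField 𝒪)),
      ∀ r' ∈ F (DualNumber (ResidueField 𝒪)), (∀ s ∈ Sg, r s = r' s) → r = r')

/-- An ideal `K` of the power series ring is admissible if `S ⧸ K` is an Artinian test algebra
carrying an element of `F` whose `Sg`-coordinates are the tautological ones. -/
def Admissible (F : ∀ (A : Type) [CommRing A] [IsLocalRing A] [Algebra 𝒪 A], Set (I → A))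
    (base : I → 𝒪) (Sg : Finset I) (K : Ideal (MvPowerSeries Sg 𝒪)) : Prop :=
  ∃ (hK : K ≠ ⊤), (∃ c : ℕ, maximalIdeal (MvPowerSeries Sg 𝒪) ^ c ≤ K) ∧
    haveI := isLocalRing_quotient K hK
    ∃ r : I → MvPowerSeries Sg 𝒪 ⧸ K, r ∈ F (MvPowerSeries Sg 𝒪 ⧸ K) ∧
      ∀ s : Sg, r s = Ideal.Quotient.mk K (X s + C (base s))

/-- Any algebra map from the power series ring to a test algebra sending the variables into the
maximal ideal sends the maximal ideal into the maximal ideal. -/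
theorem map_maximalIdeal_le_of_X_mem {σ : Type} [Finite σ] {A : Type} [CommRing A] [IsLocalRing A]
    [Algebra 𝒪 A] (hloc : IsLocalHom (algebraMap 𝒪 A)) (ψ : MvPowerSeries σ 𝒪 →ₐ[𝒪] A)
    (hψ : ∀ s, ψ (X s) ∈ maximalIdeal A) :
    (maximalIdeal (MvPowerSeries σ 𝒪)).map ψ ≤ maximalIdeal A := by
  rw [maximalIdeal_mvPowerSeries, Ideal.map_sup, sup_le_iff]
  constructor
  · rw [varIdeal, Ideal.map_span, Ideal.span_le]
    rintro _ ⟨_, ⟨s, rfl⟩, rfl⟩
    exact hψ s
  · rw [Ideal.map_le_iff_le_comap, Ideal.map_le_iff_le_comap]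
    intro o ho
    rw [Ideal.mem_comap, Ideal.mem_comap, AlgHom.commutes]
    exact algebraMap_mem_maximalIdeal hloc ho

theorem pow_le_ker_of_X_mem {σ : Type} [Finite σ] {A : Type} [CommRing A] [IsLocalRing A]
    [Algebra 𝒪 A] (hloc : IsLocalHom (algebraMap 𝒪 A)) (ψ : MvPowerSeries σ 𝒪 →ₐ[𝒪] A)
    (hψ : ∀ s, ψ (X s) ∈ maximalIdeal A) (c : ℕ) (hc : maximalIdeal A ^ c = ⊥) :
    maximalIdeal (MvPowerSeries σ 𝒪) ^ c ≤ RingHom.ker ψ := by
  have h1 := Ideal.pow_right_mono (map_maximalIdeal_le_of_X_mem hloc ψ hψ) c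
  rw [← Ideal.map_pow, hc, le_bot_iff, Ideal.map_eq_bot_iff_le_ker] at h1
  exact h1

include hF hSg

/-- (P2) Every pair `(A, r)` gives an admissible ideal, the kernel of the classifying map. -/
theorem IsLiftFunctor.exists_classifying {A : Type} [CommRing A] [IsLocalRing A] [Algebra 𝒪 A]
    (hA : IsArtinianTestAlgebra 𝒪 A) (r : I → A) (hr : r ∈ F A) :
    ∃ ψ : MvPowerSeries Sg 𝒪 →ₐ[𝒪] A,
      (∀ s : Sg, ψ (X s) = r s - algebraMap 𝒪 A (base s)) ∧
      Admissible F base Sg (RingHom.ker ψ) ∧ (∀ i, r i ∈ ψ.range) ∧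
      ∀ c : ℕ, maximalIdeal A ^ c = ⊥ →
        maximalIdeal (MvPowerSeries Sg 𝒪) ^ c ≤ RingHom.ker ψ := by
  haveI := hA.isArtinian
  obtain ⟨c, hc⟩ := exists_maximalIdeal_pow_eq_bot_of_isArtinianRing A
  have hx : ∀ s : Sg, r s - algebraMap 𝒪 A (base s) ∈ maximalIdeal A :=
    fun s => hF.base_mem hA r hr s
  set ψ : MvPowerSeries Sg 𝒪 →ₐ[𝒪] A :=
    evalNilp (maximalIdeal A) c hc (fun s : Sg => r s - algebraMap 𝒪 A (base s)) hx with hψdef
  have hψX : ∀ s : Sg, ψ (X s) = r s - algebraMap 𝒪 A (base s) :=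
    fun s => evalNilp_X (maximalIdeal A) c hc _ hx s
  have hψm : ∀ s : Sg, ψ (X s) ∈ maximalIdeal A := fun s => by rw [hψX]; exact hx s
  have hpow : ∀ c' : ℕ, maximalIdeal A ^ c' = ⊥ →
      maximalIdeal (MvPowerSeries Sg 𝒪) ^ c' ≤ RingHom.ker ψ :=
    fun c' hc' => pow_le_ker_of_X_mem hA.isLocalHom ψ hψm c' hc'
  -- the range of `ψ` contains all coefficients
  have hrange : ∀ i, r i ∈ ψ.range := by
    intro i
    have h1 : ψ.range = Algebra.adjoin 𝒪 (Set.range fun s : Sg => r s - algebraMap 𝒪 A (base s)) :=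
      evalNilp_range (maximalIdeal A) c hc _ hx
    have h2 : Algebra.adjoin 𝒪 (r '' (Sg : Set I)) ≤ ψ.range := by
      rw [Algebra.adjoin_le_iff]
      rintro _ ⟨s, hs, rfl⟩
      have h3 : r s - algebraMap 𝒪 A (base s) ∈ ψ.range := ⟨X ⟨s, hs⟩, hψX ⟨s, hs⟩⟩
      have h4 := ψ.range.add_mem h3 (ψ.range.algebraMap_mem (base s))
      simpa using h4
    exact h2 (hF.adjoin_range_le Sg hSg hA r hr (Algebra.subset_adjoin ⟨i, rfl⟩))
  refine ⟨ψ, hψX, ?_, hrange, hpow⟩
  -- admissibility of the kernel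
  have hK : RingHom.ker ψ ≠ ⊤ := by
    intro h
    have h1 : (1 : MvPowerSeries Sg 𝒪) ∈ RingHom.ker ψ := by rw [h]; exact Submodule.mem_top
    rw [RingHom.mem_ker, map_one] at h1
    exact one_ne_zero h1
  refine ⟨hK, ⟨c, hpow c hc⟩, ?_⟩
  haveI := isLocalRing_quotient (RingHom.ker ψ) hK
  have hQ := isArtinianTestAlgebra_quotient_of_pow_le (RingHom.ker ψ) hK c (hpow c hc)
  choose z hz using hrange
  have hz' : ∀ i, ψ (z i) = r i := hz
  let rbar : I → MvPowerSeries Sg 𝒪 ⧸ RingHom.ker ψ := fun i => Ideal.Quotient.mk _ (z i)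
  have hlift : ∀ i, Ideal.kerLiftAlg ψ (rbar i) = r i := fun i => by
    rw [Ideal.kerLiftAlg_mk]; exact hz' i
  refine ⟨rbar, ?_, ?_⟩
  · apply hF.of_injective hQ hA (Ideal.kerLiftAlg ψ) (Ideal.kerLiftAlg_injective ψ)
    have : (fun i => Ideal.kerLiftAlg ψ (rbar i)) = r := funext hlift
    rw [this]
    exact hr
  · intro s
    apply Ideal.kerLiftAlg_injective ψ
    rw [hlift, Ideal.kerLiftAlg_mk, map_add, hψX, c_eq_algebraMap, AlgHom.commutes]
    ring

/-- (P3) Admissibility passes to bigger proper ideals. -/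
theorem IsLiftFunctor.admissible_mono {K K' : Ideal (MvPowerSeries Sg 𝒪)}
    (h : Admissible F base Sg K) (hle : K ≤ K') (hK' : K' ≠ ⊤) : Admissible F base Sg K' := by
  obtain ⟨hK, ⟨c, hc⟩, r, hr, hrs⟩ := h
  refine ⟨hK', ⟨c, hc.trans hle⟩, ?_⟩
  haveI := isLocalRing_quotient K hK
  haveI := isLocalRing_quotient K' hK'
  have hQ := isArtinianTestAlgebra_quotient_of_pow_le K hK c hc
  have hQ' := isArtinianTestAlgebra_quotient_of_pow_le K' hK' c (hc.trans hle)
  refine ⟨fun i => Ideal.Quotient.factorₐ 𝒪 hle (r i),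
    hF.map hQ hQ' (Ideal.Quotient.factorₐ 𝒪 hle) r hr, fun s => ?_⟩
  change Ideal.Quotient.factorₐ 𝒪 hle (r s) = _
  rw [hrs]
  rfl

/-- (P4) The element of `F (S ⧸ K)` witnessing admissibility is unique. -/
theorem IsLiftFunctor.admissible_unique {K : Ideal (MvPowerSeries Sg 𝒪)} (hK : K ≠ ⊤)
    (c : ℕ) (hc : maximalIdeal (MvPowerSeries Sg 𝒪) ^ c ≤ K)
    (r r' : I → MvPowerSeries Sg 𝒪 ⧸ K)
    (hr : haveI := isLocalRing_quotient K hK; r ∈ F (MvPowerSeries Sg 𝒪 ⧸ K))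
    (hr' : haveI := isLocalRing_quotient K hK; r' ∈ F (MvPowerSeries Sg 𝒪 ⧸ K))
    (h : ∀ s : Sg, r s = r' s) : r = r' := by
  haveI := isLocalRing_quotient K hK
  have hQ := isArtinianTestAlgebra_quotient_of_pow_le K hK c hc
  exact hF.eq_of_agree Sg hSg hQ r r' hr hr' (fun s hs => h ⟨s, hs⟩)

/-- (P1) Admissible ideals are closed under intersection. -/
theorem IsLiftFunctor.admissible_inf {K₁ K₂ : Ideal (MvPowerSeries Sg 𝒪)}
    (h₁ : Admissible F base Sg K₁) (h₂ : Admissible F base Sg K₂) :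
    Admissible F base Sg (K₁ ⊓ K₂) := by
  obtain ⟨hK₁, ⟨c₁, hc₁⟩, r₁, hr₁, hrs₁⟩ := h₁
  obtain ⟨hK₂, ⟨c₂, hc₂⟩, r₂, hr₂, hrs₂⟩ := h₂
  haveI := isLocalRing_quotient K₁ hK₁
  haveI := isLocalRing_quotient K₂ hK₂
  have hQ₁ := isArtinianTestAlgebra_quotient_of_pow_le K₁ hK₁ c₁ hc₁
  have hQ₂ := isArtinianTestAlgebra_quotient_of_pow_le K₂ hK₂ c₂ hc₂
  haveI := finite_quotient_of_pow_le K₁ c₁ hc₁
  haveI := finite_quotient_of_pow_le K₂ c₂ hc₂
  haveI := isLocalRing_fibreProd (𝒪 := 𝒪) (A := MvPowerSeries Sg 𝒪 ⧸ K₁)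
    (B := MvPowerSeries Sg 𝒪 ⧸ K₂) hQ₁.isLocalHom hQ₂.isLocalHom
  have hP : IsArtinianTestAlgebra 𝒪
      (fibreProd 𝒪 (MvPowerSeries Sg 𝒪 ⧸ K₁) (MvPowerSeries Sg 𝒪 ⧸ K₂)) :=
    isArtinianTestAlgebra_fibreProd hQ₁.isLocalHom hQ₂.isLocalHom
  let rr : I → fibreProd 𝒪 (MvPowerSeries Sg 𝒪 ⧸ K₁) (MvPowerSeries Sg 𝒪 ⧸ K₂) := fun i =>
    ⟨(r₁ i, r₂ i), ⟨base i, hF.base_mem hQ₁ r₁ hr₁ i, hF.base_mem hQ₂ r₂ hr₂ i⟩⟩
  have hrr : rr ∈ F (fibreProd 𝒪 (MvPowerSeries Sg 𝒪 ⧸ K₁) (MvPowerSeries Sg 𝒪 ⧸ K₂)) :=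
    hF.of_fibre hQ₁ hQ₂ hP fibreProdFst fibreProdSnd fibreProd_injective
      (fun a b hab => fibreProd_surjective a b hab) rr hr₁ hr₂
  obtain ⟨ψ, hψX, hadm, -, -⟩ := hF.exists_classifying Sg hSg hP rr hrr
  -- the two components of `ψ` are the quotient maps
  have hfst : fibreProdFst.comp ψ = Ideal.Quotient.mkₐ 𝒪 K₁ := by
    refine algHom_ext_of_nilpotent (maximalIdeal (MvPowerSeries Sg 𝒪 ⧸ K₁)) c₁
      (maximalIdeal_quotient_pow_eq_bot K₁ hK₁ c₁ hc₁) _ _ ?_ ?_
    · intro s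
      rw [AlgHom.comp_apply, hψX]
      exact hF.base_mem hQ₁ r₁ hr₁ s
    · intro s
      rw [AlgHom.comp_apply, hψX, map_sub, AlgHom.commutes]
      change r₁ s - _ = _
      rw [hrs₁, Ideal.Quotient.mkₐ_eq_mk, map_add, c_eq_algebraMap]
      have e : Ideal.Quotient.mk K₁ (algebraMap 𝒪 (MvPowerSeries Sg 𝒪) (base s))
          = algebraMap 𝒪 (MvPowerSeries Sg 𝒪 ⧸ K₁) (base s) := rfl
      rw [e]
      ring
  have hsnd : fibreProdSnd.comp ψ = Ideal.Quotient.mkₐ 𝒪 K₂ := by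
    refine algHom_ext_of_nilpotent (maximalIdeal (MvPowerSeries Sg 𝒪 ⧸ K₂)) c₂
      (maximalIdeal_quotient_pow_eq_bot K₂ hK₂ c₂ hc₂) _ _ ?_ ?_
    · intro s
      rw [AlgHom.comp_apply, hψX]
      exact hF.base_mem hQ₂ r₂ hr₂ s
    · intro s
      rw [AlgHom.comp_apply, hψX, map_sub, AlgHom.commutes]
      change r₂ s - _ = _
      rw [hrs₂, Ideal.Quotient.mkₐ_eq_mk, map_add, c_eq_algebraMap]
      have e : Ideal.Quotient.mk K₂ (algebraMap 𝒪 (MvPowerSeries Sg 𝒪) (base s))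
          = algebraMap 𝒪 (MvPowerSeries Sg 𝒪 ⧸ K₂) (base s) := rfl
      rw [e]
      ring
  have hker : RingHom.ker ψ = K₁ ⊓ K₂ := by
    ext x
    rw [RingHom.mem_ker, Ideal.mem_inf]
    have e1 : fibreProdFst (ψ x) = Ideal.Quotient.mk K₁ x := by
      have := congrArg (fun f => f x) hfst
      simpa using this
    have e2 : fibreProdSnd (ψ x) = Ideal.Quotient.mk K₂ x := by
      have := congrArg (fun f => f x) hsnd
      simpa using this
    constructor
    · intro h0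
      rw [h0, map_zero, eq_comm, Ideal.Quotient.eq_zero_iff_mem] at e1 e2
      exact ⟨e1, e2⟩
    · rintro ⟨h1, h2⟩
      apply fibreProd_injective
      change (fibreProdFst (ψ x), fibreProdSnd (ψ x)) = (fibreProdFst 0, fibreProdSnd 0)
      rw [e1, e2, map_zero, map_zero, Ideal.Quotient.eq_zero_iff_mem.mpr h1,
        Ideal.Quotient.eq_zero_iff_mem.mpr h2]
  rw [← hker]
  exact hadm

end Admissible

section Levels

open MvPowerSeries

/-- A finite nonempty inf-closed set in a complete lattice contains its infimum. -/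
theorem sInf_mem_of_finite_of_infClosed {α : Type*} [CompleteLattice α] (T : Set α)
    (hfin : T.Finite) (hne : T.Nonempty) (hinf : InfClosed T) : sInf T ∈ T := by
  have h1 : hfin.toFinset.inf id = sInf T := by
    rw [Finset.inf_id_eq_sInf, Set.Finite.coe_toFinset]
  rw [← h1]
  exact hinf.finsetInf_mem ((Set.Finite.toFinset_nonempty hfin).mpr hne)
    (fun i hi => (Set.Finite.mem_toFinset hfin).mp hi)

/-- In the power series ring, only finitely many ideals contain a given power of the maximal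
ideal. -/
theorem finite_setOf_pow_le {𝒪 : Type} [CommRing 𝒪] [IsLocalRing 𝒪] [IsNoetherianRing 𝒪]
    [Finite (ResidueField 𝒪)] {σ : Type} [Finite σ] (c : ℕ) :
    {K : Ideal (MvPowerSeries σ 𝒪) | maximalIdeal (MvPowerSeries σ 𝒪) ^ c ≤ K}.Finite := by
  haveI := finite_quotient_maximalIdeal_pow_mvPowerSeries σ 𝒪 c
  haveI : Finite (Ideal (MvPowerSeries σ 𝒪 ⧸ maximalIdeal (MvPowerSeries σ 𝒪) ^ c)) :=
    Finite.of_injective
      (SetLike.coe : Ideal (MvPowerSeries σ 𝒪 ⧸ maximalIdeal (MvPowerSeries σ 𝒪) ^ c) → Set _)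
      SetLike.coe_injective
  have e : ∀ K : Ideal (MvPowerSeries σ 𝒪), maximalIdeal (MvPowerSeries σ 𝒪) ^ c ≤ K →
      Ideal.comap (Ideal.Quotient.mk (maximalIdeal (MvPowerSeries σ 𝒪) ^ c))
        (Ideal.map (Ideal.Quotient.mk (maximalIdeal (MvPowerSeries σ 𝒪) ^ c)) K) = K := by
    intro K hK
    rw [Ideal.comap_map_of_surjective _ Ideal.Quotient.mk_surjective, ← RingHom.ker_eq_comap_bot,
      Ideal.mk_ker, sup_eq_left]
    exact hK
  refine Set.Finite.of_injOn
    (f := fun K => K.map (Ideal.Quotient.mk (maximalIdeal (MvPowerSeries σ 𝒪) ^ c)))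
    (t := Set.univ) (fun _ _ => Set.mem_univ _) ?_ Set.finite_univ
  intro K hK K' hK' h
  rw [← e K hK, ← e K' hK']
  exact congrArg _ h

/-- The residue field of `𝒪` is an Artinian test algebra. -/
theorem isArtinianTestAlgebra_residueField (𝒪 : Type) [CommRing 𝒪] [IsLocalRing 𝒪] :
    IsArtinianTestAlgebra 𝒪 (ResidueField 𝒪) := by
  refine ⟨?_, ?_, inferInstance⟩
  · change IsLocalHom (residue 𝒪)
    infer_instance
  · intro y
    obtain ⟨z, rfl⟩ := IsLocalRing.residue_surjective y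
    obtain ⟨w, rfl⟩ := IsLocalRing.residue_surjective z
    exact ⟨w, rfl⟩

variable {𝒪 : Type} [CommRing 𝒪] [IsLocalRing 𝒪] [IsNoetherianRing 𝒪]
  [Finite (ResidueField 𝒪)] {I : Type}
  {F : ∀ (A : Type) [CommRing A] [IsLocalRing A] [Algebra 𝒪 A], Set (I → A)}
  {base : I → 𝒪} (hF : IsLiftFunctor 𝒪 F base) (Sg : Finset I)
  (hSg : letI := dualNumberAlgebra 𝒪
      ∀ r ∈ F (DualNumber (ResidueField 𝒪)),
      ∀ r' ∈ F (DualNumber (ResidueField 𝒪)), (∀ s ∈ Sg, r s = r' s) → r = r')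

/-- The admissible ideals of level `c`. -/
def levelSet (F : ∀ (A : Type) [CommRing A] [IsLocalRing A] [Algebra 𝒪 A], Set (I → A))
    (base : I → 𝒪) (Sg : Finset I) (c : ℕ) : Set (Ideal (MvPowerSeries Sg 𝒪)) :=
  {K | Admissible F base Sg K ∧ maximalIdeal (MvPowerSeries Sg 𝒪) ^ c ≤ K}

/-- The smallest admissible ideal of level `c`. -/
noncomputable def levelIdeal (F : ∀ (A : Type) [CommRing A] [IsLocalRing A] [Algebra 𝒪 A], Set (I → A))
    (base : I → 𝒪) (Sg : Finset I) (c : ℕ) : Ideal (MvPowerSeries Sg 𝒪) :=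
  sInf (levelSet F base Sg c)

omit [IsNoetherianRing 𝒪] [Finite (ResidueField 𝒪)] in
theorem levelSet_mono {c c' : ℕ} (h : c ≤ c') : levelSet F base Sg c ⊆ levelSet F base Sg c' :=
  fun _ hK => ⟨hK.1, (Ideal.pow_le_pow_right h).trans hK.2⟩

theorem levelSet_finite (c : ℕ) : (levelSet F base Sg c).Finite :=
  (finite_setOf_pow_le c).subset (fun _ hK => hK.2)

omit [IsNoetherianRing 𝒪] [Finite (ResidueField 𝒪)] in
theorem pow_le_levelIdeal (c : ℕ) :
    maximalIdeal (MvPowerSeries Sg 𝒪) ^ c ≤ levelIdeal F base Sg c :=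
  le_sInf (fun _ hK => hK.2)

omit [IsNoetherianRing 𝒪] [Finite (ResidueField 𝒪)] in
theorem levelIdeal_antitone : Antitone (levelIdeal F base Sg) :=
  fun _ _ h => sInf_le_sInf (levelSet_mono Sg h)

include hF hSg

theorem IsLiftFunctor.levelSet_nonempty {c : ℕ} (hc : 1 ≤ c) :
    (levelSet F base Sg c).Nonempty := by
  obtain ⟨r, hr⟩ := hF.nonempty
  have hk := isArtinianTestAlgebra_residueField 𝒪
  obtain ⟨ψ, -, hadm, -, hpow⟩ := hF.exists_classifying Sg hSg hk r hr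
  refine ⟨RingHom.ker ψ, hadm, (Ideal.pow_le_pow_right hc).trans (hpow 1 ?_)⟩
  rw [pow_one]
  exact IsLocalRing.maximalIdeal_eq_bot

theorem IsLiftFunctor.levelSet_infClosed (c : ℕ) : InfClosed (levelSet F base Sg c) :=
  fun _ h₁ _ h₂ => ⟨hF.admissible_inf Sg hSg h₁.1 h₂.1, le_inf h₁.2 h₂.2⟩

theorem IsLiftFunctor.levelIdeal_mem {c : ℕ} (hc : 1 ≤ c) :
    levelIdeal F base Sg c ∈ levelSet F base Sg c :=
  sInf_mem_of_finite_of_infClosed _ (levelSet_finite Sg c) (hF.levelSet_nonempty Sg hSg hc)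
    (hF.levelSet_infClosed Sg hSg c)

theorem IsLiftFunctor.levelIdeal_ne_top {c : ℕ} (hc : 1 ≤ c) : levelIdeal F base Sg c ≠ ⊤ := by
  obtain ⟨⟨hK, -⟩, -⟩ := hF.levelIdeal_mem Sg hSg hc
  exact hK

theorem IsLiftFunctor.levelIdeal_strict (c : ℕ) :
    levelIdeal F base Sg c ≤
      levelIdeal F base Sg (c + 1) ⊔ maximalIdeal (MvPowerSeries Sg 𝒪) ^ c := by
  rcases Nat.eq_zero_or_pos c with rfl | hc
  · rw [pow_zero, Ideal.one_eq_top, sup_top_eq]
    exact le_top
  · apply sInf_le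
    have hmem := hF.levelIdeal_mem Sg hSg (Nat.le_add_left 1 c)
    have hne : levelIdeal F base Sg (c + 1) ⊔ maximalIdeal (MvPowerSeries Sg 𝒪) ^ c ≠ ⊤ := by
      intro h
      have h1 : levelIdeal F base Sg (c + 1) ≤ maximalIdeal (MvPowerSeries Sg 𝒪) :=
        IsLocalRing.le_maximalIdeal (hF.levelIdeal_ne_top Sg hSg (Nat.le_add_left 1 c))
      have h2 : maximalIdeal (MvPowerSeries Sg 𝒪) ^ c ≤ maximalIdeal (MvPowerSeries Sg 𝒪) :=
        Ideal.pow_le_self (Nat.pos_iff_ne_zero.mp hc)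
      have h3 := sup_le h1 h2
      rw [h] at h3
      exact (IsLocalRing.maximalIdeal.isMaximal _).ne_top (top_le_iff.mp h3)
    exact ⟨hF.admissible_mono Sg hSg hmem.1 le_sup_left hne, le_sup_right⟩

end Levels

section Universal

open MvPowerSeries

variable {𝒪 : Type} [CommRing 𝒪] [IsLocalRing 𝒪] [IsNoetherianRing 𝒪]
  [Finite (ResidueField 𝒪)] {I : Type}
  {F : ∀ (A : Type) [CommRing A] [IsLocalRing A] [Algebra 𝒪 A], Set (I → A)}
  {base : I → 𝒪} (hF : IsLiftFunctor 𝒪 F base) (Sg : Finset I)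
  (hSg : letI := dualNumberAlgebra 𝒪
      ∀ r ∈ F (DualNumber (ResidueField 𝒪)),
      ∀ r' ∈ F (DualNumber (ResidueField 𝒪)), (∀ s ∈ Sg, r s = r' s) → r = r')

/-- Any `𝒪`-algebra map from the power series ring to a test algebra sends the variables into
the maximal ideal. -/
theorem map_X_mem_maximalIdeal {σ : Type} {B : Type} [CommRing B] [IsLocalRing B]
    [Algebra 𝒪 B] (hloc : IsLocalHom (algebraMap 𝒪 B))
    (hsurj : Function.Surjective (residue B ∘ algebraMap 𝒪 B))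
    (ψ : MvPowerSeries σ 𝒪 →ₐ[𝒪] B) (s : σ) : ψ (X s) ∈ maximalIdeal B := by
  by_contra hnot
  obtain ⟨o, ho⟩ := exists_sub_algebraMap_mem_maximalIdeal hsurj (ψ (X s))
  have h1 : algebraMap 𝒪 B o ∉ maximalIdeal B := by
    intro h
    apply hnot
    have := (maximalIdeal B).add_mem ho h
    simpa using this
  have h2 : o ∉ maximalIdeal 𝒪 := fun h => h1 (algebraMap_mem_maximalIdeal hloc h)
  have h3 : IsUnit o := by
    by_contra hn
    exact h2 ((IsLocalRing.mem_maximalIdeal o).mpr hn)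
  have h4 : IsUnit (X s - C o : MvPowerSeries σ 𝒪) := by
    rw [MvPowerSeries.isUnit_iff_constantCoeff, map_sub, constantCoeff_X, constantCoeff_C,
      zero_sub]
    exact h3.neg
  have h5 : IsUnit (ψ (X s - C o)) := h4.map ψ
  rw [map_sub, c_eq_algebraMap, AlgHom.commutes] at h5
  exact (IsLocalRing.mem_maximalIdeal _).mp ho h5

/-- The pro-representing ideal. -/
noncomputable def proIdeal (F : ∀ (A : Type) [CommRing A] [IsLocalRing A] [Algebra 𝒪 A], Set (I → A))
    (base : I → 𝒪) (Sg : Finset I) : Ideal (MvPowerSeries Sg 𝒪) :=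
  ⨅ c, levelIdeal F base Sg c

omit [IsNoetherianRing 𝒪] [Finite (ResidueField 𝒪)] in
theorem proIdeal_le_levelIdeal (c : ℕ) : proIdeal F base Sg ≤ levelIdeal F base Sg c :=
  iInf_le _ c

variable [IsAdicComplete (maximalIdeal 𝒪) 𝒪]

include hF hSg

theorem IsLiftFunctor.proIdeal_sup_pow (c : ℕ) :
    proIdeal F base Sg ⊔ maximalIdeal (MvPowerSeries Sg 𝒪) ^ c = levelIdeal F base Sg c :=
  chain_sup_pow_eq (maximalIdeal (MvPowerSeries Sg 𝒪)) (levelIdeal F base Sg)
    (levelIdeal_antitone Sg) (pow_le_levelIdeal Sg) (hF.levelIdeal_strict Sg hSg) c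

omit [IsAdicComplete (maximalIdeal 𝒪) 𝒪] in
theorem IsLiftFunctor.proIdeal_ne_top : proIdeal F base Sg ≠ ⊤ := by
  intro h
  have h1 := proIdeal_le_levelIdeal (F := F) (base := base) Sg 1
  rw [h, top_le_iff] at h1
  exact hF.levelIdeal_ne_top Sg hSg le_rfl h1

/-- The universal elements at finite level, and their compatibility. -/
theorem IsLiftFunctor.exists_level_family :
    ∃ y : ∀ c : ℕ, I → MvPowerSeries Sg 𝒪 ⧸ levelIdeal F base Sg c,
      (∀ (c : ℕ) (hc : 1 ≤ c),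
        haveI := isLocalRing_quotient _ (hF.levelIdeal_ne_top Sg hSg hc)
        y c ∈ F (MvPowerSeries Sg 𝒪 ⧸ levelIdeal F base Sg c)) ∧
      (∀ (c : ℕ), 1 ≤ c → ∀ s : Sg, y c s = Ideal.Quotient.mk _ (X s + C (base s))) ∧
      (∀ (c : ℕ) (i : I), Ideal.Quotient.factor (levelIdeal_antitone Sg (Nat.le_succ c))
        (y (c + 1) i) = y c i) := by
  classical
  have hex : ∀ (c : ℕ) (hc : 1 ≤ c), ∃ r : I → MvPowerSeries Sg 𝒪 ⧸ levelIdeal F base Sg c,
      r ∈ @F (MvPowerSeries Sg 𝒪 ⧸ levelIdeal F base Sg c) _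
        (isLocalRing_quotient _ (hF.levelIdeal_ne_top Sg hSg hc)) _ ∧
      ∀ s : Sg, r s = Ideal.Quotient.mk _ (X s + C (base s)) := by
    intro c hc
    obtain ⟨⟨hK, -, r, hr, hrs⟩, -⟩ := hF.levelIdeal_mem Sg hSg hc
    exact ⟨r, hr, hrs⟩
  choose rc hrc hrcs using hex
  let y : ∀ c : ℕ, I → MvPowerSeries Sg 𝒪 ⧸ levelIdeal F base Sg c := fun c =>
    if hc : 1 ≤ c then rc c hc else fun _ => 0
  have hy : ∀ (c : ℕ) (hc : 1 ≤ c), y c = rc c hc := fun c hc => dif_pos hc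
  refine ⟨y, ?_, ?_, ?_⟩
  · intro c hc
    rw [hy c hc]
    exact hrc c hc
  · intro c hc s
    rw [hy c hc]
    exact hrcs c hc s
  · intro c i
    rcases Nat.eq_zero_or_pos c with rfl | hc
    · have htop : levelIdeal F base Sg 0 = ⊤ := by
        have := pow_le_levelIdeal (F := F) (base := base) Sg 0
        rwa [pow_zero, Ideal.one_eq_top, top_le_iff] at this
      haveI : Subsingleton (MvPowerSeries Sg 𝒪 ⧸ levelIdeal F base Sg 0) :=
        Ideal.Quotient.subsingleton_iff.mpr htop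
      exact Subsingleton.elim _ _
    · have hc1 : 1 ≤ c + 1 := Nat.le_add_left 1 c
      have hK := hF.levelIdeal_ne_top Sg hSg hc
      have hK1 := hF.levelIdeal_ne_top Sg hSg hc1
      haveI := isLocalRing_quotient _ hK
      haveI := isLocalRing_quotient _ hK1
      have hQ := isArtinianTestAlgebra_quotient_of_pow_le _ hK c (pow_le_levelIdeal Sg c)
      have hQ1 := isArtinianTestAlgebra_quotient_of_pow_le _ hK1 (c + 1)
        (pow_le_levelIdeal Sg (c + 1))
      have hle := levelIdeal_antitone (F := F) (base := base) Sg (Nat.le_succ c)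
      have h1 : (fun i => Ideal.Quotient.factorₐ 𝒪 hle (y (c + 1) i)) ∈
          F (MvPowerSeries Sg 𝒪 ⧸ levelIdeal F base Sg c) := by
        apply hF.map hQ1 hQ (Ideal.Quotient.factorₐ 𝒪 hle)
        rw [hy (c + 1) hc1]
        exact hrc (c + 1) hc1
      have h2 : y c ∈ F (MvPowerSeries Sg 𝒪 ⧸ levelIdeal F base Sg c) := by
        rw [hy c hc]
        exact hrc c hc
      have h3 := hF.admissible_unique Sg hSg hK c (pow_le_levelIdeal Sg c) _ _ h1 h2 (by
        intro s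
        change Ideal.Quotient.factorₐ 𝒪 hle (y (c + 1) s) = y c s
        rw [hy (c + 1) hc1, hy c hc, hrcs, hrcs]
        rfl)
      exact congrFun h3 i

/-- The universal element over `S ⧸ proIdeal` and its properties (fixed separating set). -/
theorem IsLiftFunctor.exists_universal_aux :
    ∃ ru : I → MvPowerSeries Sg 𝒪 ⧸ proIdeal F base Sg,
      (∀ s : Sg, ru s = Ideal.Quotient.mk _ (X s + C (base s))) ∧
      (∀ (B : Type) [CommRing B] [IsLocalRing B] [Algebra 𝒪 B], IsArtinianTestAlgebra 𝒪 B →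
        ∀ q : (MvPowerSeries Sg 𝒪 ⧸ proIdeal F base Sg) →ₐ[𝒪] B, (fun i => q (ru i)) ∈ F B) ∧
      (∀ (A : Type) [CommRing A] [IsLocalRing A] [Algebra 𝒪 A], IsArtinianTestAlgebra 𝒪 A →
        ∀ r ∈ F A, ∃! φ : (MvPowerSeries Sg 𝒪 ⧸ proIdeal F base Sg) →ₐ[𝒪] A,
          (fun i => φ (ru i)) = r) := by
  obtain ⟨y, hyF, hys, hycompat⟩ := hF.exists_level_family Sg hSg
  -- lift the compatible families
  have hlift : ∀ i : I, ∃ z : MvPowerSeries Sg 𝒪,
      ∀ c, Ideal.Quotient.mk (levelIdeal F base Sg c) z = y c i := fun i =>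
    chain_exists_lift (maximalIdeal (MvPowerSeries Sg 𝒪)) (levelIdeal F base Sg)
      (levelIdeal_antitone Sg) (pow_le_levelIdeal Sg) (hF.levelIdeal_strict Sg hSg)
      (fun c => y c i) (fun c => hycompat c i)
  choose z hz using hlift
  let ru : I → MvPowerSeries Sg 𝒪 ⧸ proIdeal F base Sg := fun i => Ideal.Quotient.mk _ (z i)
  have hru : ∀ s : Sg, ru s = Ideal.Quotient.mk _ (X s + C (base s)) := by
    intro s
    change Ideal.Quotient.mk _ (z s) = _
    rw [Ideal.Quotient.eq, proIdeal, Ideal.mem_iInf]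
    intro c
    rcases Nat.eq_zero_or_pos c with rfl | hc
    · have htop : levelIdeal F base Sg 0 = ⊤ := by
        have := pow_le_levelIdeal (F := F) (base := base) Sg 0
        rwa [pow_zero, Ideal.one_eq_top, top_le_iff] at this
      rw [htop]
      exact Submodule.mem_top
    · rw [← Ideal.Quotient.eq, hz s c, hys c hc s]
  -- a general factorization statement
  have hfactor : ∀ (B : Type) [CommRing B] [IsLocalRing B] [Algebra 𝒪 B],
      IsArtinianTestAlgebra 𝒪 B → ∀ ψ : MvPowerSeries Sg 𝒪 →ₐ[𝒪] B,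
      (∀ x ∈ proIdeal F base Sg, ψ x = 0) → (fun i => ψ (z i)) ∈ F B := by
    intro B _ _ _ hB ψ hψ
    haveI := hB.isArtinian
    obtain ⟨c₀, hc₀⟩ := exists_maximalIdeal_pow_eq_bot_of_isArtinianRing B
    have hc : maximalIdeal B ^ (c₀ + 1) = ⊥ := by
      rw [pow_succ, hc₀, Ideal.bot_mul]
    have hc1 : 1 ≤ c₀ + 1 := Nat.le_add_left 1 c₀
    have hψX : ∀ s : Sg, ψ (X s) ∈ maximalIdeal B :=
      fun s => map_X_mem_maximalIdeal hB.isLocalHom hB.residue_surjective ψ s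
    have hpow := pow_le_ker_of_X_mem hB.isLocalHom ψ hψX (c₀ + 1) hc
    have hle : levelIdeal F base Sg (c₀ + 1) ≤ RingHom.ker ψ := by
      rw [← hF.proIdeal_sup_pow Sg hSg (c₀ + 1)]
      exact sup_le (fun x hx => hψ x hx) hpow
    have hK := hF.levelIdeal_ne_top Sg hSg hc1
    haveI := isLocalRing_quotient _ hK
    have hQ := isArtinianTestAlgebra_quotient_of_pow_le _ hK (c₀ + 1)
      (pow_le_levelIdeal Sg (c₀ + 1))
    let qc : (MvPowerSeries Sg 𝒪 ⧸ levelIdeal F base Sg (c₀ + 1)) →ₐ[𝒪] B :=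
      Ideal.Quotient.liftₐ _ ψ (fun a ha => hle ha)
    have h1 := hF.map hQ hB qc (y (c₀ + 1)) (hyF (c₀ + 1) hc1)
    have h2 : (fun i => qc (y (c₀ + 1) i)) = fun i => ψ (z i) := by
      funext i
      rw [← hz i (c₀ + 1)]
      rfl
    rw [← h2]
    exact h1
  refine ⟨ru, hru, ?_, ?_⟩
  · intro B _ _ _ hB q
    have := hfactor B hB (q.comp (Ideal.Quotient.mkₐ 𝒪 _)) (by
      intro x hx
      rw [AlgHom.comp_apply, Ideal.Quotient.mkₐ_eq_mk, Ideal.Quotient.eq_zero_iff_mem.mpr hx,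
        map_zero])
    exact this
  · intro A _ _ _ hA r hr
    obtain ⟨ψ, hψX, hadm, -, hpow⟩ := hF.exists_classifying Sg hSg hA r hr
    haveI := hA.isArtinian
    obtain ⟨c₀, hc₀⟩ := exists_maximalIdeal_pow_eq_bot_of_isArtinianRing A
    have hc : maximalIdeal A ^ (c₀ + 1) = ⊥ := by
      rw [pow_succ, hc₀, Ideal.bot_mul]
    have hle : proIdeal F base Sg ≤ RingHom.ker ψ :=
      (proIdeal_le_levelIdeal Sg (c₀ + 1)).trans (sInf_le ⟨hadm, hpow (c₀ + 1) hc⟩)
    have hψz : (fun i => ψ (z i)) = r := by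
      apply hF.eq_of_agree Sg hSg hA _ _ (hfactor A hA ψ (fun x hx => hle hx)) hr
      intro s hs
      have h1 : Ideal.Quotient.mk (proIdeal F base Sg) (z s)
          = Ideal.Quotient.mk _ (X ⟨s, hs⟩ + C (base s)) := hru ⟨s, hs⟩
      rw [Ideal.Quotient.eq] at h1
      have h2 := hle h1
      rw [RingHom.mem_ker, map_sub, sub_eq_zero] at h2
      rw [h2, map_add, hψX, c_eq_algebraMap, AlgHom.commutes]
      ring
    refine ⟨Ideal.Quotient.liftₐ _ ψ (fun a ha => hle ha), ?_, ?_⟩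
    · change (fun i => Ideal.Quotient.liftₐ _ ψ (fun a ha => hle ha) (ru i)) = r
      rw [← hψz]
      rfl
    · intro φ' hφ'
      have hφ'r : ∀ i, φ' (ru i) = r i := fun i => congrFun hφ' i
      apply Ideal.Quotient.algHom_ext
      have e := Ideal.Quotient.liftₐ_comp (proIdeal F base Sg) ψ (fun a ha => hle ha)
      refine Eq.trans ?_ e.symm
      refine algHom_ext_of_nilpotent (maximalIdeal A) (c₀ + 1) hc _ _ ?_ ?_
      · intro s
        exact map_X_mem_maximalIdeal hA.isLocalHom hA.residue_surjective _ s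
      · intro s
        rw [hψX, AlgHom.comp_apply, Ideal.Quotient.mkₐ_eq_mk]
        have h1 : Ideal.Quotient.mk (proIdeal F base Sg) (X s)
            = ru s - algebraMap 𝒪 _ (base s) := by
          rw [hru s, map_add, c_eq_algebraMap]
          have e : Ideal.Quotient.mk (proIdeal F base Sg)
              (algebraMap 𝒪 (MvPowerSeries Sg 𝒪) (base s))
              = algebraMap 𝒪 (MvPowerSeries Sg 𝒪 ⧸ proIdeal F base Sg) (base s) := rfl
          rw [e]
          ring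
        rw [h1, map_sub, hφ'r, AlgHom.commutes]

end Universal

/-- **Abstract pro-representability.** A functor of rigidified lifts satisfying the axioms
`IsLiftFunctor` is pro-represented by a quotient `R = 𝒪⟦X_s⟧ ⧸ J` of a power series ring in
finitely many variables, with a universal element `ru : I → R`:
* for every Artinian test algebra `B` and `q : R →ₐ[𝒪] B`, `q ∘ ru ∈ F B`;
* for every Artinian test algebra `A` and `r ∈ F A` there is a unique `φ : R →ₐ[𝒪] A` with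
  `φ ∘ ru = r`;
* `ru` reduces to `base` modulo the maximal ideal. -/
theorem IsLiftFunctor.exists_proRepresenting
    {𝒪 : Type} [CommRing 𝒪] [IsLocalRing 𝒪] [IsNoetherianRing 𝒪] [Finite (ResidueField 𝒪)]
    [IsAdicComplete (maximalIdeal 𝒪) 𝒪] {I : Type}
    {F : ∀ (A : Type) [CommRing A] [IsLocalRing A] [Algebra 𝒪 A], Set (I → A)}
    {base : I → 𝒪} (hF : IsLiftFunctor 𝒪 F base) :
    ∃ (σ : Type) (_ : Finite σ) (J : Ideal (MvPowerSeries σ 𝒪)) (_ : J ≠ ⊤)
      (ru : I → MvPowerSeries σ 𝒪 ⧸ J),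
      (∀ (B : Type) [CommRing B] [IsLocalRing B] [Algebra 𝒪 B], IsArtinianTestAlgebra 𝒪 B →
        ∀ q : (MvPowerSeries σ 𝒪 ⧸ J) →ₐ[𝒪] B, (fun i => q (ru i)) ∈ F B) ∧
      (∀ (A : Type) [CommRing A] [IsLocalRing A] [Algebra 𝒪 A], IsArtinianTestAlgebra 𝒪 A →
        ∀ r ∈ F A, ∃! φ : (MvPowerSeries σ 𝒪 ⧸ J) →ₐ[𝒪] A, (fun i => φ (ru i)) = r) := by
  obtain ⟨Sg, hSg⟩ := hF.exists_separating
  obtain ⟨ru, -, h1, h2⟩ := hF.exists_universal_aux Sg hSg
  exact ⟨Sg, inferInstance, proIdeal F base Sg, hF.proIdeal_ne_top Sg hSg, ru, h1, h2⟩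

end Fermat.Agent.TeamA
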