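import Fermat.Agent.TeamA.ProRepSpec
import Fermat.Agent.TeamA.ProRep

/-!
# `nonempty_proRep`: the abstract pro-representability theorem in the form of `ProRepSpec`

Adapter between `Fermat.Agent.TeamA.IsLiftFunctor.exists_proRepresenting` and the interface
`RigidFunctor` / `ProRep`.
-/

set_option autoImplicit false
set_option linter.style.haveILetI false
set_option linter.unusedSectionVars false

open IsLocalRing GaloisRep

namespace Fermat.Agent.TeamA.Rep

open Fermat.Agent.TeamA

section

variable {𝒪 : Type} [CommRing 𝒪] [IsLocalRing 𝒪] [Finite (ResidueField 𝒪)] {ι : Type}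

theorem isTestAlg_of_artinianTest {A : Type} [CommRing A] [IsLocalRing A] [Algebra 𝒪 A]
    (hA : IsArtinianTestAlgebra 𝒪 A) : IsTestAlg 𝒪 A :=
  ⟨hA.isLocalHom, hA.residue_surjective⟩

theorem finite_of_artinianTest {A : Type} [CommRing A] [IsLocalRing A] [Algebra 𝒪 A]
    (hA : IsArtinianTestAlgebra 𝒪 A) : Finite A :=
  haveI := hA.isArtinian
  finite_of_isArtinianRing_of_surjective hA.isLocalHom hA.residue_surjective

/-- A `RigidFunctor` gives an `IsLiftFunctor`. -/
theorem RigidFunctor.isLiftFunctor (D : RigidFunctor 𝒪 ι) :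
    IsLiftFunctor 𝒪 (fun A _ _ _ => {v : ι → A | D.G A v}) D.t where
  map := by
    intro A B _ _ _ _ _ _ hA hB φ r hr
    haveI := isTestAlg_of_artinianTest hA
    haveI := isTestAlg_of_artinianTest hB
    haveI := finite_of_artinianTest hA
    haveI := finite_of_artinianTest hB
    exact D.map φ hr
  base_mem := by
    intro A _ _ _ hA r hr
    haveI := isTestAlg_of_artinianTest hA
    haveI := finite_of_artinianTest hA
    exact D.lifts hr
  of_injective := by
    intro A B _ _ _ _ _ _ hA hB φ hφ r hr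
    haveI := isTestAlg_of_artinianTest hA
    haveI := isTestAlg_of_artinianTest hB
    haveI := finite_of_artinianTest hA
    haveI := finite_of_artinianTest hB
    exact D.of_injective φ hφ r hr
  of_fibre := by
    intro A B P _ _ _ _ _ _ _ _ _ hA hB hP pA pB hinj _ r hrA hrB
    haveI := isTestAlg_of_artinianTest hA
    haveI := isTestAlg_of_artinianTest hB
    haveI := isTestAlg_of_artinianTest hP
    haveI := finite_of_artinianTest hA
    haveI := finite_of_artinianTest hB
    haveI := finite_of_artinianTest hP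
    have hmem : ∀ x : P, (pA.prod pB) x ∈ fibProd 𝒪 A B := by
      intro x
      obtain ⟨o, ho⟩ := exists_algebraMap_sub_mem 𝒪 P x
      refine ⟨o, ?_, ?_⟩
      · have := map_mem_maximalIdeal pA ho
        rwa [map_sub, AlgHom.commutes] at this
      · have := map_mem_maximalIdeal pB ho
        rwa [map_sub, AlgHom.commutes] at this
    let j : P →ₐ[𝒪] fibProd 𝒪 A B := AlgHom.codRestrict (pA.prod pB) (fibProd 𝒪 A B) hmem
    have hj : Function.Injective j := by
      intro x y hxy
      apply hinj
      have := congrArg Subtype.val hxy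
      exact this
    exact D.of_injective j hj r (D.fib (fun i => j (r i)) hrA hrB)
  tangent := by
    letI := dualNumberAlgebra 𝒪
    have h : Finite {v : ι → DualNumber (ResidueField 𝒪) // D.G (DualNumber (ResidueField 𝒪)) v} :=
      D.tangent_finite
    exact Set.finite_coe_iff.mp h
  nonempty := D.base

end

/-- **Abstract pro-representability** in the form of `ProRepSpec`. -/
theorem nonempty_proRep {𝒪 : Type} [CommRing 𝒪] [IsLocalRing 𝒪] [IsNoetherianRing 𝒪]
    [IsAdicComplete (maximalIdeal 𝒪) 𝒪] [Finite (ResidueField 𝒪)] {ι : Type}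
    (D : RigidFunctor 𝒪 ι) : Nonempty (ProRep D) := by
  obtain ⟨σ, hσ, J, hJ, ru, hgood, huniv⟩ := D.isLiftFunctor.exists_proRepresenting
  haveI := hσ
  haveI := isLocalRing_quotient J hJ
  haveI : IsTestAlg 𝒪 (MvPowerSeries σ 𝒪 ⧸ J) :=
    ⟨isLocalHom_algebraMap_quotient J hJ,
      residue_algebraMap_quotient_surjective J hJ (residue_algebraMap_surjective_mvPowerSeries σ 𝒪)⟩
  haveI := isAdicComplete_quotient J hJ
  have hgood' : ∀ (B : Type) [CommRing B] [IsLocalRing B] [Algebra 𝒪 B] [IsTestAlg 𝒪 B] [Finite B]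
      (q : (MvPowerSeries σ 𝒪 ⧸ J) →ₐ[𝒪] B), D.G B (fun i => q (ru i)) := by
    intro B _ _ _ _ _ q
    exact hgood B isArtinianTestAlgebra_of q
  refine ⟨{ R := MvPowerSeries σ 𝒪 ⧸ J, u := ru, lifts := ?_, good := hgood', universal := ?_ }⟩
  · intro i
    have h1 := hgood' (ResidueField 𝒪) (resK 𝒪 (MvPowerSeries σ 𝒪 ⧸ J))
    have h2 := D.lifts h1 i
    rw [IsLocalRing.maximalIdeal_eq_bot, Ideal.mem_bot, ← AlgHom.commutes
      (resK 𝒪 (MvPowerSeries σ 𝒪 ⧸ J)), ← map_sub, resK_eq_zero_iff] at h2
    exact h2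
  · intro B _ _ _ _ _ v hv
    obtain ⟨φ, hφ, hφu⟩ := huniv B isArtinianTestAlgebra_of v hv
    exact ⟨φ, fun i => congrFun hφ i, fun φ' hφ' => hφu φ' (funext hφ')⟩

end Fermat.Agent.TeamA.Rep
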