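import Fermat.Agent.TeamA.Limit
import Fermat.Agent.TeamA.BasedLift
set_option autoImplicit false
open scoped TensorProduct
open IsLocalRing Polynomial
namespace Fermat.Agent.TeamA.Rep
local notation "Γℚ" => (AlgebraicClosure ℚ ≃ₐ[ℚ] AlgebraicClosure ℚ)

section UnivProp
variable {𝒪 : Type} [CommRing 𝒪] [IsLocalRing 𝒪] [Finite (ResidueField 𝒪)]
variable {ρbar : ResidualGaloisRep (ResidueField 𝒪)} {Fr : Frame 𝒪 ρbar}
variable {𝒟 : ∀ ⦃A : Type⦄ [CommRing A] [IsLocalRing A] [Algebra 𝒪 A], GaloisRepAdic A → Prop}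
variable {A : Type} [CommRing A] [IsLocalRing A] [IsNoetherianRing A]
  [IsAdicComplete (maximalIdeal A) A] [Algebra 𝒪 A] [IsTestAlg 𝒪 A]

/-- the quotient map `A → A ⧸ m^(c+1)` -/
noncomputable abbrev quotMap (𝒪 : Type) [CommRing 𝒪] (A : Type) [CommRing A] [IsLocalRing A]
    [Algebra 𝒪 A] (c : ℕ) : A →ₐ[𝒪] A ⧸ maximalIdeal A ^ (c + 1) :=
  Ideal.Quotient.mkₐ 𝒪 (maximalIdeal A ^ (c + 1))

/-- A based normalized lift of type `𝒟` over a complete ring is good modulo every power of the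
maximal ideal. -/
theorem isGood_quot_of_isOfType (h𝒟 : GaloisRep.IsDeformationCondition 𝒪 𝒟)
    (ρA : GaloisRepAdic A) (hD : 𝒟 ρA) (b : Module.Basis (Fin 2) A ρA.V)
    (hl : Lifts Fr.Rt (matOf ρA b)) (hn : Normalized Fr.α Fr.β (matOf ρA b)) (c : ℕ) :
    IsGood Fr 𝒟 (A ⧸ maximalIdeal A ^ (c + 1)) (fun g => (matOf ρA b g).map (quotMap 𝒪 A c)) := by
  haveI := quotPow_finite 𝒪 (A := A) c
  have hq := isLocalHom_of_isTestAlg (quotMap 𝒪 A c)
  refine ⟨hl.comp _, hn.map _, ρA.baseChangeAlong _ hq, bcBasis _ hq ρA b, fun g => ?_, ?_⟩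
  · rw [matOf_baseChangeAlong]; rfl
  · exact (h𝒟.iff_forall_surjective IsTestAlg.isLocalHom IsTestAlg.residue_surjective ρA).mp hD
      isArtinianTestAlgebra_of (quotMap 𝒪 A c) hq Ideal.Quotient.mk_surjective

variable {R : Type} [CommRing R] [IsLocalRing R] [Algebra 𝒪 R] [IsTestAlg 𝒪 R]

/-- universal property on finite test algebras -/
def UnivFinite (Fr : Frame 𝒪 ρbar)
    (𝒟 : ∀ ⦃A : Type⦄ [CommRing A] [IsLocalRing A] [Algebra 𝒪 A], GaloisRepAdic A → Prop)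
    (r : Γℚ → Matrix (Fin 2) (Fin 2) R) : Prop :=
  ∀ (B : Type) [CommRing B] [IsLocalRing B] [Algebra 𝒪 B] [IsTestAlg 𝒪 B] [Finite B]
    (s : Γℚ → Matrix (Fin 2) (Fin 2) B), IsGood Fr 𝒟 B s →
      ∃! φ : R →ₐ[𝒪] B, ∀ g, (r g).map φ = s g

variable {r : Γℚ → Matrix (Fin 2) (Fin 2) R}

omit [IsTestAlg 𝒪 R] [IsLocalRing R] in
theorem map_comp_apply {B C : Type} [CommRing B] [Algebra 𝒪 B] [CommRing C] [Algebra 𝒪 C]
    (M : Matrix (Fin 2) (Fin 2) R) (φ : R →ₐ[𝒪] B) (ψ : B →ₐ[𝒪] C) :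
    M.map (ψ.comp φ) = (M.map φ).map ψ := by
  ext i j; rfl

/-- The classifying map of a based normalized lift over a complete ring. -/
theorem exists_algHom_of_based (h𝒟 : GaloisRep.IsDeformationCondition 𝒪 𝒟)
    (huniv : UnivFinite Fr 𝒟 r)
    (ρA : GaloisRepAdic A) (hD : 𝒟 ρA) (b : Module.Basis (Fin 2) A ρA.V)
    (hl : Lifts Fr.Rt (matOf ρA b)) (hn : Normalized Fr.α Fr.β (matOf ρA b)) :
    ∃ F : R →ₐ[𝒪] A, (∀ g, (r g).map F = matOf ρA b g) ∧
      ∀ F' : R →ₐ[𝒪] A, (∀ g, (r g).map F' = matOf ρA b g) → F' = F := by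
  have key : ∀ c : ℕ, ∃! φ : R →ₐ[𝒪] A ⧸ maximalIdeal A ^ (c + 1),
      ∀ g, (r g).map φ = (matOf ρA b g).map (quotMap 𝒪 A c) := by
    intro c
    haveI := quotPow_finite 𝒪 (A := A) c
    exact huniv _ _ (isGood_quot_of_isOfType h𝒟 ρA hD b hl hn c)
  choose f' hf' using fun c => (key c).exists
  have hcompat : ∀ c, (Ideal.Quotient.factorₐ 𝒪
      (Ideal.pow_le_pow_right (Nat.le_succ (c + 1)))).comp (f' (c + 1)) = f' c := by
    intro c
    apply (key c).unique _ (hf' c)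
    intro g
    rw [map_comp_apply, hf' (c + 1), ← map_comp_apply]
    rfl
  let f : ∀ c : ℕ, R →ₐ[𝒪] A ⧸ maximalIdeal A ^ c := fun c =>
    (Ideal.Quotient.factorₐ 𝒪 (Ideal.pow_le_pow_right (Nat.le_succ c))).comp (f' c)
  have hfsucc : ∀ c, f (c + 1) = f' c := hcompat
  have hf : ∀ c, (Ideal.Quotient.factorₐ 𝒪 (Ideal.pow_le_pow_right (Nat.le_succ c))).comp
      (f (c + 1)) = f c := by
    intro c
    rw [hfsucc]
  obtain ⟨F, hF, -⟩ := Fermat.Agent.TeamA.existsUnique_algHom_of_compatible (maximalIdeal A) f hf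
  have hF' : ∀ c, (quotMap 𝒪 A c).comp F = f' c := fun c => (hF (c + 1)).trans (hfsucc c)
  refine ⟨F, fun g => ?_, fun F' hF'' => ?_⟩
  · apply matrix_eq_of_forall_map_eq (𝒪 := 𝒪)
    intro c
    rw [← map_comp_apply, hF' c, hf' c]
  · have h2 : ∀ c, (quotMap 𝒪 A c).comp F' = f' c := by
      intro c
      apply (key c).unique _ (hf' c)
      intro g
      rw [map_comp_apply, hF'' g]
    ext x
    apply eq_of_forall_mk_eq (𝒪 := 𝒪)
    intro c
    have := congrArg (fun φ : R →ₐ[𝒪] A ⧸ maximalIdeal A ^ (c + 1) => φ x) ((h2 c).trans (hF' c).symm)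
    exact this

variable [IsNoetherianRing R] [IsAdicComplete (maximalIdeal R) R]

/-- The universal property over complete Noetherian local `𝒪`-algebras. -/
theorem universal_complete (h𝒟 : GaloisRep.IsDeformationCondition 𝒪 𝒟)
    (hall : AllGood Fr 𝒟 r) (huniv : UnivFinite Fr 𝒟 r)
    (ρA : GaloisRepAdic A) (hD : 𝒟 ρA)
    (hres : ρA.residual.IsEquiv (ρbar.baseChangeAlong (ResidueField.map (algebraMap 𝒪 A)))) :
    ∃! φ : R →ₐ[𝒪] A, ∃ hφ : IsLocalHom (φ : R →+* A),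
      (hall.rep.baseChangeAlong (φ : R →+* A) hφ).IsEquiv ρA := by
  obtain ⟨b₁, hb₁⟩ := Fermat.Agent.TeamA.BasedLift.exists_basis_lifts ρbar Fr.bbar Fr.Rt Fr.hRt ρA hres
  obtain ⟨P, Q, hPQ, hQP, hP1, hQ1, hnorm⟩ :=
    exists_normalizing henselProp_of_isAdicComplete Fr.cond (matOf ρA b₁) hb₁
  obtain ⟨b₂, hb₂⟩ := Fermat.Agent.TeamA.BasedLift.exists_basis_matOf_conj ρA b₁ P Q hPQ hQP
  have hs : matOf ρA b₂ = fun g => Q * matOf ρA b₁ g * P := funext hb₂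
  have hl : Lifts Fr.Rt (matOf ρA b₂) := by rw [hs]; exact hb₁.conj hP1 hQ1
  have hn : Normalized Fr.α Fr.β (matOf ρA b₂) := by rw [hs]; exact hnorm
  obtain ⟨F, hF, hFuniq⟩ := exists_algHom_of_based h𝒟 huniv ρA hD b₂ hl hn
  have hmat : ∀ (φ : R →ₐ[𝒪] A) (hφ : IsLocalHom (φ : R →+* A)) (g : Γℚ),
      matOf (hall.rep.baseChangeAlong (φ : R →+* A) hφ)
        (bcBasis _ hφ hall.rep (stdBasis hall.hom hall.matCont_hom)) g = (r g).map φ := by
    intro φ hφ g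
    rw [matOf_baseChangeAlong]
    unfold AllGood.rep
    rw [matOf_matRep]
    rfl
  refine ⟨F, ⟨isLocalHom_of_isTestAlg F, ?_⟩, ?_⟩
  · apply isEquiv_of_matOf_eq _ _ (bcBasis _ (isLocalHom_of_isTestAlg F) hall.rep
      (stdBasis hall.hom hall.matCont_hom)) b₂
    intro g
    rw [hmat, hF]
  · rintro φ' ⟨hφ', hequiv⟩
    apply hFuniq
    obtain ⟨M, M', hMM', hM'M, hconj⟩ := exists_conj_of_isEquiv _ _
      (bcBasis _ hφ' hall.rep (stdBasis hall.hom hall.matCont_hom)) b₂ hequiv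
    have := normalized_unique Fr.cond (hall.lifts.comp φ') hl (hall.normalized.map φ') hn M M' hM'M
      (fun g => by rw [← hmat φ' hφ' g]; exact hconj g)
    exact fun g => congrFun this g

end UnivProp
end Fermat.Agent.TeamA.Rep
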