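import Mathlib

/-!
# Hensel eigenvectors for `2 × 2` matrices congruent to `E₁₁`
-/

set_option autoImplicit false

namespace Fermat.Agent.TeamA.Hensel2

open IsLocalRing Polynomial

variable {A : Type*} [CommRing A] [IsLocalRing A]

theorem isUnit_of_sub_one_mem' {u : A} (h : u - 1 ∈ maximalIdeal A) : IsUnit u := by
  by_contra hn
  have hu : u ∈ maximalIdeal A := (mem_maximalIdeal _).mpr hn
  have := (maximalIdeal A).sub_mem hu h
  rw [sub_sub_cancel] at this
  exact (mem_maximalIdeal _).mp this isUnit_one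

/-- Over a Henselian local ring, a `2 × 2` matrix `[[a, b], [c, d]]` congruent to `E₁₁` modulo the
maximal ideal has an eigenvector `(1, x)` with `x ∈ 𝔪` and eigenvalue `lam ≡ 1`. -/
theorem exists_eigen [HenselianLocalRing A] (a b c d : A)
    (ha : a - 1 ∈ maximalIdeal A) (hb : b ∈ maximalIdeal A) (hc : c ∈ maximalIdeal A)
    (hd : d ∈ maximalIdeal A) :
    ∃ lam x : A, lam - 1 ∈ maximalIdeal A ∧ x ∈ maximalIdeal A ∧
      a + b * x = lam ∧ c + d * x = lam * x := by
  set f : A[X] := X ^ 2 - C (a + d) * X + C (a * d - b * c) with hf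
  have hmonic : f.Monic := by
    rw [hf, sub_add]
    apply Polynomial.monic_X_pow_sub
    refine lt_of_le_of_lt (Polynomial.degree_sub_le _ _) ?_
    refine max_lt ?_ ?_
    · exact lt_of_le_of_lt (Polynomial.degree_C_mul_X_le _) (by norm_num)
    · exact lt_of_le_of_lt Polynomial.degree_C_le (by norm_num)
  have heval : ∀ t : A, f.eval t = t ^ 2 - (a + d) * t + (a * d - b * c) := by
    intro t; simp [hf]
  have h1 : f.eval 1 ∈ maximalIdeal A := by
    rw [heval]
    have : (1 : A) ^ 2 - (a + d) * 1 + (a * d - b * c) = (a - 1) * (d - 1) - b * c := by ring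
    rw [this]
    exact (maximalIdeal A).sub_mem (Ideal.mul_mem_right _ _ ha) (Ideal.mul_mem_right _ _ hb)
  have h2 : IsUnit (f.derivative.eval 1) := by
    have hder : f.derivative.eval 1 = 2 - (a + d) := by
      simp [hf, one_add_one_eq_two]
    rw [hder]
    apply isUnit_of_sub_one_mem'
    have : (2 : A) - (a + d) - 1 = -(a - 1) - d := by ring
    rw [this]
    exact (maximalIdeal A).sub_mem ((maximalIdeal A).neg_mem ha) hd
  obtain ⟨lam, hroot, hlam⟩ := HenselianLocalRing.is_henselian f hmonic 1 h1 h2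
  have hroot' : lam ^ 2 - (a + d) * lam + (a * d - b * c) = 0 := by
    rw [← heval]; exact hroot
  have hu : IsUnit (lam - d) := by
    apply isUnit_of_sub_one_mem'
    have : lam - d - 1 = (lam - 1) - d := by ring
    rw [this]
    exact (maximalIdeal A).sub_mem hlam hd
  obtain ⟨v, hv⟩ := hu
  refine ⟨lam, c * (v⁻¹ : Aˣ), hlam, Ideal.mul_mem_right _ _ hc, ?_, ?_⟩
  · apply (Units.mul_left_inj v).mp
    have hvi : ((v⁻¹ : Aˣ) : A) * (v : A) = 1 := by simp
    calc (a + b * (c * ((v⁻¹ : Aˣ) : A))) * (v : A)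
        = a * v + b * c * (((v⁻¹ : Aˣ) : A) * v) := by ring
      _ = a * (lam - d) + b * c := by rw [hvi, hv]; ring
      _ = lam * (lam - d) := by linear_combination -hroot'
      _ = lam * v := by rw [hv]
  · have hvi : (v : A) * ((v⁻¹ : Aˣ) : A) = 1 := by simp
    have : (lam - d) * (c * ((v⁻¹ : Aˣ) : A)) = c := by
      rw [← hv]
      calc (v : A) * (c * ((v⁻¹ : Aˣ) : A)) = c * ((v : A) * ((v⁻¹ : Aˣ) : A)) := by ring
        _ = c := by rw [hvi, mul_one]
    linear_combination -this

/-- Uniqueness of the eigenvector `(1, x)` (no condition on `x` is needed). -/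
theorem eigen_unique (a b c d : A)
    (ha : a - 1 ∈ maximalIdeal A) (hb : b ∈ maximalIdeal A)
    (hd : d ∈ maximalIdeal A) {lam x lam' x' : A}
    (h1 : a + b * x = lam) (h2 : c + d * x = lam * x)
    (h1' : a + b * x' = lam') (h2' : c + d * x' = lam' * x') : x = x' ∧ lam = lam' := by
  have hu : IsUnit (b * (x + x') + (a - d)) := by
    apply isUnit_of_sub_one_mem'
    have : b * (x + x') + (a - d) - 1 = b * (x + x') + (a - 1) - d := by ring
    rw [this]
    exact (maximalIdeal A).sub_mem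
      ((maximalIdeal A).add_mem (Ideal.mul_mem_right _ _ hb) ha) hd
  have hzero : (x - x') * (b * (x + x') + (a - d)) = 0 := by
    subst h1 h1'
    linear_combination h2' - h2
  have hxx : x = x' := by
    obtain ⟨v, hv⟩ := hu
    rw [← hv] at hzero
    exact sub_eq_zero.mp ((Units.mul_left_eq_zero v).mp hzero)
  refine ⟨hxx, ?_⟩
  rw [← h1, ← h1', hxx]

/-- A local ring complete with respect to its maximal ideal is Henselian. -/
theorem henselianLocalRing_of_isAdicComplete [IsAdicComplete (maximalIdeal A) A] :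
    HenselianLocalRing A where
  is_henselian f hf a₀ h₁ h₂ :=
    HenselianRing.is_henselian (I := maximalIdeal A) f hf a₀ h₁ (h₂.map _)

/-- `exists_eigen` for complete local rings. -/
theorem exists_eigen_of_isAdicComplete [IsAdicComplete (maximalIdeal A) A] (a b c d : A)
    (ha : a - 1 ∈ maximalIdeal A) (hb : b ∈ maximalIdeal A) (hc : c ∈ maximalIdeal A)
    (hd : d ∈ maximalIdeal A) :
    ∃ lam x : A, lam - 1 ∈ maximalIdeal A ∧ x ∈ maximalIdeal A ∧
      a + b * x = lam ∧ c + d * x = lam * x :=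
  haveI := henselianLocalRing_of_isAdicComplete (A := A)
  exists_eigen a b c d ha hb hc hd

/-- Matrix form: for `M ≡ E₁₁` over a Henselian local ring there is `x ∈ 𝔪` such that conjugating
by `P = [[1, 0], [x, 1]]` kills the lower left entry: `(P⁻¹ * M * P) 1 0 = 0`, where
`P⁻¹ = [[1, 0], [-x, 1]]`. -/
theorem exists_conj_lower_left_zero [HenselianLocalRing A] (M : Matrix (Fin 2) (Fin 2) A)
    (h00 : M 0 0 - 1 ∈ maximalIdeal A) (h01 : M 0 1 ∈ maximalIdeal A)
    (h10 : M 1 0 ∈ maximalIdeal A) (h11 : M 1 1 ∈ maximalIdeal A) :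
    ∃ x : A, x ∈ maximalIdeal A ∧
      (!![1, 0; -x, 1] * M * !![1, 0; x, 1] : Matrix (Fin 2) (Fin 2) A) 1 0 = 0 := by
  obtain ⟨lam, x, -, hx, e1, e2⟩ := exists_eigen (M 0 0) (M 0 1) (M 1 0) (M 1 1) h00 h01 h10 h11
  refine ⟨x, hx, ?_⟩
  simp [Matrix.mul_apply, Fin.sum_univ_two, Matrix.vecMul, dotProduct]
  linear_combination e2 - x * e1

end Fermat.Agent.TeamA.Hensel2
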