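import Fermat.Agent.TeamA.Frame
set_option autoImplicit false
open scoped TensorProduct
open IsLocalRing Polynomial
namespace Fermat.Agent.TeamA.Rep
local notation "Γℚ" => (AlgebraicClosure ℚ ≃ₐ[ℚ] AlgebraicClosure ℚ)

section SubalgLocal
variable {𝒪 E : Type} [CommRing 𝒪] [IsLocalRing 𝒪] [CommRing E] [Algebra 𝒪 E]
variable {A : Type} [CommRing A] [IsLocalRing A] [Algebra 𝒪 A] [IsTestAlg 𝒪 A]

theorem isUnit_algebraMap_iff_testAlg (o : 𝒪) : IsUnit (algebraMap 𝒪 A o) ↔ IsUnit o :=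
  ⟨fun h => (IsTestAlg.isLocalHom (𝒪 := 𝒪) (A := A)).map_nonunit o h, fun h => h.map _⟩

/-- A subalgebra all of whose elements are "scalar + nilpotent", mapping to a test algebra,
is local. -/
theorem isLocalRing_subalgebra_of_nilp (T : Subalgebra 𝒪 E)
    (hT : ∀ x ∈ T, ∃ o : 𝒪, IsNilpotent (x - algebraMap 𝒪 E o)) (π : E →ₐ[𝒪] A) :
    IsLocalRing T := by
  have : Nontrivial T := by
    refine ⟨⟨0, 1, fun h => ?_⟩⟩
    have h1 : (π ((0 : T) : E)) = π ((1 : T) : E) := by rw [h]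
    simp at h1
  have key : ∀ x : T, ∀ o : 𝒪, IsNilpotent ((x : E) - algebraMap 𝒪 E o) → IsUnit o → IsUnit x := by
    intro x o hn ho
    have hn' : IsNilpotent (x - algebraMap 𝒪 T o) := by
      obtain ⟨n, hn⟩ := hn
      refine ⟨n, Subtype.ext ?_⟩
      simpa using hn
    have hu : IsUnit (algebraMap 𝒪 T o) := ho.map _
    have := hn'.isUnit_add_left_of_commute hu (Commute.all _ _)
    rwa [add_sub_cancel] at this
  apply IsLocalRing.of_isUnit_or_isUnit_one_sub_self
  intro x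
  obtain ⟨o, ho⟩ := hT x x.2
  by_cases hou : IsUnit o
  · exact Or.inl (key x o ho hou)
  · right
    have hou' : IsUnit (1 - o) := by
      have := IsLocalRing.isUnit_or_isUnit_one_sub_self o
      tauto
    apply key (1 - x) (1 - o) _ hou'
    have : ((1 - x : T) : E) - algebraMap 𝒪 E (1 - o) = -((x : E) - algebraMap 𝒪 E o) := by
      simp
    rw [this]
    exact ho.neg

/-- ... and it is a test algebra. -/
theorem isTestAlg_subalgebra_of_nilp (T : Subalgebra 𝒪 E) [IsLocalRing T]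
    (hT : ∀ x ∈ T, ∃ o : 𝒪, IsNilpotent (x - algebraMap 𝒪 E o)) (π : E →ₐ[𝒪] A) :
    IsTestAlg 𝒪 T := by
  refine ⟨⟨fun o ho => ?_⟩, fun x => ?_⟩
  · have h1 : IsUnit (π ((algebraMap 𝒪 T o : T) : E)) := (ho.map T.val).map π
    have h2 : π ((algebraMap 𝒪 T o : T) : E) = algebraMap 𝒪 A o := by
      rw [Subalgebra.coe_algebraMap, AlgHom.commutes]
    rw [h2] at h1
    exact (isUnit_algebraMap_iff_testAlg o).mp h1
  · obtain ⟨y, rfl⟩ := residue_surjective x
    obtain ⟨o, ho⟩ := hT y y.2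
    refine ⟨o, ?_⟩
    show residue T (algebraMap 𝒪 T o) = residue T y
    symm
    rw [← sub_eq_zero, ← map_sub, residue_eq_zero_iff]
    have hn : IsNilpotent (y - algebraMap 𝒪 T o) := by
      obtain ⟨n, hn⟩ := ho
      refine ⟨n, Subtype.ext ?_⟩
      simpa using hn
    rw [mem_maximalIdeal, mem_nonunits_iff]
    intro hu
    obtain ⟨n, hn⟩ := hn
    have := hu.pow n
    rw [hn] at this
    exact not_isUnit_zero this

end SubalgLocal

section ArtinianFacts
variable {𝒪 : Type} [CommRing 𝒪] [IsLocalRing 𝒪]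
variable {A : Type} [CommRing A] [IsLocalRing A] [Algebra 𝒪 A] [IsTestAlg 𝒪 A]

theorem isNilpotent_of_mem_maximalIdeal [IsArtinianRing A] {x : A} (hx : x ∈ maximalIdeal A) :
    IsNilpotent x := by
  have h := IsArtinianRing.isNilpotent_jacobson_bot (R := A)
  rw [IsLocalRing.jacobson_eq_maximalIdeal ⊥ bot_ne_top] at h
  obtain ⟨n, hn⟩ := h
  refine ⟨n, ?_⟩
  have : x ^ n ∈ maximalIdeal A ^ n := Ideal.pow_mem_pow hx n
  rw [hn] at this
  exact this

theorem exists_sub_isNilpotent [IsArtinianRing A] (x : A) :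
    ∃ o : 𝒪, IsNilpotent (x - algebraMap 𝒪 A o) := by
  obtain ⟨o, ho⟩ := exists_algebraMap_sub_mem 𝒪 A x
  exact ⟨o, isNilpotent_of_mem_maximalIdeal ho⟩

theorem finite_of_isArtinianRing [Finite (ResidueField 𝒪)] [IsArtinianRing A] : Finite A := by
  have : Finite (ResidueField A) :=
    Finite.of_surjective _ (kappa_bijective 𝒪 A).2
  have h := IsArtinianRing.isNilpotent_jacobson_bot (R := A)
  rw [IsLocalRing.jacobson_eq_maximalIdeal ⊥ bot_ne_top] at h
  obtain ⟨n, hn⟩ := h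
  have : Finite (A ⧸ (⊥ : Ideal A)) :=
    IsLocalRing.finite_quotient_iff.mpr ⟨n, by rw [hn]; rfl⟩
  exact Finite.of_equiv _ (RingEquiv.quotientBot A).toEquiv

instance subalgebra_isLocalRing [IsArtinianRing A] (T : Subalgebra 𝒪 A) : IsLocalRing T :=
  isLocalRing_subalgebra_of_nilp T (fun x _ => exists_sub_isNilpotent x) (AlgHom.id 𝒪 A)

instance subalgebra_isTestAlg [IsArtinianRing A] (T : Subalgebra 𝒪 A) : IsTestAlg 𝒪 T :=
  isTestAlg_subalgebra_of_nilp T (fun x _ => exists_sub_isNilpotent x) (AlgHom.id 𝒪 A)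

end ArtinianFacts
end Fermat.Agent.TeamA.Rep
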