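/-
TeamA (S53): adic continuity of matrix functions is stable under conjugation.
-/
import Fermat.Agent.TeamA.MatRep

set_option autoImplicit false

open IsLocalRing

namespace Fermat.Agent.TeamA.Rep

local notation "Γℚ" => (AlgebraicClosure ℚ ≃ₐ[ℚ] AlgebraicClosure ℚ)

/-- Entries of `Q * Z * P` lie in an ideal containing all entries of `Z`. -/
theorem mul_mul_apply_mem_of_forall_mem {A : Type} [CommRing A] (I : Ideal A)
    (P Q Z : Matrix (Fin 2) (Fin 2) A) (hZ : ∀ i j, Z i j ∈ I) (i j : Fin 2) :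
    (Q * Z * P) i j ∈ I := by
  rw [Matrix.mul_apply]
  refine Ideal.sum_mem _ fun k _ => Ideal.mul_mem_right _ _ ?_
  rw [Matrix.mul_apply]
  exact Ideal.sum_mem _ fun l _ => Ideal.mul_mem_left _ _ (hZ l k)

/-- Adic continuity is preserved by conjugation. -/
theorem MatCont.conj {A : Type} [CommRing A] [IsLocalRing A]
    {r : Γℚ → Matrix (Fin 2) (Fin 2) A} (h : MatCont r) (P Q : Matrix (Fin 2) (Fin 2) A)
    (hQP : Q * P = 1) : MatCont (fun g => Q * r g * P) := by
  intro n
  obtain ⟨L, hL, hr⟩ := h n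
  refine ⟨L, hL, fun σ hσ i j => ?_⟩
  have e : Q * r σ * P - 1 = Q * (r σ - 1) * P := by
    rw [Matrix.mul_sub, Matrix.sub_mul, mul_one, hQP]
  rw [e]
  exact mul_mul_apply_mem_of_forall_mem _ P Q _ (hr σ hσ) i j

end Fermat.Agent.TeamA.Rep
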