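import Fermat.Agent.TeamA.Good
set_option autoImplicit false
open scoped TensorProduct
open IsLocalRing Polynomial
namespace Fermat.Agent.TeamA.Rep
local notation "Γℚ" => (AlgebraicClosure ℚ ≃ₐ[ℚ] AlgebraicClosure ℚ)

section Descent
variable {𝒪 : Type} [CommRing 𝒪] [IsLocalRing 𝒪]
variable {ρbar : ResidualGaloisRep (ResidueField 𝒪)} {Fr : Frame 𝒪 ρbar}
variable {𝒟 : ∀ ⦃A : Type⦄ [CommRing A] [IsLocalRing A] [Algebra 𝒪 A], GaloisRepAdic A → Prop}
variable {A : Type} [CommRing A] [IsLocalRing A] [Algebra 𝒪 A] [IsTestAlg 𝒪 A] [IsArtinianRing A]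
variable {B : Type} [CommRing B] [IsLocalRing B] [Algebra 𝒪 B] [IsTestAlg 𝒪 B] [IsArtinianRing B]

theorem exists_pow_maximalIdeal_eq_bot (A : Type) [CommRing A] [IsLocalRing A] [IsArtinianRing A] :
    ∃ c : ℕ, maximalIdeal A ^ c = ⊥ := by
  have h := IsArtinianRing.isNilpotent_jacobson_bot (R := A)
  rw [IsLocalRing.jacobson_eq_maximalIdeal ⊥ bot_ne_top] at h
  obtain ⟨n, hn⟩ := h
  exact ⟨n, hn⟩

theorem mem_maximalIdeal_of_map_mem {A B : Type} [CommRing A] [IsLocalRing A] [CommRing B]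
    [IsLocalRing B] (φ : A →+* B) {a : A}
    (h : φ a ∈ maximalIdeal B) : a ∈ maximalIdeal A := by
  rw [mem_maximalIdeal, mem_nonunits_iff] at h ⊢
  exact fun hu => h (hu.map φ)

/-- A matrix function which is trivial on an open subgroup is continuous. -/
theorem matCont_of_eq_one {r : Γℚ → Matrix (Fin 2) (Fin 2) A}
    (h : ∃ L : IntermediateField ℚ (AlgebraicClosure ℚ), FiniteDimensional ℚ L ∧
      ∀ σ : Γℚ, (∀ x ∈ L, σ x = x) → r σ = 1) : MatCont r := by
  obtain ⟨L, hL, h⟩ := h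
  intro n
  refine ⟨L, hL, fun σ hσ i j => ?_⟩
  rw [h σ hσ, sub_self]
  exact Ideal.zero_mem _

/-- A continuous matrix function over an Artinian ring is trivial on an open subgroup. -/
theorem exists_eq_one_of_matCont {r : Γℚ → Matrix (Fin 2) (Fin 2) A} (h : MatCont r) :
    ∃ L : IntermediateField ℚ (AlgebraicClosure ℚ), FiniteDimensional ℚ L ∧
      ∀ σ : Γℚ, (∀ x ∈ L, σ x = x) → r σ = 1 := by
  obtain ⟨c, hc⟩ := exists_pow_maximalIdeal_eq_bot A
  obtain ⟨L, hL, h⟩ := h c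
  refine ⟨L, hL, fun σ hσ => ?_⟩
  ext i j
  have := h σ hσ i j
  rw [hc, Ideal.mem_bot, Matrix.sub_apply, sub_eq_zero] at this
  exact this

theorem IsGood.of_injective (h𝒟 : GaloisRep.IsDeformationCondition 𝒪 𝒟)
    (φ : A →ₐ[𝒪] B) (hφ : Function.Injective φ) (r : Γℚ → Matrix (Fin 2) (Fin 2) A)
    (h : IsGood Fr 𝒟 B (fun g => (r g).map φ)) : IsGood Fr 𝒟 A r := by
  have hφl := isLocalHom_of_isTestAlg φ
  have hmapinj : Function.Injective (fun M : Matrix (Fin 2) (Fin 2) A => M.map φ) :=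
    Matrix.map_injective hφ
  have hone : r 1 = 1 := by
    apply hmapinj
    show (r 1).map φ = (1 : Matrix (Fin 2) (Fin 2) A).map φ
    rw [h.map_one, Matrix.map_one _ (_root_.map_zero φ) (_root_.map_one φ)]
  have hmul : ∀ g g', r (g * g') = r g * r g' := by
    intro g g'
    apply hmapinj
    show (r (g * g')).map φ = (r g * r g').map φ
    rw [h.map_mul, Matrix.map_mul]
  let rh : Γℚ →* Matrix (Fin 2) (Fin 2) A := ⟨⟨r, hone⟩, hmul⟩
  have hcont : MatCont rh := by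
    apply matCont_of_eq_one
    obtain ⟨L, hL, hL'⟩ := exists_eq_one_of_matCont h.matCont
    refine ⟨L, hL, fun σ hσ => ?_⟩
    apply hmapinj
    show (r σ).map φ = (1 : Matrix (Fin 2) (Fin 2) A).map φ
    rw [hL' σ hσ, Matrix.map_one _ (_root_.map_zero φ) (_root_.map_one φ)]
  obtain ⟨h1, h2, ρ, b, hb, hD⟩ := h
  refine ⟨?_, ?_, matRep rh hcont, stdBasis rh hcont, fun g => matOf_matRep rh hcont g, ?_⟩
  · intro g i j
    apply mem_maximalIdeal_of_map_mem (φ : A →+* B)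
    have := h1 g i j
    change φ (r g i j) - algebraMap 𝒪 B (Fr.Rt g i j) ∈ maximalIdeal B at this
    show φ (r g i j - algebraMap 𝒪 A (Fr.Rt g i j)) ∈ maximalIdeal B
    rwa [map_sub, AlgHom.commutes]
  · obtain ⟨n1, n2, n3⟩ := h2
    rw [evalFS_map, Matrix.map_apply] at n1 n2 n3
    refine ⟨hφ (by rw [n1, _root_.map_zero]), hφ (by rw [n2, _root_.map_zero]),
      hφ (by rw [n3, _root_.map_one])⟩
  · apply h𝒟.of_baseChangeAlong_injective isArtinianTestAlgebra_of isArtinianTestAlgebra_of φ hφl hφ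
    refine h𝒟.of_isEquiv isArtinianTestAlgebra_of ?_ hD
    apply isEquiv_of_matOf_eq ρ _ b (bcBasis (φ : A →+* B) hφl (matRep rh hcont) (stdBasis rh hcont))
    intro g
    rw [hb, matOf_baseChangeAlong, matOf_matRep]
    rfl

end Descent
end Fermat.Agent.TeamA.Rep
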