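import Fermat.Agent.TeamA.Artin
set_option autoImplicit false
open scoped TensorProduct
open IsLocalRing Polynomial
namespace Fermat.Agent.TeamA.Rep
local notation "Γℚ" => (AlgebraicClosure ℚ ≃ₐ[ℚ] AlgebraicClosure ℚ)

section FibProd
variable (𝒪 : Type) [CommRing 𝒪] [IsLocalRing 𝒪]
variable (A : Type) [CommRing A] [IsLocalRing A] [Algebra 𝒪 A] [IsTestAlg 𝒪 A]
variable (B : Type) [CommRing B] [IsLocalRing B] [Algebra 𝒪 B] [IsTestAlg 𝒪 B]

/-- The fibre product `A ×ₖ B` as a subalgebra of `A × B`. -/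
def fibProd : Subalgebra 𝒪 (A × B) where
  carrier := {x | ∃ o : 𝒪, x.1 - algebraMap 𝒪 A o ∈ maximalIdeal A ∧
    x.2 - algebraMap 𝒪 B o ∈ maximalIdeal B}
  mul_mem' := by
    rintro x y ⟨o, h1, h2⟩ ⟨o', h1', h2'⟩
    refine ⟨o * o', ?_, ?_⟩
    · have : (x * y).1 - algebraMap 𝒪 A (o * o')
          = x.1 * (y.1 - algebraMap 𝒪 A o') + (x.1 - algebraMap 𝒪 A o) * algebraMap 𝒪 A o' := by
        rw [map_mul, Prod.fst_mul]; ring
      rw [this]
      exact (maximalIdeal A).add_mem (Ideal.mul_mem_left _ _ h1') (Ideal.mul_mem_right _ _ h1)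
    · have : (x * y).2 - algebraMap 𝒪 B (o * o')
          = x.2 * (y.2 - algebraMap 𝒪 B o') + (x.2 - algebraMap 𝒪 B o) * algebraMap 𝒪 B o' := by
        rw [map_mul, Prod.snd_mul]; ring
      rw [this]
      exact (maximalIdeal B).add_mem (Ideal.mul_mem_left _ _ h2') (Ideal.mul_mem_right _ _ h2)
  add_mem' := by
    rintro x y ⟨o, h1, h2⟩ ⟨o', h1', h2'⟩
    refine ⟨o + o', ?_, ?_⟩
    · have : (x + y).1 - algebraMap 𝒪 A (o + o')
          = (x.1 - algebraMap 𝒪 A o) + (y.1 - algebraMap 𝒪 A o') := by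
        rw [map_add, Prod.fst_add]; ring
      rw [this]
      exact (maximalIdeal A).add_mem h1 h1'
    · have : (x + y).2 - algebraMap 𝒪 B (o + o')
          = (x.2 - algebraMap 𝒪 B o) + (y.2 - algebraMap 𝒪 B o') := by
        rw [map_add, Prod.snd_add]; ring
      rw [this]
      exact (maximalIdeal B).add_mem h2 h2'
  algebraMap_mem' := by
    intro o
    refine ⟨o, ?_, ?_⟩
    · rw [Prod.algebraMap_apply]; simp
    · rw [Prod.algebraMap_apply]; simp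

variable {𝒪 A B}

theorem mem_fibProd_iff (x : A × B) : x ∈ fibProd 𝒪 A B ↔
    ∃ o : 𝒪, x.1 - algebraMap 𝒪 A o ∈ maximalIdeal A ∧ x.2 - algebraMap 𝒪 B o ∈ maximalIdeal B :=
  Iff.rfl

variable [IsArtinianRing A] [IsArtinianRing B]

theorem fibProd_nilp : ∀ x ∈ fibProd 𝒪 A B, ∃ o : 𝒪, IsNilpotent (x - algebraMap 𝒪 (A × B) o) := by
  rintro x ⟨o, h1, h2⟩
  refine ⟨o, ?_⟩
  obtain ⟨n, hn⟩ := isNilpotent_of_mem_maximalIdeal h1
  obtain ⟨m, hm⟩ := isNilpotent_of_mem_maximalIdeal h2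
  refine ⟨n + m, Prod.ext ?_ ?_⟩
  · show (x.1 - algebraMap 𝒪 A o) ^ (n + m) = 0
    rw [pow_add, hn, zero_mul]
  · show (x.2 - algebraMap 𝒪 B o) ^ (n + m) = 0
    rw [pow_add, hm, mul_zero]

instance fibProd_isLocalRing : IsLocalRing (fibProd 𝒪 A B) :=
  isLocalRing_subalgebra_of_nilp _ fibProd_nilp (AlgHom.fst 𝒪 A B)

instance fibProd_isTestAlg : IsTestAlg 𝒪 (fibProd 𝒪 A B) :=
  isTestAlg_subalgebra_of_nilp _ fibProd_nilp (AlgHom.fst 𝒪 A B)

/-- first projection -/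
def fibFst : fibProd 𝒪 A B →ₐ[𝒪] A := (AlgHom.fst 𝒪 A B).comp (fibProd 𝒪 A B).val
/-- second projection -/
def fibSnd : fibProd 𝒪 A B →ₐ[𝒪] B := (AlgHom.snd 𝒪 A B).comp (fibProd 𝒪 A B).val

@[simp] theorem fibFst_apply (x : fibProd 𝒪 A B) : fibFst x = (x : A × B).1 := rfl
@[simp] theorem fibSnd_apply (x : fibProd 𝒪 A B) : fibSnd x = (x : A × B).2 := rfl

theorem fib_injective : Function.Injective (fun x : fibProd 𝒪 A B => (fibFst x, fibSnd x)) := by
  intro x y h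
  exact Subtype.ext h

instance fibProd_finite [Finite A] [Finite B] : Finite (fibProd 𝒪 A B) :=
  Finite.of_injective _ fib_injective

end FibProd
end Fermat.Agent.TeamA.Rep
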