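import Fermat.Agent.TeamA.ResK
set_option autoImplicit false
open scoped TensorProduct
open IsLocalRing Polynomial
namespace Fermat.Agent.TeamA.Rep
local notation "Γℚ" => (AlgebraicClosure ℚ ≃ₐ[ℚ] AlgebraicClosure ℚ)

section Good
variable {𝒪 : Type} [CommRing 𝒪] [IsLocalRing 𝒪]
variable {ρbar : ResidualGaloisRep (ResidueField 𝒪)} (Fr : Frame 𝒪 ρbar)
variable (𝒟 : ∀ ⦃A : Type⦄ [CommRing A] [IsLocalRing A] [Algebra 𝒪 A], GaloisRepAdic A → Prop)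

/-- The rigidified deformation functor: normalized lifts of type `𝒟`. -/
def IsGood (A : Type) [CommRing A] [IsLocalRing A] [Algebra 𝒪 A]
    (r : Γℚ → Matrix (Fin 2) (Fin 2) A) : Prop :=
  Lifts Fr.Rt r ∧ Normalized Fr.α Fr.β r ∧
    ∃ (ρ : GaloisRepAdic A) (b : Module.Basis (Fin 2) A ρ.V), (∀ g, matOf ρ b g = r g) ∧ 𝒟 ρ

variable {Fr 𝒟}
variable {A : Type} [CommRing A] [IsLocalRing A] [Algebra 𝒪 A]

theorem IsGood.map_one {r : Γℚ → Matrix (Fin 2) (Fin 2) A} (h : IsGood Fr 𝒟 A r) : r 1 = 1 := by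
  obtain ⟨_, _, ρ, b, hb, _⟩ := h
  rw [← hb, matOf_one]

theorem IsGood.map_mul {r : Γℚ → Matrix (Fin 2) (Fin 2) A} (h : IsGood Fr 𝒟 A r) (g g' : Γℚ) :
    r (g * g') = r g * r g' := by
  obtain ⟨_, _, ρ, b, hb, _⟩ := h
  rw [← hb, ← hb, ← hb, matOf_mul]

theorem IsGood.matCont {r : Γℚ → Matrix (Fin 2) (Fin 2) A} (h : IsGood Fr 𝒟 A r) : MatCont r := by
  obtain ⟨_, _, ρ, b, hb, _⟩ := h
  have : r = matOf ρ b := funext fun g => (hb g).symm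
  rw [this]
  exact matCont_matOf ρ b

variable [IsTestAlg 𝒪 A] [IsArtinianRing A]
variable {B : Type} [CommRing B] [IsLocalRing B] [Algebra 𝒪 B] [IsTestAlg 𝒪 B] [IsArtinianRing B]

theorem IsGood.map (h𝒟 : GaloisRep.IsDeformationCondition 𝒪 𝒟)
    {r : Γℚ → Matrix (Fin 2) (Fin 2) A} (h : IsGood Fr 𝒟 A r) (φ : A →ₐ[𝒪] B) :
    IsGood Fr 𝒟 B (fun g => (r g).map φ) := by
  obtain ⟨h1, h2, ρ, b, hb, hD⟩ := h
  have hφ := isLocalHom_of_isTestAlg φ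
  refine ⟨h1.comp φ, h2.map φ, ρ.baseChangeAlong (φ : A →+* B) hφ, bcBasis (φ : A →+* B) hφ ρ b,
    fun g => ?_, ?_⟩
  · rw [matOf_baseChangeAlong, hb]; rfl
  · exact h𝒟.baseChangeAlong isArtinianTestAlgebra_of isArtinianTestAlgebra_of φ hφ hD

end Good
end Fermat.Agent.TeamA.Rep
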