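import Fermat.Agent.TeamA.QuotPow
set_option autoImplicit false
open scoped TensorProduct
open IsLocalRing Polynomial
namespace Fermat.Agent.TeamA.Rep
local notation "Γℚ" => (AlgebraicClosure ℚ ≃ₐ[ℚ] AlgebraicClosure ℚ)

section Limit
variable {𝒪 : Type} [CommRing 𝒪] [IsLocalRing 𝒪] [Finite (ResidueField 𝒪)]
variable {ρbar : ResidualGaloisRep (ResidueField 𝒪)} {Fr : Frame 𝒪 ρbar}
variable {𝒟 : ∀ ⦃A : Type⦄ [CommRing A] [IsLocalRing A] [Algebra 𝒪 A], GaloisRepAdic A → Prop}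
variable {R : Type} [CommRing R] [IsLocalRing R] [IsNoetherianRing R]
  [IsAdicComplete (maximalIdeal R) R] [Algebra 𝒪 R] [IsTestAlg 𝒪 R]

omit [Finite (ResidueField 𝒪)] [IsNoetherianRing R] [IsTestAlg 𝒪 R] in
theorem matrix_eq_of_forall_map_eq {M N : Matrix (Fin 2) (Fin 2) R}
    (h : ∀ c : ℕ, M.map (Ideal.Quotient.mkₐ 𝒪 (maximalIdeal R ^ (c + 1))) =
      N.map (Ideal.Quotient.mkₐ 𝒪 (maximalIdeal R ^ (c + 1)))) : M = N := by
  refine Matrix.ext fun i j => ?_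
  apply eq_of_forall_mk_eq (𝒪 := 𝒪)
  intro c
  exact congrFun (congrFun (h c) i) j

/-- The hypothesis: all finite quotients (indeed all finite specialisations) are good. -/
def AllGood (Fr : Frame 𝒪 ρbar)
    (𝒟 : ∀ ⦃A : Type⦄ [CommRing A] [IsLocalRing A] [Algebra 𝒪 A], GaloisRepAdic A → Prop)
    (r : Γℚ → Matrix (Fin 2) (Fin 2) R) : Prop :=
  ∀ (B : Type) [CommRing B] [IsLocalRing B] [Algebra 𝒪 B] [IsTestAlg 𝒪 B] [Finite B]
    (q : R →ₐ[𝒪] B), IsGood Fr 𝒟 B (fun g => (r g).map q)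

variable {r : Γℚ → Matrix (Fin 2) (Fin 2) R}

theorem AllGood.quot (h : AllGood Fr 𝒟 r) (c : ℕ) :
    IsGood Fr 𝒟 (R ⧸ maximalIdeal R ^ (c + 1))
      (fun g => (r g).map (Ideal.Quotient.mkₐ 𝒪 (maximalIdeal R ^ (c + 1)))) := by
  haveI := quotPow_finite 𝒪 (A := R) c
  exact h _ _

theorem AllGood.map_one (h : AllGood Fr 𝒟 r) : r 1 = 1 := by
  apply matrix_eq_of_forall_map_eq (𝒪 := 𝒪)
  intro c
  rw [(h.quot c).map_one, Matrix.map_one _ (_root_.map_zero _) (_root_.map_one _)]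

theorem AllGood.map_mul (h : AllGood Fr 𝒟 r) (g g' : Γℚ) : r (g * g') = r g * r g' := by
  apply matrix_eq_of_forall_map_eq (𝒪 := 𝒪)
  intro c
  rw [(h.quot c).map_mul, Matrix.map_mul]

theorem AllGood.lifts (h : AllGood Fr 𝒟 r) : Lifts Fr.Rt r := by
  intro g i j
  have := (h.quot 0).1 g i j
  change Ideal.Quotient.mkₐ 𝒪 (maximalIdeal R ^ (0 + 1)) (r g i j) - algebraMap 𝒪 _ (Fr.Rt g i j)
    ∈ _ at this
  rw [← AlgHom.commutes (Ideal.Quotient.mkₐ 𝒪 (maximalIdeal R ^ (0 + 1))), ← map_sub] at this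
  exact mem_maximalIdeal_of_map_mem (B := R ⧸ maximalIdeal R ^ (0 + 1))
    ((Ideal.Quotient.mkₐ 𝒪 (maximalIdeal R ^ (0 + 1)) : R →ₐ[𝒪] _) : R →+* _) this

theorem AllGood.normalized (h : AllGood Fr 𝒟 r) : Normalized Fr.α Fr.β r := by
  refine ⟨?_, ?_, ?_⟩
  · apply eq_of_forall_mk_eq (𝒪 := 𝒪)
    intro c
    have := (h.quot c).2.1.1
    rw [evalFS_map, Matrix.map_apply] at this
    rw [this, _root_.map_zero]
  · apply eq_of_forall_mk_eq (𝒪 := 𝒪)
    intro c
    have := (h.quot c).2.1.2.1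
    rw [evalFS_map, Matrix.map_apply] at this
    rw [this, _root_.map_zero]
  · apply eq_of_forall_mk_eq (𝒪 := 𝒪)
    intro c
    have := (h.quot c).2.1.2.2
    rw [evalFS_map, Matrix.map_apply] at this
    rw [this, _root_.map_one]

theorem AllGood.matCont (h : AllGood Fr 𝒟 r) : MatCont r := by
  intro n
  cases n with
  | zero =>
    refine ⟨⊥, inferInstance, fun σ _ i j => ?_⟩
    rw [pow_zero, Ideal.one_eq_top]
    exact Submodule.mem_top
  | succ c =>
    haveI := quotPow_finite 𝒪 (A := R) c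
    obtain ⟨L, hL, hL'⟩ := exists_eq_one_of_matCont (h.quot c).matCont
    refine ⟨L, hL, fun σ hσ i j => ?_⟩
    have := congrFun (congrFun (hL' σ hσ) i) j
    rw [Matrix.map_apply, Ideal.Quotient.mkₐ_eq_mk] at this
    rw [Matrix.sub_apply, ← Ideal.Quotient.eq, this]
    by_cases hij : i = j
    · subst hij; simp
    · simp [hij]

/-- the limit representation -/
noncomputable def AllGood.hom (h : AllGood Fr 𝒟 r) : Γℚ →* Matrix (Fin 2) (Fin 2) R :=
  ⟨⟨r, h.map_one⟩, h.map_mul⟩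

theorem AllGood.hom_apply (h : AllGood Fr 𝒟 r) (g : Γℚ) : h.hom g = r g := rfl

theorem AllGood.matCont_hom (h : AllGood Fr 𝒟 r) : MatCont h.hom := h.matCont

/-- the limit representation -/
noncomputable def AllGood.rep (h : AllGood Fr 𝒟 r) : GaloisRepAdic R := matRep h.hom h.matCont_hom

theorem AllGood.isOfType (h𝒟 : GaloisRep.IsDeformationCondition 𝒪 𝒟) (h : AllGood Fr 𝒟 r) :
    𝒟 h.rep := by
  rw [h𝒟.iff_forall_surjective IsTestAlg.isLocalHom IsTestAlg.residue_surjective]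
  intro B _ _ _ hB q hq _
  haveI := isTestAlg_of_isArtinianTestAlgebra hB
  haveI := hB.isArtinian
  haveI : Finite B := finite_of_isArtinianRing (𝒪 := 𝒪) (A := B)
  obtain ⟨_, _, ρ', b', hb', hD'⟩ := h B q
  refine h𝒟.of_isEquiv hB ?_ hD'
  apply isEquiv_of_matOf_eq ρ' _ b' (bcBasis _ hq h.rep (stdBasis h.hom h.matCont_hom))
  intro g
  rw [hb', matOf_baseChangeAlong]
  unfold AllGood.rep
  rw [matOf_matRep]
  rfl

theorem AllGood.residual_isEquiv (h : AllGood Fr 𝒟 r) :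
    h.rep.residual.IsEquiv (ρbar.baseChangeAlong (ResidueField.map (algebraMap 𝒪 R))) := by
  apply residual_isEquiv_of_lifts Fr h.rep (stdBasis h.hom h.matCont_hom)
  have : matOf h.rep (stdBasis h.hom h.matCont_hom) = r := by
    funext g
    unfold AllGood.rep
    rw [matOf_matRep]
    rfl
  rw [this]
  exact h.lifts

end Limit
end Fermat.Agent.TeamA.Rep
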