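import Fermat.Agent.TeamA.ProRepSpec
import Fermat.Agent.TeamA.CompleteLift

/-!
# The universal property of a pro-representing object, for complete Noetherian test algebras
-/

set_option autoImplicit false
set_option linter.style.haveILetI false
set_option linter.unusedSectionVars false

open IsLocalRing GaloisRep

namespace Fermat.Agent.TeamA.Rep

open Fermat.Agent.TeamA

variable {𝒪 : Type} [CommRing 𝒪] [IsLocalRing 𝒪] [Finite (ResidueField 𝒪)] {ι : Type}
  {D : RigidFunctor 𝒪 ι}

/-- The truncations `A ⧸ 𝔪 ^ (c + 1)` of a Noetherian test algebra are finite test algebras. -/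
theorem isTestAlg_quotient_pow_succ (A : Type) [CommRing A] [IsLocalRing A] [Algebra 𝒪 A]
    [IsTestAlg 𝒪 A] (c : ℕ) :
    haveI := isLocalRing_quotient_pow (A := A) (Nat.succ_ne_zero c)
    IsTestAlg 𝒪 (A ⧸ maximalIdeal A ^ (c + 1)) := by
  haveI := isLocalRing_quotient_pow (A := A) (Nat.succ_ne_zero c)
  exact ⟨isLocalHom_algebraMap_quotient_pow IsTestAlg.isLocalHom (Nat.succ_ne_zero c),
    residue_surjective_quotient_pow IsTestAlg.residue_surjective (Nat.succ_ne_zero c)⟩

theorem finite_quotient_pow_succ (A : Type) [CommRing A] [IsLocalRing A] [Algebra 𝒪 A]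
    [IsTestAlg 𝒪 A] [IsNoetherianRing A] (c : ℕ) :
    Finite (A ⧸ maximalIdeal A ^ (c + 1)) := by
  haveI : Finite (ResidueField A) :=
    finite_residueField_of_residue_surjective (𝒪 := 𝒪) IsTestAlg.isLocalHom IsTestAlg.residue_surjective
  exact finite_quotient_pow (c + 1)

/-- **Universal property for complete Noetherian test algebras.** If `v : ι → A` is such that
all its truncations modulo `𝔪 ^ (c + 1)` are points of the functor, then there is a unique
`φ : R →ₐ[𝒪] A` with `φ ∘ u = v`. -/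
theorem ProRep.existsUnique_of_complete (P : ProRep D)
    (A : Type) [CommRing A] [IsLocalRing A] [IsNoetherianRing A]
    [IsAdicComplete (maximalIdeal A) A] [Algebra 𝒪 A] [IsTestAlg 𝒪 A] (v : ι → A)
    (hv : ∀ c : ℕ, @RigidFunctor.G 𝒪 _ _ ι D (A ⧸ maximalIdeal A ^ (c + 1)) _
      (isLocalRing_quotient_pow (Nat.succ_ne_zero c)) _
      (fun i => Ideal.Quotient.mk _ (v i))) :
    ∃! φ : P.R →ₐ[𝒪] A, ∀ i, φ (P.u i) = v i := by
  -- level maps
  have hlev : ∀ c : ℕ, ∃! φ : P.R →ₐ[𝒪] A ⧸ maximalIdeal A ^ (c + 1),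
      ∀ i, φ (P.u i) = Ideal.Quotient.mk _ (v i) := by
    intro c
    haveI := isLocalRing_quotient_pow (A := A) (Nat.succ_ne_zero c)
    haveI := isTestAlg_quotient_pow_succ (𝒪 := 𝒪) A c
    haveI := finite_quotient_pow_succ (𝒪 := 𝒪) A c
    exact P.universal _ _ (hv c)
  choose φc hφc hφcu using hlev
  -- the compatible family, indexed by all `c`
  let f : ∀ c : ℕ, P.R →ₐ[𝒪] A ⧸ maximalIdeal A ^ c := fun c =>
    match c with
    | 0 => (Ideal.Quotient.factorₐ 𝒪 (Ideal.pow_le_pow_right (Nat.le_succ 0))).comp (φc 0)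
    | c + 1 => φc c
  have hsucc : ∀ c : ℕ, (Ideal.Quotient.factorₐ 𝒪
      (Ideal.pow_le_pow_right (Nat.le_succ (c + 1)))).comp (φc (c + 1)) = φc c := by
    intro c
    apply hφcu c
    intro i
    rw [AlgHom.comp_apply, hφc (c + 1) i]
    rfl
  have hf : ∀ c, (Ideal.Quotient.factorₐ 𝒪 (Ideal.pow_le_pow_right (Nat.le_succ c))).comp
      (f (c + 1)) = f c := by
    intro c
    cases c with
    | zero => rfl
    | succ c => exact hsucc c
  obtain ⟨Φ, hΦ, hΦu⟩ := existsUnique_algHom_of_compatible (maximalIdeal A) f hf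
  have hΦ' : ∀ c, (Ideal.Quotient.mkₐ 𝒪 (maximalIdeal A ^ (c + 1))).comp Φ = φc c :=
    fun c => hΦ (c + 1)
  refine ⟨Φ, ?_, ?_⟩
  · intro i
    -- Hausdorffness
    rw [← sub_eq_zero]
    apply IsHausdorff.haus (inferInstance : IsHausdorff (maximalIdeal A) A)
    intro n
    rw [SModEq.zero, smul_eq_mul, Ideal.mul_top]
    have h1 : maximalIdeal A ^ (n + 1) ≤ maximalIdeal A ^ n := Ideal.pow_le_pow_right (Nat.le_succ n)
    apply h1
    rw [← Ideal.Quotient.eq]
    have h2 := congrArg (fun g => g (P.u i)) (hΦ' n)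
    simp only [AlgHom.comp_apply, Ideal.Quotient.mkₐ_eq_mk] at h2
    rw [h2, hφc n i]
  · intro Φ' hΦ'u
    apply hΦu
    have hlevel : ∀ c, (Ideal.Quotient.mkₐ 𝒪 (maximalIdeal A ^ (c + 1))).comp Φ' = φc c := by
      intro c
      apply hφcu c
      intro i
      rw [AlgHom.comp_apply, hΦ'u i]
      rfl
    intro c
    cases c with
    | zero =>
      change _ = (Ideal.Quotient.factorₐ 𝒪 (Ideal.pow_le_pow_right (Nat.le_succ 0))).comp (φc 0)
      rw [← hlevel 0]
      rfl
    | succ c => exact hlevel c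

end Fermat.Agent.TeamA.Rep
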