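/-
TeamA (S53): first steps of the abstract pro-representability theorem `nonempty_proRep`
(see `ProRepSpec.lean`):
* (T)   a finite separating set of indices for the points over the dual numbers;
* (Gen) for a point `v` over a finite test algebra `A`, every `v i` lies in the subalgebra
        generated by the `v s`, `s ∈ Sg`;
* (Min) a nonempty family of ideals closed under `⊓`, all containing an ideal of finite index,
        has a least element.
All declarations live in `Fermat.Agent.TeamA.ProRepGen`.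
-/
import Fermat.Agent.TeamA.ProRepSpec
import Fermat.Agent.TeamA.Generation
import Fermat.Agent.TeamA.ArtinTest

set_option autoImplicit false
set_option linter.style.haveILetI false

open IsLocalRing
open Fermat.Agent.TeamA Fermat.Agent.TeamA.Rep

namespace Fermat.Agent.TeamA.ProRepGen

section Min

/-- (Min) A nonempty `⊓`-closed family of ideals, all containing an ideal `I` of finite index,
has a least element. -/
theorem exists_least_ideal {S : Type*} [CommRing S] (I : Ideal S) [Finite (S ⧸ I)]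
    (K : Set (Ideal S)) (hne : K.Nonempty) (hI : ∀ J ∈ K, I ≤ J)
    (hinf : ∀ J₁ ∈ K, ∀ J₂ ∈ K, J₁ ⊓ J₂ ∈ K) : ∃ J ∈ K, ∀ J' ∈ K, J ≤ J' := by
  classical
  have hfin : K.Finite := by
    refine Set.Finite.of_finite_image
      (f := fun J : Ideal S => ((J.map (Ideal.Quotient.mk I) : Ideal (S ⧸ I)) : Set (S ⧸ I)))
      (Set.toFinite _) ?_
    intro J₁ h₁ J₂ h₂ h
    have h' : J₁.map (Ideal.Quotient.mk I) = J₂.map (Ideal.Quotient.mk I) :=
      SetLike.coe_injective h
    have key : ∀ J ∈ K, Ideal.comap (Ideal.Quotient.mk I) (J.map (Ideal.Quotient.mk I)) = J := by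
      intro J hJ
      rw [Ideal.comap_map_of_surjective _ Ideal.Quotient.mk_surjective, ← RingHom.ker_eq_comap_bot,
        Ideal.mk_ker, sup_eq_left]
      exact hI J hJ
    rw [← key J₁ h₁, ← key J₂ h₂, h']
  obtain ⟨J₀, hJ₀⟩ := hne
  have hne' : hfin.toFinset.Nonempty := ⟨J₀, hfin.mem_toFinset.mpr hJ₀⟩
  refine ⟨hfin.toFinset.inf' hne' id, ?_, fun J' hJ' => ?_⟩
  · exact Finset.inf'_mem K hinf _ hne' id fun J hJ => hfin.mem_toFinset.mp hJ
  · exact Finset.inf'_le (f := id) (hfin.mem_toFinset.mpr hJ')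

end Min

section Separating
variable {𝒪 : Type} [CommRing 𝒪] [IsLocalRing 𝒪] {ι : Type}

/-- A finite set of indices separates the points over the dual numbers. -/
def Separates (D : RigidFunctor 𝒪 ι) (Sg : Finset ι) : Prop :=
  letI := dualNumberAlgebra 𝒪
  ∀ v w : ι → DualNumber (ResidueField 𝒪),
    D.G (DualNumber (ResidueField 𝒪)) v → D.G (DualNumber (ResidueField 𝒪)) w →
    (∀ s ∈ Sg, v s = w s) → v = w

/-- (T) There is a finite separating set of indices. -/
theorem exists_separates (D : RigidFunctor 𝒪 ι) : ∃ Sg : Finset ι, Separates D Sg := by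
  classical
  letI := dualNumberAlgebra 𝒪
  haveI : Finite {v : ι → DualNumber (ResidueField 𝒪) // D.G (DualNumber (ResidueField 𝒪)) v} :=
    D.tangent_finite
  letI : Fintype {v : ι → DualNumber (ResidueField 𝒪) // D.G (DualNumber (ResidueField 𝒪)) v} :=
    Fintype.ofFinite _
  let T := {v : ι → DualNumber (ResidueField 𝒪) // D.G (DualNumber (ResidueField 𝒪)) v}
  let sel : T × T → Finset ι := fun p =>
    if h : p.1.1 ≠ p.2.1 then {Classical.choose (Function.ne_iff.mp h)} else ∅
  refine ⟨(Finset.univ : Finset (T × T)).biUnion sel, ?_⟩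
  intro v w hv hw h
  by_contra hne
  let p : T × T := (⟨v, hv⟩, ⟨w, hw⟩)
  have hne' : p.1.1 ≠ p.2.1 := hne
  have hspec := Classical.choose_spec (Function.ne_iff.mp hne')
  apply hspec
  apply h
  rw [Finset.mem_biUnion]
  refine ⟨p, Finset.mem_univ _, ?_⟩
  simp only [sel, dif_pos hne', Finset.mem_singleton]

end Separating

section Gen
variable {𝒪 : Type} [CommRing 𝒪] [IsLocalRing 𝒪] [Finite (ResidueField 𝒪)] {ι : Type}

/-- (Gen) Over a finite test algebra, every coordinate of a point lies in the subalgebra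
generated by the coordinates indexed by a separating set. -/
theorem mem_adjoin_image (D : RigidFunctor 𝒪 ι) (Sg : Finset ι) (hSg : Separates D Sg)
    {A : Type} [CommRing A] [IsLocalRing A] [Algebra 𝒪 A] [IsTestAlg 𝒪 A] [Finite A]
    {v : ι → A} (hv : D.G A v) (i : ι) :
    v i ∈ Algebra.adjoin 𝒪 (v '' (Sg : Set ι)) := by
  classical
  letI := dualNumberAlgebra 𝒪
  haveI : IsTestAlg 𝒪 (DualNumber (ResidueField 𝒪)) :=
    ⟨dualNumberAlgebra_isLocalHom 𝒪, dualNumberAlgebra_residue_surjective 𝒪⟩
  -- the subalgebra generated by all coordinates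
  let T : Subalgebra 𝒪 A := Algebra.adjoin 𝒪 (Set.range v)
  let vT : ι → T := fun j => ⟨v j, Algebra.subset_adjoin (Set.mem_range_self j)⟩
  have hvT : D.G T vT := D.of_injective T.val Subtype.val_injective vT hv
  have hgen : Algebra.adjoin 𝒪 (Set.range vT) = ⊤ := by
    have h1 : Set.range vT = (Subtype.val ⁻¹' (Set.range v) : Set T) := by
      ext x
      constructor
      · rintro ⟨j, rfl⟩
        exact ⟨j, rfl⟩
      · rintro ⟨j, hj⟩
        exact ⟨j, Subtype.ext hj⟩
    rw [h1]
    exact Algebra.adjoin_adjoin_coe_preimage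
  -- the subalgebra generated by the coordinates in `Sg`
  let B : Subalgebra 𝒪 T := Algebra.adjoin 𝒪 (vT '' (Sg : Set ι))
  have hB : B = ⊤ := by
    by_contra hB
    obtain ⟨c, hc⟩ := exists_maximalIdeal_pow_eq_bot_of_isArtinianRing T
    obtain ⟨f₁, f₂, hne, heq⟩ := exists_ne_algHom_dualNumber_of_ne_top
      (IsTestAlg.isLocalHom (𝒪 := 𝒪) (A := T)) (IsTestAlg.residue_surjective (𝒪 := 𝒪) (A := T))
      c hc B hB
    apply hne
    have h1 : D.G (DualNumber (ResidueField 𝒪)) (fun j => f₁ (vT j)) := D.map f₁ hvT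
    have h2 : D.G (DualNumber (ResidueField 𝒪)) (fun j => f₂ (vT j)) := D.map f₂ hvT
    have h3 : (fun j => f₁ (vT j)) = (fun j => f₂ (vT j)) := by
      refine hSg _ _ h1 h2 fun s hs => ?_
      exact heq _ (Algebra.subset_adjoin ⟨s, hs, rfl⟩)
    refine AlgHom.ext_of_adjoin_eq_top hgen ?_
    rintro _ ⟨j, rfl⟩
    exact congrFun h3 j
  have h4 : vT i ∈ B := by rw [hB]; exact Algebra.mem_top
  have h5 : T.val (vT i) ∈ B.map T.val := ⟨vT i, h4, rfl⟩
  rw [AlgHom.map_adjoin, Set.image_image] at h5
  exact h5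

end Gen

end Fermat.Agent.TeamA.ProRepGen
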