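import Fermat.Agent.TeamA.Functor
import Fermat.Agent.TeamA.CompleteLift
set_option autoImplicit false
open scoped TensorProduct
open IsLocalRing Polynomial
namespace Fermat.Agent.TeamA.Rep
local notation "Γℚ" => (AlgebraicClosure ℚ ≃ₐ[ℚ] AlgebraicClosure ℚ)

section QuotPow
variable {𝒪 : Type} [CommRing 𝒪] [IsLocalRing 𝒪]
variable {A : Type} [CommRing A] [IsLocalRing A] [Algebra 𝒪 A] [IsTestAlg 𝒪 A]

instance quotPow_isLocalRing (c : ℕ) : IsLocalRing (A ⧸ maximalIdeal A ^ (c + 1)) :=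
  isLocalRing_quotient_pow (Nat.succ_ne_zero c)

instance quotPow_isTestAlg (c : ℕ) : IsTestAlg 𝒪 (A ⧸ maximalIdeal A ^ (c + 1)) :=
  ⟨isLocalHom_algebraMap_quotient_pow IsTestAlg.isLocalHom (Nat.succ_ne_zero c),
    residue_surjective_quotient_pow IsTestAlg.residue_surjective (Nat.succ_ne_zero c)⟩

variable (𝒪) in
theorem quotPow_finite [IsNoetherianRing A] [Finite (ResidueField 𝒪)] (c : ℕ) :
    Finite (A ⧸ maximalIdeal A ^ (c + 1)) := by
  haveI : Finite (ResidueField A) :=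
    finite_residueField_of_residue_surjective (𝒪 := 𝒪) IsTestAlg.isLocalHom IsTestAlg.residue_surjective
  exact finite_quotient_pow (c + 1)

theorem quotPow_nilp (c : ℕ) :
    maximalIdeal (A ⧸ maximalIdeal A ^ (c + 1)) ^ (c + 1) = ⊥ :=
  maximalIdeal_quotient_pow_pow (Nat.succ_ne_zero c)

omit [IsTestAlg 𝒪 A] [Algebra 𝒪 A] in
theorem eq_of_forall_sub_mem [IsAdicComplete (maximalIdeal A) A] {x y : A}
    (h : ∀ c : ℕ, x - y ∈ maximalIdeal A ^ (c + 1)) : x = y := by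
  rw [← sub_eq_zero]
  apply IsHausdorff.haus' (I := maximalIdeal A) (x - y)
  intro n
  rw [SModEq.zero, smul_eq_mul, Ideal.mul_top]
  exact Ideal.pow_le_pow_right (Nat.le_succ n) (h n)

omit [IsTestAlg 𝒪 A] in
theorem eq_of_forall_mk_eq [IsAdicComplete (maximalIdeal A) A] {x y : A}
    (h : ∀ c : ℕ, Ideal.Quotient.mkₐ 𝒪 (maximalIdeal A ^ (c + 1)) x =
      Ideal.Quotient.mkₐ 𝒪 (maximalIdeal A ^ (c + 1)) y) : x = y := by
  apply eq_of_forall_sub_mem
  intro c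
  have := h c
  rwa [Ideal.Quotient.mkₐ_eq_mk, Ideal.Quotient.eq] at this

end QuotPow
end Fermat.Agent.TeamA.Rep
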