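import Fermat.Agent.TeamA.FibGood
import Fermat.Agent.TeamA.Dual
set_option autoImplicit false
open scoped TensorProduct
open IsLocalRing Polynomial
namespace Fermat.Agent.TeamA.Rep
local notation "Γℚ" => (AlgebraicClosure ℚ ≃ₐ[ℚ] AlgebraicClosure ℚ)

section Tangent
variable {𝒪 : Type} [CommRing 𝒪] [IsLocalRing 𝒪]
variable {ρbar : ResidualGaloisRep (ResidueField 𝒪)} (Fr : Frame 𝒪 ρbar)
variable {𝒟 : ∀ ⦃A : Type⦄ [CommRing A] [IsLocalRing A] [Algebra 𝒪 A], GaloisRepAdic A → Prop}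
variable {A : Type} [CommRing A] [IsLocalRing A] [Algebra 𝒪 A] [IsTestAlg 𝒪 A]

theorem residual_isEquiv_of_lifts (ρ : GaloisRepAdic A) (b : Module.Basis (Fin 2) A ρ.V)
    (h : Lifts Fr.Rt (matOf ρ b)) :
    ρ.residual.IsEquiv (ρbar.baseChangeAlong (ResidueField.map (algebraMap 𝒪 A))) := by
  apply res_isEquiv_of_conj ρ.residual _ (residualBasis ρ b)
    (resBcBasis (ResidueField.map (algebraMap 𝒪 A)) ρbar Fr.bbar) 1 1 (one_mul 1) (one_mul 1)
  intro g
  rw [one_mul, mul_one, matOfRes_residual, matOfRes_baseChangeAlong, ← Fr.hRt]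
  exact (lifts_iff_map_residue Fr.Rt (matOf ρ b)).mp h g

theorem dual_residue_map_eq :
    letI := dualNumberAlgebra 𝒪
    haveI := dualNumberAlgebra_isLocalHom 𝒪
    ResidueField.map (algebraMap 𝒪 (DualNumber (ResidueField 𝒪))) =
      (IsLocalRing.residue (DualNumber (ResidueField 𝒪))).comp
        (algebraMap (ResidueField 𝒪) (DualNumber (ResidueField 𝒪))) := by
  letI := dualNumberAlgebra 𝒪
  haveI := dualNumberAlgebra_isLocalHom 𝒪
  ext x
  obtain ⟨o, rfl⟩ := residue_surjective x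
  rw [ResidueField.map_residue]
  rfl

theorem finite_good_dual (hfin : GaloisRep.TangentFinite 𝒪 ρbar 𝒟) :
    letI := dualNumberAlgebra 𝒪
    Finite {r : Γℚ → Matrix (Fin 2) (Fin 2) (DualNumber (ResidueField 𝒪)) //
      IsGood Fr 𝒟 (DualNumber (ResidueField 𝒪)) r} := by
  letI := dualNumberAlgebra 𝒪
  letI := dualNumberResidueAlgebra 𝒪
  haveI : IsTestAlg 𝒪 (DualNumber (ResidueField 𝒪)) :=
    ⟨dualNumberAlgebra_isLocalHom 𝒪, dualNumberAlgebra_residue_surjective 𝒪⟩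
  unfold GaloisRep.TangentFinite at hfin
  -- the underlying representation of a good matrix function
  have key : ∀ r : {r : Γℚ → Matrix (Fin 2) (Fin 2) (DualNumber (ResidueField 𝒪)) //
      IsGood Fr 𝒟 (DualNumber (ResidueField 𝒪)) r},
      ∃ ρ : GaloisRepAdic (DualNumber (ResidueField 𝒪)),
        (𝒟 ρ ∧ ρ.residual.IsEquiv
          (ρbar.baseChange (ResidueField (DualNumber (ResidueField 𝒪))))) ∧
        ∃ b : Module.Basis (Fin 2) (DualNumber (ResidueField 𝒪)) ρ.V, ∀ g, matOf ρ b g = r.1 g := by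
    rintro ⟨r, h1, h2, ρ, b, hb, hD⟩
    refine ⟨ρ, ⟨hD, ?_⟩, b, hb⟩
    have hl : Lifts Fr.Rt (matOf ρ b) := by
      have : matOf ρ b = r := funext hb
      rw [this]; exact h1
    have := residual_isEquiv_of_lifts Fr ρ b hl
    rw [dual_residue_map_eq (𝒪 := 𝒪)] at this
    exact this
  choose ρ hρ b hb using key
  haveI := hfin
  refine Finite.of_injective (β := Quotient (⟨fun ρ ρ' : {ρ : GaloisRepAdic (DualNumber (ResidueField 𝒪)) //
      𝒟 ρ ∧ ρ.residual.IsEquiv (ρbar.baseChange (ResidueField (DualNumber (ResidueField 𝒪)))) } =>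
      ρ.1.IsEquiv ρ'.1, ⟨fun ρ => ⟨GaloisRepAdic.Equiv.refl ρ.1⟩,
        fun ⟨e⟩ => ⟨e.symm⟩, fun ⟨e⟩ ⟨e'⟩ => ⟨e.trans e'⟩⟩⟩ : Setoid _))
    (fun r => Quotient.mk _ ⟨ρ r, hρ r⟩) ?_
  intro r r' hrr'
  have hequiv : (ρ r).IsEquiv (ρ r') := Quotient.exact hrr'
  obtain ⟨M, M', hMM', hM'M, hconj⟩ := exists_conj_of_isEquiv (ρ r) (ρ r') (b r) (b r') hequiv
  apply Subtype.ext
  apply normalized_unique Fr.cond r.2.1 r'.2.1 r.2.2.1 r'.2.2.1 M M' hM'M
  intro g
  rw [← hb r g, ← hb r' g]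
  exact hconj g

end Tangent
end Fermat.Agent.TeamA.Rep
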