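import Fermat.Agent.TeamA.MatRep
set_option autoImplicit false
open scoped TensorProduct
open IsLocalRing
namespace Fermat.Agent.TeamA.Rep
local notation "Γℚ" => (AlgebraicClosure ℚ ≃ₐ[ℚ] AlgebraicClosure ℚ)

/-- Test algebras: local `𝒪`-algebras with local structure map and residue field `k`. -/
class IsTestAlg (𝒪 A : Type) [CommRing 𝒪] [IsLocalRing 𝒪] [CommRing A] [IsLocalRing A]
    [Algebra 𝒪 A] : Prop where
  isLocalHom : IsLocalHom (algebraMap 𝒪 A)
  residue_surjective : Function.Surjective (IsLocalRing.residue A ∘ algebraMap 𝒪 A)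

attribute [instance] IsTestAlg.isLocalHom

section TestAlg
variable (𝒪 : Type) [CommRing 𝒪] [IsLocalRing 𝒪]
variable (A : Type) [CommRing A] [IsLocalRing A] [Algebra 𝒪 A] [IsTestAlg 𝒪 A]

/-- The identification of residue fields. -/
noncomputable def kappa : ResidueField 𝒪 →+* ResidueField A :=
  ResidueField.map (algebraMap 𝒪 A)

theorem kappa_residue (o : 𝒪) : kappa 𝒪 A (residue 𝒪 o) = residue A (algebraMap 𝒪 A o) :=
  ResidueField.map_residue _ _

theorem kappa_bijective : Function.Bijective (kappa 𝒪 A) := by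
  refine ⟨(kappa 𝒪 A).injective, fun x => ?_⟩
  obtain ⟨o, ho⟩ := IsTestAlg.residue_surjective (𝒪 := 𝒪) (A := A) x
  exact ⟨residue 𝒪 o, by rw [kappa_residue]; exact ho⟩

theorem exists_algebraMap_sub_mem (a : A) : ∃ o : 𝒪, a - algebraMap 𝒪 A o ∈ maximalIdeal A := by
  obtain ⟨o, ho⟩ := IsTestAlg.residue_surjective (𝒪 := 𝒪) (A := A) (residue A a)
  refine ⟨o, ?_⟩
  rw [← residue_eq_zero_iff, map_sub, sub_eq_zero]
  exact ho.symm

theorem isTestAlg_of_isArtinianTestAlgebra {𝒪 A : Type} [CommRing 𝒪] [IsLocalRing 𝒪] [CommRing A]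
    [IsLocalRing A] [Algebra 𝒪 A] (h : GaloisRep.IsArtinianTestAlgebra 𝒪 A) : IsTestAlg 𝒪 A :=
  ⟨h.isLocalHom, h.residue_surjective⟩

end TestAlg
section LocalHom
variable {𝒪 : Type} [CommRing 𝒪] [IsLocalRing 𝒪]
variable {A : Type} [CommRing A] [IsLocalRing A] [Algebra 𝒪 A]
variable {B : Type} [CommRing B] [IsLocalRing B] [Algebra 𝒪 B]

/-- Every `𝒪`-algebra map between test algebras is local. -/
theorem isLocalHom_of_isTestAlg [IsTestAlg 𝒪 A] [IsTestAlg 𝒪 B] (φ : A →ₐ[𝒪] B) :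
    IsLocalHom (φ : A →+* B) := by
  constructor
  intro a ha
  by_contra hna
  have ham : a ∈ maximalIdeal A := (mem_maximalIdeal a).mpr hna
  obtain ⟨c, hc⟩ := exists_algebraMap_sub_mem 𝒪 B (φ a)
  have hcu : IsUnit c := by
    by_contra hcn
    have h1 : algebraMap 𝒪 B c ∈ maximalIdeal B := by
      rw [mem_maximalIdeal, mem_nonunits_iff]
      intro hu
      exact hcn ((IsTestAlg.isLocalHom (𝒪 := 𝒪) (A := B)).map_nonunit c hu)
    have h2 : φ a ∈ maximalIdeal B := by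
      have := (maximalIdeal B).add_mem hc h1
      rwa [sub_add_cancel] at this
    exact (mem_maximalIdeal _).mp h2 ha
  have hu1 : IsUnit (algebraMap 𝒪 A c - a) := by
    have hcA : IsUnit (algebraMap 𝒪 A c) := hcu.map _
    by_contra hn
    have h3 : algebraMap 𝒪 A c - a ∈ maximalIdeal A := (mem_maximalIdeal _).mpr hn
    have := (maximalIdeal A).add_mem h3 ham
    rw [sub_add_cancel] at this
    exact (mem_maximalIdeal _).mp this hcA
  have hu2 : IsUnit (φ (algebraMap 𝒪 A c - a)) := hu1.map φ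
  rw [map_sub, AlgHom.commutes] at hu2
  have h4 : algebraMap 𝒪 B c - φ a ∈ maximalIdeal B := by
    have := (maximalIdeal B).neg_mem hc
    rwa [neg_sub] at this
  exact (mem_maximalIdeal _).mp h4 hu2

theorem map_mem_maximalIdeal [IsTestAlg 𝒪 A] [IsTestAlg 𝒪 B] (φ : A →ₐ[𝒪] B) {a : A}
    (ha : a ∈ maximalIdeal A) : φ a ∈ maximalIdeal B := by
  have := isLocalHom_of_isTestAlg φ
  rw [mem_maximalIdeal, mem_nonunits_iff] at ha ⊢
  intro hu
  exact ha (isUnit_of_map_unit (φ : A →+* B) a hu)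

end LocalHom

section Lifts
variable {𝒪 : Type} [CommRing 𝒪] [IsLocalRing 𝒪]
variable {A : Type} [CommRing A] [IsLocalRing A] [Algebra 𝒪 A]

/-- `r` lifts (the reduction of) `Rt`. -/
def Lifts (Rt : Γℚ → Matrix (Fin 2) (Fin 2) 𝒪) (r : Γℚ → Matrix (Fin 2) (Fin 2) A) : Prop :=
  ∀ g i j, r g i j - algebraMap 𝒪 A (Rt g i j) ∈ maximalIdeal A

theorem lifts_iff_map_residue [IsTestAlg 𝒪 A] (Rt : Γℚ → Matrix (Fin 2) (Fin 2) 𝒪)
    (r : Γℚ → Matrix (Fin 2) (Fin 2) A) :
    Lifts Rt r ↔ ∀ g, (r g).map (residue A) = ((Rt g).map (residue 𝒪)).map (kappa 𝒪 A) := by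
  unfold Lifts
  refine forall_congr' fun g => ?_
  rw [← Matrix.ext_iff]
  refine forall_congr' fun i => forall_congr' fun j => ?_
  rw [Matrix.map_apply, Matrix.map_apply, Matrix.map_apply, kappa_residue,
    ← residue_eq_zero_iff, map_sub, sub_eq_zero]

theorem Lifts.comp {B : Type} [CommRing B] [IsLocalRing B] [Algebra 𝒪 B]
    [IsTestAlg 𝒪 A] [IsTestAlg 𝒪 B]
    {Rt : Γℚ → Matrix (Fin 2) (Fin 2) 𝒪} {r : Γℚ → Matrix (Fin 2) (Fin 2) A}
    (h : Lifts Rt r) (φ : A →ₐ[𝒪] B) :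
    Lifts Rt (fun g => (r g).map φ) := by
  intro g i j
  show φ (r g i j) - algebraMap 𝒪 B (Rt g i j) ∈ maximalIdeal B
  have h2 : φ (r g i j) - algebraMap 𝒪 B (Rt g i j) = φ (r g i j - algebraMap 𝒪 A (Rt g i j)) := by
    rw [map_sub, AlgHom.commutes]
  rw [h2]
  exact map_mem_maximalIdeal φ (h g i j)

end Lifts

end Fermat.Agent.TeamA.Rep
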